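import Fermat.Agent.ZetaOdd.LinearForms

/-!
# The series of the linear forms are asymptotically equal

On the grid `n + q / D` the values `F_q` of `R_n` have `∑ |F_(q + 1) - F_q|` negligible against
`∑ F_q`: with `w_q = q / (q + 1 + 3 D n)` and `(F_(q + 1) - F_q) w_q = G_q F_q` the function `G`
is `O (1 / n)`-Lipschitz, so summation by parts makes `∑ (F_(q + 1) - F_q) G_q` negligible. Hence
the series over the `D` residue classes of `q` are asymptotically equal.
-/

open Finset Filter Topology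

noncomputable section

namespace FA.ZetaOdd

variable {n D e : ℕ}

/-- The value `R_n (n + q / D)`. -/
def gridVal (n D e q : ℕ) : ℝ := rat n D e ((n : ℝ) + (q : ℝ) / D)

/-- The series of `R_n` over the points of the grid congruent to `u`. -/
def gridSum (n D e u : ℕ) : ℝ := ∑' m : ℕ, gridVal n D e (m * D + u)

/-- The series of `R_n` over the whole grid. -/
def gridTotal (n D e : ℕ) : ℝ := ∑' q : ℕ, gridVal n D e (q + 1)

theorem gridVal_nonneg (q : ℕ) : 0 ≤ gridVal n D e q :=
  rat_nonneg (le_add_of_nonneg_right (by positivity))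

theorem gridVal_pos (hn : 1 ≤ n) (hD : 1 ≤ D) {q : ℕ} (hq : 1 ≤ q) : 0 < gridVal n D e q := by
  have hn' : (0 : ℝ) < n := by exact_mod_cast hn
  have hD' : (0 : ℝ) < D := by exact_mod_cast hD
  have hq' : (0 : ℝ) < q := by exact_mod_cast hq
  have h1 := den_pos (n := n) (t := (n : ℝ) + (q : ℝ) / D) (by positivity)
  unfold gridVal rat
  refine div_pos (div_pos (mul_pos (by positivity) (prod_pos fun i _ => ?_)) hD') (pow_pos h1 _)
  rw [add_sub_cancel_left, mul_div_cancel₀ _ hD'.ne']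
  positivity

theorem gridVal_le (hn : 1 ≤ n) (hD : 1 ≤ D) (e' q : ℕ) (hq : 1 ≤ q) :
    gridVal n D (2 + e') q ≤
      3 * (3 * D) ^ (3 * D * n) / (n.centralBinom : ℝ) ^ e' * (D : ℝ) ^ 2 / (q : ℝ) ^ 2 := by
  have hn' : (0 : ℝ) < n := by exact_mod_cast hn
  have hD' : (0 : ℝ) < D := by exact_mod_cast hD
  have hq' : (0 : ℝ) < q := by exact_mod_cast hq
  refine le_trans (rat_le hn hD e' (t := (n : ℝ) + (q : ℝ) / D)
    (le_add_of_nonneg_right (by positivity))) ?_
  rw [le_div_iff₀ (by positivity), div_mul_eq_mul_div, div_le_iff₀ (by positivity),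
    mul_assoc _ ((D : ℝ) ^ 2)]
  refine mul_le_mul_of_nonneg_left ?_ (by positivity)
  rw [← mul_pow]
  refine pow_le_pow_left₀ (by positivity) ?_ 2
  rw [mul_add, mul_div_cancel₀ _ hD'.ne']
  nlinarith

theorem summable_gridVal (hn : 1 ≤ n) (hD : 1 ≤ D) (he : 2 ≤ e) :
    Summable fun q => gridVal n D e (q + 1) := by
  obtain ⟨e', rfl⟩ : ∃ e', e = 2 + e' := ⟨e - 2, by omega⟩
  refine Summable.of_nonneg_of_le (fun q => gridVal_nonneg _)
    (fun q => gridVal_le hn hD e' (q + 1) (by omega)) ?_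
  simpa [div_eq_mul_inv] using (summable_zetaSum (le_refl 2)).mul_left
    (3 * (3 * D) ^ (3 * D * n) / (n.centralBinom : ℝ) ^ e' * (D : ℝ) ^ 2)

theorem gridTotal_nonneg : 0 ≤ gridTotal n D e := tsum_nonneg fun _ => gridVal_nonneg _

theorem gridTotal_pos (hn : 1 ≤ n) (hD : 1 ≤ D) (he : 2 ≤ e) : 0 < gridTotal n D e :=
  (summable_gridVal hn hD he).tsum_pos (fun _ => gridVal_nonneg _) 0 (gridVal_pos hn hD le_rfl)

theorem gridTotal_le (hn : 1 ≤ n) (hD : 1 ≤ D) (e' : ℕ) :
    gridTotal n D (2 + e') ≤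
      3 * (3 * D) ^ (3 * D * n) / (n.centralBinom : ℝ) ^ e' * (D : ℝ) ^ 2 * zetaSum 2 := by
  rw [zetaSum, ← tsum_mul_left]
  refine (summable_gridVal hn hD (by omega)).tsum_le_tsum (fun q => ?_)
    ((summable_zetaSum (le_refl 2)).mul_left _)
  refine le_trans (gridVal_le hn hD e' (q + 1) (by omega)) (le_of_eq ?_)
  push_cast
  ring

theorem summable_gridVal_class (hn : 1 ≤ n) (hD : 1 ≤ D) (he : 2 ≤ e) {u : ℕ} (hu : 1 ≤ u) :
    Summable fun m => gridVal n D e (m * D + u) := by
  have hinj : Function.Injective fun m : ℕ => m * D + (u - 1) := fun a b h => by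
    simpa [Nat.mul_right_cancel_iff (show 0 < D by omega)] using h
  refine ((summable_gridVal hn hD he).comp_injective hinj).congr fun m => ?_
  simp only [Function.comp_apply]
  congr 1
  omega

theorem sum_le_gridTotal (hn : 1 ≤ n) (hD : 1 ≤ D) (he : 2 ≤ e) (s : Finset ℕ) :
    ∑ q ∈ s, gridVal n D e (q + 1) ≤ gridTotal n D e :=
  (summable_gridVal hn hD he).sum_le_tsum s fun _ _ => gridVal_nonneg _

/-- The factor `∏_j (t + j) / (t + j + 1 / D)`, to the order of the poles. -/
def gridP (n D e q : ℕ) : ℝ :=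
  (den n ((n : ℝ) + (q : ℝ) / D) / den n ((n : ℝ) + ((q : ℝ) + 1) / D)) ^ (3 * D + e)

/-- The weight `q / (q + 1 + 3 D n)`. -/
def gridW (n D q : ℕ) : ℝ := (q : ℝ) / ((q : ℝ) + 1 + 3 * D * n)

theorem gridVal_succ_mul (hn : 1 ≤ n) (hD : 1 ≤ D) (q : ℕ) :
    gridVal n D e (q + 1) * gridW n D q = gridP n D e q * gridVal n D e q := by
  have hn' : (0 : ℝ) < n := by exact_mod_cast hn
  have hD' : (0 : ℝ) < D := by exact_mod_cast hD
  set N := 3 * D * n with hN
  have hNr : (3 : ℝ) * D * n = (N : ℕ) := by rw [hN]; push_cast; ring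
  have e₁ : ∀ x : ℝ, (D : ℝ) * ((n : ℝ) + x / D - n) = x := fun x => by field_simp; ring
  have hnum : (q : ℝ) * ∏ i ∈ range (N + 1), ((q : ℝ) + 1 + i) =
      ((q : ℝ) + 1 + N) * ∏ i ∈ range (N + 1), ((q : ℝ) + i) := by
    have h1 := prod_range_succ' (fun i : ℕ => (q : ℝ) + i) (N + 1)
    rw [prod_range_succ] at h1
    push_cast at h1
    rw [prod_congr rfl (g := fun i : ℕ => (q : ℝ) + 1 + i) (s₁ := range (N + 1))
      (f := fun i : ℕ => (q : ℝ) + ((i : ℝ) + 1)) fun i _ => by ring] at h1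
    linear_combination -h1
  have hd1 := den_pos (n := n) (t := (n : ℝ) + (q : ℝ) / D) (by positivity)
  have hd2 := den_pos (n := n) (t := (n : ℝ) + ((q : ℝ) + 1) / D) (by positivity)
  simp only [gridVal, gridW, gridP, rat, ← hN, Nat.cast_add, Nat.cast_one, e₁, hNr, div_pow]
  have hA := pow_pos hd1 (3 * D + e)
  have hB := pow_pos hd2 (3 * D + e)
  generalize den n ((n : ℝ) + (q : ℝ) / D) ^ (3 * D + e) = A at hA ⊢
  generalize den n ((n : ℝ) + ((q : ℝ) + 1) / D) ^ (3 * D + e) = B at hB ⊢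
  generalize ∏ i ∈ range (N + 1), ((q : ℝ) + 1 + i) = X at hnum ⊢
  generalize ∏ i ∈ range (N + 1), ((q : ℝ) + i) = Y at hnum ⊢
  field_simp
  linear_combination hnum

theorem abs_prod_sub_prod_le (f g : ℕ → ℝ) : ∀ m, (∀ i < m, 0 ≤ f i ∧ f i ≤ 1) →
    (∀ i < m, 0 ≤ g i ∧ g i ≤ 1) →
    |(∏ i ∈ range m, f i) - ∏ i ∈ range m, g i| ≤ ∑ i ∈ range m, |f i - g i| := by
  intro m
  induction m with
  | zero => simp
  | succ m ih =>
    intro hf hg
    rw [prod_range_succ, prod_range_succ, sum_range_succ,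
      show (∏ i ∈ range m, f i) * f m - (∏ i ∈ range m, g i) * g m =
        ((∏ i ∈ range m, f i) - ∏ i ∈ range m, g i) * f m +
          (∏ i ∈ range m, g i) * (f m - g m) by ring]
    refine le_trans (abs_add_le _ _) (add_le_add ?_ ?_)
    · rw [abs_mul, abs_of_nonneg (hf m (by omega)).1]
      exact le_trans (mul_le_of_le_one_right (abs_nonneg _) (hf m (by omega)).2)
        (ih (fun i hi => hf i (by omega)) fun i hi => hg i (by omega))
    · rw [abs_mul, abs_of_nonneg (prod_nonneg fun i hi => (hg i (by simp at hi; omega)).1)]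
      exact mul_le_of_le_one_left (abs_nonneg _)
        (prod_le_one (fun i hi => (hg i (by simp at hi; omega)).1)
          fun i hi => (hg i (by simp at hi; omega)).2)

/-- The factor of `gridP` at `j`. -/
def gridFac (n D j q : ℕ) : ℝ :=
  ((n : ℝ) + (q : ℝ) / D + j) / ((n : ℝ) + ((q : ℝ) + 1) / D + j)

theorem gridP_eq_prod (q : ℕ) :
    gridP n D e q = (∏ j ∈ range (n + 1), gridFac n D j q) ^ (3 * D + e) := by
  rw [gridP, den, den, ← prod_div_distrib]; rfl

theorem gridFac_mem (hn : 1 ≤ n) (j q : ℕ) :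
    0 ≤ gridFac n D j q ∧ gridFac n D j q ≤ 1 := by
  have hn' : (0 : ℝ) < n := by exact_mod_cast hn
  refine ⟨by unfold gridFac; positivity, ?_⟩
  rw [gridFac, div_le_one (by positivity)]
  gcongr
  linarith

theorem gridP_mem (hn : 1 ≤ n) (q : ℕ) : 0 ≤ gridP n D e q ∧ gridP n D e q ≤ 1 := by
  rw [gridP_eq_prod]
  exact ⟨pow_nonneg (prod_nonneg fun j _ => (gridFac_mem hn j q).1) _,
    pow_le_one₀ (prod_nonneg fun j _ => (gridFac_mem hn j q).1)
      (prod_le_one (fun j _ => (gridFac_mem hn j q).1) fun j _ => (gridFac_mem hn j q).2)⟩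

theorem abs_gridP_sub_le (hn : 1 ≤ n) (hD : 1 ≤ D) (q : ℕ) :
    |gridP n D e q - gridP n D e (q + 1)| ≤ 2 * (3 * D + e : ℕ) / n := by
  have hn' : (0 : ℝ) < n := by exact_mod_cast hn
  have hn1 : (1 : ℝ) ≤ n := by exact_mod_cast hn
  have hD' : (0 : ℝ) < D := by exact_mod_cast hD
  have hD1 : (1 : ℝ) ≤ D := by exact_mod_cast hD
  have hfac : ∀ j, |gridFac n D j q - gridFac n D j (q + 1)| ≤ 1 / (n : ℝ) ^ 2 := by
    intro j
    set x := (n : ℝ) + (q : ℝ) / D + j with hx
    set δ : ℝ := 1 / D with hδ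
    have hδ1 : δ ≤ 1 := by rw [hδ, div_le_one hD']; exact hD1
    have hδ0 : 0 < δ := by positivity
    have hxn : (n : ℝ) ≤ x := by
      rw [hx, add_assoc]; exact le_add_of_nonneg_right (by positivity)
    have e₁ : gridFac n D j q = x / (x + δ) := by
      rw [gridFac, hx, hδ]; congr 1; field_simp; ring
    have e₂ : gridFac n D j (q + 1) = (x + δ) / (x + δ + δ) := by
      rw [gridFac, hx, hδ]; push_cast; congr 1 <;> field_simp <;> ring
    have hx0 : 0 < x := by linarith
    rw [e₁, e₂, div_sub_div _ _ (by positivity) (by positivity), abs_div,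
      show x * (x + δ + δ) - (x + δ) * (x + δ) = -(δ ^ 2) by ring, abs_neg,
      abs_of_nonneg (sq_nonneg δ), abs_of_pos (by positivity)]
    refine div_le_div₀ zero_le_one (pow_le_one₀ hδ0.le hδ1) (by positivity) ?_
    rw [sq]
    exact mul_le_mul (by linarith) (by linarith) hn'.le (by positivity)
  have hprod : |(∏ j ∈ range (n + 1), gridFac n D j q) -
      ∏ j ∈ range (n + 1), gridFac n D j (q + 1)| ≤ 2 / n := by
    refine le_trans (abs_prod_sub_prod_le _ _ _ (fun j _ => gridFac_mem hn j q)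
      fun j _ => gridFac_mem hn j (q + 1)) (le_trans (sum_le_sum fun j _ => hfac j) ?_)
    rw [sum_const, card_range, nsmul_eq_mul, mul_one_div, div_le_div_iff₀ (by positivity) hn']
    push_cast
    nlinarith
  have h := abs_prod_sub_prod_le (fun _ => ∏ j ∈ range (n + 1), gridFac n D j q)
    (fun _ => ∏ j ∈ range (n + 1), gridFac n D j (q + 1)) (3 * D + e)
    (fun _ _ => ⟨prod_nonneg fun j _ => (gridFac_mem hn j _).1,
      prod_le_one (fun j _ => (gridFac_mem hn j _).1) fun j _ => (gridFac_mem hn j _).2⟩)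
    (fun _ _ => ⟨prod_nonneg fun j _ => (gridFac_mem hn j _).1,
      prod_le_one (fun j _ => (gridFac_mem hn j _).1) fun j _ => (gridFac_mem hn j _).2⟩)
  simp only [prod_const, card_range, sum_const, nsmul_eq_mul] at h
  rw [gridP_eq_prod, gridP_eq_prod]
  refine le_trans h ?_
  rw [mul_comm (2 : ℝ), mul_div_assoc]
  gcongr

theorem exp_neg_le_gridP (hn : 1 ≤ n) (hD : 2 ≤ D) (q : ℕ) :
    Real.exp (-((3 * D + e : ℕ) : ℝ)) ≤ gridP n D e q := by
  have hn' : (0 : ℝ) < n := by exact_mod_cast hn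
  have hn1 : (1 : ℝ) ≤ n := by exact_mod_cast hn
  have hD2 : (2 : ℝ) ≤ D := by exact_mod_cast hD
  have hD' : (0 : ℝ) < D := by linarith
  have hfac : ∀ j, Real.exp (-(1 / ((D : ℝ) * n))) ≤ gridFac n D j q := by
    intro j
    set y := (1 : ℝ) / ((D : ℝ) * n)
    have hy : 0 ≤ y := by positivity
    rw [Real.exp_neg, gridFac, inv_le_comm₀ (Real.exp_pos y) (by positivity), inv_div]
    refine le_trans ?_ (Real.add_one_le_exp y)
    rw [div_le_iff₀ (by positivity), add_mul, one_mul]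
    have h1 : (1 : ℝ) / D = y * n := by simp only [y]; field_simp
    have h2 : (0 : ℝ) ≤ (q : ℝ) / D := by positivity
    have h3 : (0 : ℝ) ≤ (j : ℝ) := j.cast_nonneg
    rw [add_div, h1]
    nlinarith
  rw [gridP_eq_prod]
  calc Real.exp (-((3 * D + e : ℕ) : ℝ)) = Real.exp (-1) ^ (3 * D + e) := by
        rw [← Real.exp_nat_mul, mul_neg_one]
    _ ≤ _ := by
        gcongr
        calc Real.exp (-1) ≤ Real.exp (-(1 / ((D : ℝ) * n))) ^ (n + 1) := by
              rw [← Real.exp_nat_mul, Real.exp_le_exp, mul_neg, neg_le_neg_iff, mul_one_div,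
                div_le_one (by positivity)]
              push_cast
              nlinarith
          _ = ∏ _j ∈ range (n + 1), Real.exp (-(1 / ((D : ℝ) * n))) := by simp
          _ ≤ _ := prod_le_prod (fun _ _ => (Real.exp_pos _).le) fun j _ => hfac j

theorem gridW_mem (q : ℕ) : 0 ≤ gridW n D q ∧ gridW n D q ≤ 1 := by
  refine ⟨by unfold gridW; positivity, ?_⟩
  rw [gridW, div_le_one (by positivity)]
  have : (0 : ℝ) ≤ 3 * D * n := by positivity
  linarith

theorem abs_gridW_sub_le (hn : 1 ≤ n) (hD : 1 ≤ D) (q : ℕ) :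
    |gridW n D q - gridW n D (q + 1)| ≤ 1 / n := by
  have hn' : (0 : ℝ) < n := by exact_mod_cast hn
  have hD1 : (1 : ℝ) ≤ D := by exact_mod_cast hD
  have hq : (0 : ℝ) ≤ q := q.cast_nonneg
  have hN : (n : ℝ) ≤ 3 * D * n := by nlinarith
  rw [gridW, gridW, Nat.cast_add, Nat.cast_one, div_sub_div _ _ (by positivity) (by positivity),
    abs_div, show (q : ℝ) * ((q : ℝ) + 1 + 1 + 3 * D * n) -
      ((q : ℝ) + 1 + 3 * D * n) * ((q : ℝ) + 1) = -(1 + 3 * D * n) by ring, abs_neg,
    abs_of_pos (by positivity), abs_of_pos (by positivity),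
    div_le_div_iff₀ (by positivity) hn', one_mul]
  have hy : (0 : ℝ) ≤ 3 * D * n := by positivity
  calc (1 + 3 * (D : ℝ) * n) * n ≤ (1 + 3 * D * n) * (3 * D * n) := by gcongr
    _ ≤ _ := by gcongr <;> linarith

/-- Summation by parts. -/
theorem sum_mul_diff_le {F G : ℕ → ℝ} {L : ℝ} (hF : ∀ q, 0 ≤ F q)
    (hG : ∀ q, |G q - G (q + 1)| ≤ L) : ∀ M,
    ∑ q ∈ range (M + 1), G q * (F (q + 1) - F q) ≤
      G M * F (M + 1) - G 0 * F 0 + L * ∑ q ∈ range M, F (q + 1) := by
  intro M
  induction M with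
  | zero => simp; ring_nf; rfl
  | succ M ih =>
    rw [sum_range_succ (fun q => G q * (F (q + 1) - F q)) (M + 1),
      sum_range_succ (fun q => F (q + 1)) M]
    have h := mul_le_mul_of_nonneg_right (le_trans (le_abs_self _) (hG M)) (hF (M + 1))
    nlinarith

/-- **The total variation on the grid is negligible.** -/
theorem variation_eventually_le (hD : 2 ≤ D) (he : 2 ≤ e) {ε : ℝ} (hε : 0 < ε) :
    ∀ᶠ n : ℕ in atTop, ∀ M, ∑ q ∈ range M, |gridVal n D e (q + 2) - gridVal n D e (q + 1)| ≤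
      ε * gridTotal n D e := by
  set S : ℝ := ((3 * D + e : ℕ) : ℝ) with hS
  set c := Real.exp (-S) with hc
  have hc0 : 0 < c := Real.exp_pos _
  have hc1 : c ≤ 1 := Real.exp_le_one_iff.2 (neg_nonpos.2 (Nat.cast_nonneg _))
  set η := ε / 2 with hη
  set c₁ : ℝ := c / (2 * (3 * D + 3)) with hc₁
  have hc₁0 : 0 < c₁ := by positivity
  set C : ℝ := 2 / c + 1 / (η * c₁) * (2 / c + (2 * S + 1)) with hC
  have hC0 : 0 < C := by
    have : (0 : ℝ) ≤ S := Nat.cast_nonneg _
    positivity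
  filter_upwards [eventually_ge_atTop 1,
    tendsto_natCast_atTop_atTop.eventually_ge_atTop (2 / c),
    tendsto_natCast_atTop_atTop.eventually_ge_atTop (C / η)] with n hn hn2 hnC M
  have hn' : (0 : ℝ) < n := by exact_mod_cast hn
  have hD1 : 1 ≤ D := by omega
  have hD2 : (2 : ℝ) ≤ D := by exact_mod_cast hD
  rw [div_le_iff₀ hc0] at hn2
  set q₀ := ⌊c * n⌋₊ with hq₀
  have hq₀u : (q₀ : ℝ) ≤ c * n := Nat.floor_le (by positivity)
  have hq₀l : c * n / 2 ≤ q₀ := by
    have := Nat.lt_floor_add_one (c * n)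
    rw [← hq₀] at this
    linarith
  have hq₀1 : 1 ≤ q₀ := Nat.le_floor (by push_cast; linarith)
  set F : ℕ → ℝ := fun q => gridVal n D e (q + 1) with hF
  set G : ℕ → ℝ := fun q => gridP n D e (q + 1) - gridW n D (q + 1) with hG
  set St := gridTotal n D e
  have hF0 : ∀ q, 0 < F q := fun q => gridVal_pos hn hD1 (by omega)
  have hkey : ∀ q, (F (q + 1) - F q) * gridW n D (q + 1) = G q * F q := by
    intro q
    have := gridVal_succ_mul (e := e) hn hD1 (q + 1)
    simp only [hF, hG]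
    linear_combination this
  -- the initial increasing segment
  have hinc : ∀ q, q + 1 < 2 * q₀ → F q ≤ F (q + 1) := by
    intro q hq
    have hW : gridW n D (q + 1) ≤ c := by
      have h1 : ((q + 1 : ℕ) : ℝ) ≤ 2 * (q₀ : ℕ) := by exact_mod_cast hq.le
      rw [gridW, div_le_iff₀ (by positivity)]
      have : 2 * (c * n) ≤ c * (((q + 1 : ℕ) : ℝ) + 1 + 3 * D * n) := by
        have h2 : 2 * (n : ℝ) ≤ ((q + 1 : ℕ) : ℝ) + 1 + 3 * D * n := by
          have : (0 : ℝ) ≤ ((q + 1 : ℕ) : ℝ) := Nat.cast_nonneg _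
          nlinarith
        nlinarith
      linarith
    have hP := exp_neg_le_gridP (e := e) hn hD (q + 1)
    have hWpos : 0 < gridW n D (q + 1) := by unfold gridW; positivity
    have hG0 : 0 ≤ G q * F q := mul_nonneg (by simp only [hG]; linarith) (hF0 q).le
    rw [← hkey q] at hG0
    by_contra hlt
    nlinarith [mul_neg_of_neg_of_pos (sub_neg.2 (not_le.1 hlt)) hWpos]
  have hmono : ∀ a b, a ≤ b → b < 2 * q₀ → F a ≤ F b := by
    intro a b hab
    induction b, hab using Nat.le_induction with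
    | base => intro _; rfl
    | succ b hab ih => intro hb; exact le_trans (ih (by omega)) (hinc b hb)
  have hFq₀ : (q₀ : ℝ) * F (q₀ - 1) ≤ St := by
    calc (q₀ : ℝ) * F (q₀ - 1) = ∑ _q ∈ Finset.Ico (q₀ - 1) (2 * q₀ - 1), F (q₀ - 1) := by
          rw [sum_const, Nat.card_Ico, nsmul_eq_mul]; congr; omega
      _ ≤ ∑ q ∈ Finset.Ico (q₀ - 1) (2 * q₀ - 1), F q := sum_le_sum fun q hq =>
          hmono _ _ (Finset.mem_Ico.1 hq).1 (by have := (Finset.mem_Ico.1 hq).2; omega)
      _ ≤ St := sum_le_gridTotal hn hD1 he _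
  have hcn : 0 < c * n := by positivity
  have hFq₀' : F (q₀ - 1) ≤ 2 / (c * n) * St := by
    rw [div_mul_eq_mul_div, le_div_iff₀ hcn]
    nlinarith [hF0 (q₀ - 1)]
  have hF00 : F 0 ≤ 2 / (c * n) * St :=
    le_trans (hmono 0 (q₀ - 1) (Nat.zero_le _) (by omega)) hFq₀'
  have hGb : ∀ q, |G q| ≤ 1 := fun q => by
    have h1 := gridP_mem (D := D) (e := e) hn (q + 1)
    have h2 := gridW_mem (n := n) (D := D) (q + 1)
    simp only [hG]
    rw [abs_le]
    constructor <;> linarith
  have hGL : ∀ q, |G q - G (q + 1)| ≤ (2 * S + 1) / n := fun q => by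
    have h1 := abs_gridP_sub_le (e := e) hn hD1 (q + 1)
    have h2 := abs_gridW_sub_le hn hD1 (q + 1)
    simp only [hG]
    rw [show (2 * S + 1) / (n : ℝ) = 2 * S / n + 1 / n by ring,
      show gridP n D e (q + 1) - gridW n D (q + 1) - (gridP n D e (q + 1 + 1) -
        gridW n D (q + 1 + 1)) = (gridP n D e (q + 1) - gridP n D e (q + 1 + 1)) -
        (gridW n D (q + 1) - gridW n D (q + 1 + 1)) by ring]
    exact le_trans (abs_sub _ _) (add_le_add h1 h2)
  have hGD : ∀ q, 0 ≤ G q * (F (q + 1) - F q) := by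
    intro q
    refine nonneg_of_mul_nonneg_left (b := F q) ?_ (hF0 q)
    rw [mul_right_comm, ← hkey q, mul_right_comm]
    exact mul_nonneg (mul_self_nonneg _) (gridW_mem _).1
  have htail : ∀ q, q₀ - 1 ≤ q →
      |F (q + 1) - F q| ≤ η * F q + 1 / (η * c₁) * (G q * (F (q + 1) - F q)) := by
    intro q hq
    have hW : c₁ ≤ gridW n D (q + 1) := by
      have h1 : (q₀ : ℝ) ≤ ((q + 1 : ℕ) : ℝ) := by exact_mod_cast (show q₀ ≤ q + 1 by omega)
      rw [gridW, hc₁, div_le_div_iff₀ (by positivity) (by positivity)]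
      have h2 : c * (((q + 1 : ℕ) : ℝ) + 1 + 3 * D * n) ≤
          c * ((q + 1 : ℕ) : ℝ) + c * n * (3 * D + 1) := by
        have : (1 : ℝ) ≤ n := by exact_mod_cast hn
        nlinarith
      have h3 : c * ((q + 1 : ℕ) : ℝ) ≤ ((q + 1 : ℕ) : ℝ) :=
        mul_le_of_le_one_left (Nat.cast_nonneg _) hc1
      nlinarith
    set X := F (q + 1) - F q
    have hx : |X| ≤ η * F q + 1 / (η * c₁) * (X ^ 2 * c₁ / F q) := by
      rw [show 1 / (η * c₁) * (X ^ 2 * c₁ / F q) = X ^ 2 / (η * F q) by field_simp]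
      have hy : 0 < η * F q := mul_pos (by positivity) (hF0 q)
      rw [← sub_le_iff_le_add', le_div_iff₀ hy]
      nlinarith [sq_nonneg (|X| - η * F q), sq_abs X, mul_nonneg (abs_nonneg X) hy.le]
    refine le_trans hx (add_le_add le_rfl (mul_le_mul_of_nonneg_left ?_ (by positivity)))
    rw [div_le_iff₀ (hF0 q)]
    calc X ^ 2 * c₁ ≤ X ^ 2 * gridW n D (q + 1) := by gcongr
      _ = G q * X * F q := by rw [mul_right_comm (G q), ← hkey q]; ring
  have hbound : ∀ M', q₀ ≤ M' → ∑ q ∈ range (M' + 1), |F (q + 1) - F q| ≤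
      η * St + C / n * St + 1 / (η * c₁) * F (M' + 1) := by
    intro M' hM'
    rw [← sum_range_add_sum_Ico _ (show q₀ - 1 ≤ M' + 1 by omega)]
    have h1 : ∑ q ∈ range (q₀ - 1), |F (q + 1) - F q| ≤ 2 / (c * n) * St := by
      rw [sum_congr rfl (g := fun q => F (q + 1) - F q) fun q hq => abs_of_nonneg
        (sub_nonneg.2 (hinc q (by have := mem_range.1 hq; omega))), sum_range_sub]
      linarith [hF0 0]
    have h2 : ∑ q ∈ Finset.Ico (q₀ - 1) (M' + 1), |F (q + 1) - F q| ≤
        η * St + 1 / (η * c₁) * (F (M' + 1) + (2 / (c * n) + (2 * S + 1) / n) * St) := by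
      refine le_trans (sum_le_sum fun q hq => htail q (Finset.mem_Ico.1 hq).1) ?_
      rw [sum_add_distrib, ← mul_sum, ← mul_sum]
      refine add_le_add (mul_le_mul_of_nonneg_left (sum_le_gridTotal hn hD1 he _) (by positivity))
        (mul_le_mul_of_nonneg_left ?_ (by positivity))
      refine le_trans (sum_le_sum_of_subset_of_nonneg
        (fun q hq => mem_range.2 (Finset.mem_Ico.1 hq).2)
        fun q _ _ => hGD q) ?_
      refine le_trans (sum_mul_diff_le (fun q => (hF0 q).le) hGL M') ?_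
      have h3 : ∑ q ∈ range M', F (q + 1) ≤ St := by
        refine le_trans (le_add_of_nonneg_left (hF0 0).le) ?_
        rw [add_comm, ← sum_range_succ' F]
        exact sum_le_gridTotal hn hD1 he _
      have h4 := mul_le_of_le_one_left (hF0 (M' + 1)).le (le_trans (le_abs_self _) (hGb M'))
      have h5 : -(G 0 * F 0) ≤ F 0 := by
        nlinarith [neg_abs_le (G 0), hGb 0, hF0 0]
      have h6 : 0 ≤ (2 * S + 1) / (n : ℝ) := by positivity
      nlinarith [mul_le_mul_of_nonneg_left h3 h6]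
    refine le_trans (add_le_add h1 h2) (le_of_eq ?_)
    rw [hC]
    ring
  have hlim : Tendsto (fun M' => η * St + C / n * St + 1 / (η * c₁) * F (M' + 1)) atTop
      (𝓝 (η * St + C / n * St + 1 / (η * c₁) * 0)) :=
    (((summable_gridVal hn hD1 he).tendsto_atTop_zero.comp (tendsto_add_atTop_nat 1)).const_mul
      _).const_add _
  have hM : ∑ q ∈ range M, |F (q + 1) - F q| ≤ η * St + C / n * St + 1 / (η * c₁) * 0 := by
    refine ge_of_tendsto hlim ?_
    filter_upwards [eventually_ge_atTop (max M q₀)] with M' hM'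
    exact le_trans (sum_le_sum_of_subset_of_nonneg (range_subset_range.2 (by omega))
      fun _ _ _ => abs_nonneg _) (hbound M' (by omega))
  refine le_trans hM ?_
  have hCn : C / n ≤ η := (div_le_comm₀ hn' (by positivity)).2 hnC
  have hSt : 0 ≤ St := gridTotal_nonneg
  nlinarith

/-- The total series is the sum of the series over the classes. -/
theorem gridTotal_eq_sum (hn : 1 ≤ n) (hD : 1 ≤ D) (he : 2 ≤ e) :
    gridTotal n D e = ∑ u ∈ range D, gridSum n D e (u + 1) := by
  have h1 := (summable_gridVal hn hD he).hasSum.tendsto_sum_nat.comp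
    (tendsto_id.atTop_mul_const' (show 0 < D by omega))
  refine tendsto_nhds_unique h1 ?_
  refine (tendsto_finsetSum _ fun u _ =>
    (summable_gridVal_class hn hD he (u := u + 1) (by omega)).hasSum.tendsto_sum_nat).congr
      fun M => ?_
  simp only [Function.comp_apply, id_eq, sum_range_mul_eq]
  rw [sum_comm]
  simp only [add_assoc]

/-- **The series over the classes are asymptotically equal.** -/
theorem gridSum_sub_eventually_le (hD : 2 ≤ D) (he : 2 ≤ e) {ε : ℝ} (hε : 0 < ε) :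
    ∀ᶠ n : ℕ in atTop, ∀ u, 1 ≤ u → u ≤ D →
      |gridSum n D e u - gridSum n D e D| ≤ ε * gridTotal n D e := by
  filter_upwards [variation_eventually_le hD he hε, eventually_ge_atTop 1] with n hvar hn u hu huD
  have hD1 : 1 ≤ D := by omega
  refine le_of_tendsto ((continuous_abs.tendsto _).comp
    ((summable_gridVal_class hn hD1 he hu).hasSum.tendsto_sum_nat.sub
      (summable_gridVal_class hn hD1 he hD1).hasSum.tendsto_sum_nat)) (Eventually.of_forall ?_)
  intro M
  rw [Function.comp_apply, ← sum_sub_distrib]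
  refine le_trans (abs_sum_le_sum_abs _ _) (le_trans ?_ (hvar (M * D)))
  rw [sum_range_mul_eq]
  refine sum_le_sum fun m _ => ?_
  have htel := sum_range_sub (fun l => gridVal n D e (m * D + u + l)) (D - u)
  simp only [add_zero, show m * D + u + (D - u) = m * D + D by omega] at htel
  rw [abs_sub_comm, ← htel]
  refine le_trans (abs_sum_le_sum_abs _ _) ?_
  calc ∑ l ∈ range (D - u), |gridVal n D e (m * D + u + (l + 1)) - gridVal n D e (m * D + u + l)|
      = ∑ l ∈ Finset.Ico (u - 1) (D - 1),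
          |gridVal n D e (m * D + l + 2) - gridVal n D e (m * D + l + 1)| := by
        rw [sum_Ico_eq_sum_range, show D - 1 - (u - 1) = D - u by omega]
        refine sum_congr rfl fun l _ => ?_
        rw [show m * D + (u - 1 + l) + 2 = m * D + u + (l + 1) by omega,
          show m * D + (u - 1 + l) + 1 = m * D + u + l by omega]
    _ ≤ _ := sum_le_sum_of_subset_of_nonneg
        (fun l hl => mem_range.2 (by have := (Finset.mem_Ico.1 hl).2; omega))
        fun _ _ _ => abs_nonneg _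

/-- For `D = v m` the series over `l + u / v` is the sum of the series over `n + q / D`. -/
theorem tendsto_series (hn : 1 ≤ n) (hD : 1 ≤ D) (he : 2 ≤ e) {v m : ℕ} (hm : D = v * m) :
    Tendsto (fun M => ∑ u ∈ range v, ∑ l ∈ range M, rat n D e ((l : ℝ) + ((u : ℝ) + 1) / v))
      atTop (𝓝 (∑ u ∈ range v, gridSum n D e ((u + 1) * m))) := by
  have hv0 : 0 < v := Nat.pos_of_ne_zero fun h => by simp [h] at hm; omega
  have hm0 : 0 < m := Nat.pos_of_ne_zero fun h => by simp [h] at hm; omega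
  refine tendsto_finsetSum _ fun u hu => ?_
  have hu' : u < v := mem_range.1 hu
  have hU : (u + 1) * m ≤ D := hm ▸ Nat.mul_le_mul_right m hu'
  have hU1 : 1 ≤ (u + 1) * m := Nat.mul_pos (by omega) hm0
  have hval : ((u : ℝ) + 1) / v = (((u + 1) * m : ℕ) : ℝ) / D := by
    have : (m : ℝ) ≠ 0 := by positivity
    rw [hm]; push_cast; field_simp
  refine (tendsto_add_atTop_iff_nat n).1 ?_
  refine (summable_gridVal_class hn hD he hU1).hasSum.tendsto_sum_nat.congr fun M => ?_
  have hz : ∑ l ∈ range n, rat n D e ((l : ℝ) + ((u : ℝ) + 1) / v) = 0 :=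
    sum_eq_zero fun l hl => by rw [hval]; exact rat_eq_zero hD (mem_range.1 hl) hU1 hU
  rw [add_comm M n, sum_range_add, hz, zero_add]
  refine sum_congr rfl fun l _ => ?_
  simp only [gridVal, hval]
  congr 1
  have : (D : ℝ) ≠ 0 := by positivity
  push_cast
  field_simp
  ring

end FA.ZetaOdd
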