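import Fermat.Agent.Apery.Irrational
import Fermat.Agent.ZetaOdd.Asymptotic

/-!
# Many odd zeta values are irrational

With `D = 2 ^ (K + 1)` an integer combination over the divisors `2 ^ l`, `l ≤ K`, of the linear
forms removes any `K` chosen exponents, as the Vandermonde identity
`∑ w_l (2 ^ l) ^ k = ∏ (2 ^ k - 2 ^ i)` shows. The result is nonzero and exponentially small against
the denominators, so more than `K` odd zeta values are irrational.
-/

open Finset Filter Topology Polynomial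

noncomputable section

namespace FA.ZetaOdd

theorem exists_int_weights (I : Finset ℕ) {K : ℕ} (hI : I.card ≤ K) :
    ∃ w : ℕ → ℤ, ∀ x : ℝ,
      ∑ l ∈ range (K + 1), (w l : ℝ) * x ^ l = ∏ i ∈ I, (x - (2 : ℝ) ^ i) := by
  set P : ℤ[X] := ∏ i ∈ I, (Polynomial.X - Polynomial.C ((2 : ℤ) ^ i)) with hP
  refine ⟨fun l => P.coeff l, fun x => ?_⟩
  have hdeg : P.natDegree < K + 1 := by
    refine Nat.lt_succ_of_le (le_trans (natDegree_prod_le _ _) ?_)
    refine le_trans (sum_le_sum (g := fun _ => 1) fun i _ => natDegree_X_sub_C_le _) ?_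
    simpa using hI
  have h1 : Polynomial.aeval x P = ∏ i ∈ I, (x - (2 : ℝ) ^ i) := by
    simp [hP, map_prod, map_sub, map_ofNat]
  rw [← h1, Polynomial.aeval_eq_sum_range' hdeg]
  exact sum_congr rfl fun l _ => by simp [Algebra.smul_def]

theorem dvd_lcmUpto_of_le {n δ : ℕ} (h : 1 ≤ δ) (hn : δ ≤ n) : δ ∣ Nat.lcmUpto n :=
  Finset.dvd_lcm (f := id) (mem_Icc.2 ⟨h, hn⟩)

theorem choose_dvd_lcmUpto {n c : ℕ} (hc : c ≤ n) : n.choose c ∣ Nat.lcmUpto n := by
  rcases Nat.eq_zero_or_pos c with rfl | hc0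
  · simp
  · exact (dvd_mul_left _ c).trans (FA.Apery.mul_choose_dvd_lcmUpto hc0 hc)

/-- For many poles the denominators are negligible against the size of the series. -/
theorem exists_exponent_tendsto {D : ℕ} (hD : 1 ≤ D) : ∃ m : ℕ,
    Tendsto (fun n => (Nat.lcmUpto n : ℝ) ^ (3 * D + (2 + 2 * m)) *
      gridTotal n D (2 + 2 * m)) atTop (𝓝 0) := by
  have hD' : (0 : ℝ) < D := by exact_mod_cast hD
  set B : ℝ := (31 / 10) ^ (3 * D + 2) * (3 * (D : ℝ)) ^ (3 * D) with hB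
  have hB0 : 0 < B := by positivity
  obtain ⟨m, hm⟩ := exists_pow_lt_of_lt_one (inv_pos.2 hB0)
    (show ((31 : ℝ) / 40) ^ 2 < 1 by norm_num)
  refine ⟨m, ?_⟩
  set β : ℝ := B * (((31 : ℝ) / 40) ^ 2) ^ m with hβ
  have hβ1 : β < 1 := by
    rw [hβ]
    calc B * (((31 : ℝ) / 40) ^ 2) ^ m < B * B⁻¹ := mul_lt_mul_of_pos_left hm hB0
      _ = 1 := mul_inv_cancel₀ hB0.ne'
  obtain ⟨C, hC0, hC⟩ := FA.Apery.exists_lcmUpto_le
  set S := 3 * D + (2 + 2 * m) with hS
  set K : ℝ := C ^ S * 3 * (2 : ℝ) ^ (2 * m) * (D : ℝ) ^ 2 * zetaSum 2 with hK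
  refine squeeze_zero' (g := fun n : ℕ => K * ((n : ℝ) ^ (2 * m) * β ^ n)) ?_ ?_ ?_
  · exact Eventually.of_forall fun n => mul_nonneg (by positivity) gridTotal_nonneg
  · filter_upwards [eventually_ge_atTop 1] with n hn
    have hn' : (0 : ℝ) < n := by exact_mod_cast hn
    have hz : 0 ≤ zetaSum 2 := tsum_nonneg fun _ => by positivity
    have hcb : (4 : ℝ) ^ n / (2 * n) ≤ n.centralBinom := by
      rw [div_le_iff₀ (by positivity)]
      have := Nat.four_pow_le_two_mul_self_mul_centralBinom n hn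
      calc (4 : ℝ) ^ n ≤ ((2 * n * n.centralBinom : ℕ) : ℝ) := by exact_mod_cast this
        _ = _ := by push_cast; ring
    calc (Nat.lcmUpto n : ℝ) ^ S * gridTotal n D (2 + 2 * m)
        ≤ (C * (31 / 10) ^ n) ^ S * (3 * (3 * D) ^ (3 * D * n) /
            ((4 : ℝ) ^ n / (2 * n)) ^ (2 * m) * (D : ℝ) ^ 2 * zetaSum 2) := by
          refine mul_le_mul ?_ ?_ gridTotal_nonneg (by positivity)
          · exact pow_le_pow_left₀ (Nat.cast_nonneg _) (hC n) S
          · refine le_trans (gridTotal_le hn hD (2 * m)) ?_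
            gcongr
      _ = K * ((n : ℝ) ^ (2 * m) * β ^ n) := by
          have hβ' : β = ((31 : ℝ) / 10) ^ S * (3 * (D : ℝ)) ^ (3 * D) / (4 : ℝ) ^ (2 * m) := by
            rw [hβ, hB, ← pow_mul, show ((31 : ℝ) / 40) = 31 / 10 / 4 by norm_num, hS,
              show 3 * D + (2 + 2 * m) = 3 * D + 2 + 2 * m by ring,
              pow_add _ (3 * D + 2) (2 * m), div_pow _ (4 : ℝ)]
            ring
          rw [hK, hβ']
          generalize (31 : ℝ) / 10 = a
          generalize (3 : ℝ) * (D : ℝ) = T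
          simp only [mul_pow, div_pow, ← pow_mul]
          field_simp
          ring
  · have h := (tendsto_pow_const_mul_const_pow_of_lt_one (2 * m) (r := β) (by positivity)
      hβ1).const_mul K
    rwa [mul_zero] at h

/-- **More than `K` odd zeta values are irrational.** -/
theorem exists_many_irrational (K : ℕ) : ∃ s : ℕ, ∃ I : Finset ℕ, K < I.card ∧
    ∀ k ∈ I, Odd k ∧ 3 ≤ k ∧ k ≤ s ∧ Irrational (zetaSum k) := by
  classical
  set D := 2 ^ (K + 1) with hDdef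
  have hD2 : 2 ≤ D := by
    rw [hDdef]; calc 2 = 2 ^ 1 := rfl
      _ ≤ _ := Nat.pow_le_pow_right two_pos (by omega)
  have hD1 : 1 ≤ D := by omega
  obtain ⟨m, hm⟩ := exists_exponent_tendsto hD1
  set e := 2 + 2 * m with he
  set S := 3 * D + e with hS
  refine ⟨S, (Icc 3 S).filter fun k => Odd k ∧ Irrational (zetaSum k), ?_, fun k hk => ?_⟩
  swap
  · obtain ⟨h1, h2, h3⟩ := mem_filter.1 hk
    obtain ⟨h4, h5⟩ := mem_Icc.1 h1
    exact ⟨h2, h4, h5, h3⟩
  set I := (Icc 3 S).filter fun k => Odd k ∧ Irrational (zetaSum k) with hI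
  by_contra hle
  obtain ⟨w, hw⟩ := exists_int_weights I (not_lt.1 hle)
  -- the rational values and a common denominator
  set rr : ℕ → ℚ := fun k => if h : ∃ r : ℚ, zetaSum k = r then h.choose else 0 with hrr
  set Q : ℕ := ∏ k ∈ range (S + 1), (rr k).den with hQ
  have hQ0 : 0 < Q := prod_pos fun k _ => (rr k).den_pos
  have hQint : ∀ k ∈ range (S + 1), ∃ z : ℤ, (Q : ℝ) * (rr k : ℝ) = z := by
    intro k hk
    obtain ⟨q, hq⟩ : (rr k).den ∣ Q := dvd_prod_of_mem _ hk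
    refine ⟨(q : ℤ) * (rr k).num, ?_⟩
    rw [hq, Rat.cast_def]
    have : ((rr k).den : ℝ) ≠ 0 := by exact_mod_cast (rr k).den_nz
    push_cast
    field_simp
  set B : ℝ := ∑ l ∈ range (K + 1), |(w l : ℝ)| * (2 : ℝ) ^ l with hB
  set W : ℝ := ∏ i ∈ I, ((2 : ℝ) - (2 : ℝ) ^ i) with hW
  have hW0 : W ≠ 0 := by
    refine prod_ne_zero_iff.2 fun i hi => sub_ne_zero.2 fun h => ?_
    have h1 : (3 : ℕ) ≤ i := (mem_Icc.1 (mem_filter.1 hi).1).1
    have h2 : (2 : ℝ) ^ 3 ≤ (2 : ℝ) ^ i := pow_le_pow_right₀ (by norm_num) h1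
    norm_num at h2
    linarith
  have hB0 : 0 ≤ B := sum_nonneg fun l _ => by positivity
  have hDr : (0 : ℝ) < D := by exact_mod_cast hD1
  set ε : ℝ := min (1 / (2 * D)) (|W| / (4 * D * (B + 1))) with hε
  have hε0 : 0 < ε := lt_min (by positivity) (by
    have := abs_pos.2 hW0
    positivity)
  have hsmall : ∀ᶠ n : ℕ in atTop,
      (Q : ℝ) * B * ((Nat.lcmUpto n : ℝ) ^ S * gridTotal n D e) < 1 := by
    have h := hm.const_mul ((Q : ℝ) * B)
    rw [mul_zero] at h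
    exact h.eventually_lt_const one_pos
  obtain ⟨n, hn, hnear, hlt⟩ := ((eventually_ge_atTop 1).and
    ((gridSum_sub_eventually_le hD2 (show 2 ≤ e by omega) hε0).and hsmall)).exists
  set d := Nat.lcmUpto n with hd
  have hd0 : 0 < d := Nat.lcmUpto_pos n
  obtain ⟨A, hA, hA0, hform⟩ := exists_linear_forms (e := e) hn hD1
    (Nat.even_pow.2 ⟨even_two, by omega⟩) ⟨1 + m, by omega⟩ (by omega) hd0
    (fun δ h h' => dvd_lcmUpto_of_le h h') fun c hc => choose_dvd_lcmUpto hc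
  -- the series of the combination
  set hat : ℕ → ℝ := fun l => ∑ u ∈ range (2 ^ l), gridSum n D e ((u + 1) * 2 ^ (K + 1 - l))
    with hhat
  set Λ : ℝ := ∑ l ∈ range (K + 1), (w l : ℝ) * hat l with hΛ
  have hsplit : ∀ l ∈ range (K + 1), D = 2 ^ l * 2 ^ (K + 1 - l) := fun l hl => by
    rw [← pow_add, hDdef]; congr 1; have := mem_range.1 hl; omega
  have hE : ∀ l ∈ range (K + 1), ∃ E : ℝ, (∃ z : ℤ, (d : ℝ) ^ S * E = z) ∧
      hat l = (∑ k ∈ range (S + 1), A k * ((2 : ℝ) ^ l) ^ k * zetaSum k) - E := by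
    intro l hl
    obtain ⟨E, hEz, hlim⟩ := hform (2 ^ l) ⟨_, hsplit l hl⟩
    refine ⟨E, hEz, ?_⟩
    have := tendsto_nhds_unique (tendsto_series hn hD1 (by omega) (hsplit l hl)) hlim
    push_cast at this
    exact this
  choose E hEz hEq using hE
  -- it is a rational number with bounded denominator
  have hint : ∃ z : ℤ, (Q : ℝ) * (d : ℝ) ^ S * Λ = z := by
    have hk : ∀ k ∈ range (S + 1), ∃ z : ℤ, (Q : ℝ) * (d : ℝ) ^ S *
        (A k * zetaSum k * ∏ i ∈ I, ((2 : ℝ) ^ k - (2 : ℝ) ^ i)) = z := by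
      intro k hk
      rcases eq_or_ne (A k) 0 with h | h
      · exact ⟨0, by simp [h]⟩
      obtain ⟨hodd, h3, hkS⟩ := hA0 k h
      by_cases hkI : k ∈ I
      · refine ⟨0, ?_⟩
        rw [prod_eq_zero hkI (show (2 : ℝ) ^ k - (2 : ℝ) ^ k = 0 from sub_self _)]
        simp
      have hrat : ∃ r : ℚ, zetaSum k = r := by
        by_contra hne
        refine hkI (mem_filter.2 ⟨mem_Icc.2 ⟨h3, hkS⟩, hodd, fun ⟨r, hr⟩ => hne ⟨r, hr.symm⟩⟩)
      have hz : zetaSum k = (rr k : ℝ) := by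
        simp only [hrr, dif_pos hrat]; exact hrat.choose_spec
      obtain ⟨z₁, hz₁⟩ := hA k
      obtain ⟨z₂, hz₂⟩ := hQint k hk
      refine ⟨z₂ * z₁ * ∏ i ∈ I, ((2 : ℤ) ^ k - 2 ^ i), ?_⟩
      rw [hz]
      push_cast
      rw [← hz₁, ← hz₂]
      ring
    choose zk hzk using hk
    choose zE hzE using hEz
    refine ⟨(∑ k ∈ (range (S + 1)).attach, zk k.1 k.2) -
      Q * ∑ l ∈ (range (K + 1)).attach, w l.1 * zE l.1 l.2, ?_⟩
    have hΛ' : Λ = (∑ k ∈ (range (S + 1)).attach, A k.1 * zetaSum k.1 *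
        ∏ i ∈ I, ((2 : ℝ) ^ k.1 - (2 : ℝ) ^ i)) -
        ∑ l ∈ (range (K + 1)).attach, (w l.1 : ℝ) * E l.1 l.2 := by
      rw [hΛ, ← sum_attach, sum_congr rfl fun l _ => by rw [hEq l.1 l.2, mul_sub],
        sum_sub_distrib]
      congr 1
      rw [sum_attach (range (K + 1)) fun l => (w l : ℝ) *
          ∑ k ∈ range (S + 1), A k * ((2 : ℝ) ^ l) ^ k * zetaSum k,
        sum_attach (range (S + 1)) fun k => A k * zetaSum k *
          ∏ i ∈ I, ((2 : ℝ) ^ k - (2 : ℝ) ^ i)]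
      simp only [mul_sum, ← hw]
      rw [sum_comm]
      exact sum_congr rfl fun k _ => sum_congr rfl fun l _ => by
        rw [← pow_mul, ← pow_mul, mul_comm l k]; ring
    rw [hΛ', mul_sub]
    push_cast
    rw [mul_sum, mul_sum, mul_sum]
    congr 1
    · exact sum_congr rfl fun k _ => hzk k.1 k.2
    · exact sum_congr rfl fun l _ => by rw [← hzE l.1 l.2]; ring
  -- it is nonzero and small
  set St := gridTotal n D e with hSt
  set rD := gridSum n D e D with hrD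
  have hnn : ∀ u, 0 ≤ gridSum n D e u := fun u => tsum_nonneg fun _ => gridVal_nonneg _
  have htot : St = ∑ u ∈ range D, gridSum n D e (u + 1) := gridTotal_eq_sum hn hD1 (by omega)
  have hStpos : 0 < St := gridTotal_pos hn hD1 (by omega)
  have hidx : ∀ l ∈ range (K + 1), ∀ u ∈ range (2 ^ l),
      1 ≤ (u + 1) * 2 ^ (K + 1 - l) ∧ (u + 1) * 2 ^ (K + 1 - l) ≤ D := fun l hl u hu =>
    ⟨Nat.mul_pos (by omega) (by positivity),
      (hsplit l hl).symm ▸ Nat.mul_le_mul_right _ (mem_range.1 hu)⟩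
  have hrDpos : St ≤ 2 * D * rD := by
    have h1 : St ≤ ∑ _u ∈ range D, (rD + ε * St) := htot.trans_le (sum_le_sum fun u hu => by
      have := (abs_le.1 (hnear (u + 1) (by omega) (mem_range.1 hu))).2
      linarith)
    rw [sum_const, card_range, nsmul_eq_mul] at h1
    have h2 : (D : ℝ) * ε ≤ 1 / 2 := by
      have := min_le_left (1 / (2 * (D : ℝ))) (|W| / (4 * D * (B + 1)))
      rw [← hε] at this
      calc (D : ℝ) * ε ≤ D * (1 / (2 * D)) := by gcongr
        _ = 1 / 2 := by field_simp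
    nlinarith
  have hclose : |Λ - W * rD| ≤ B * (ε * St) := by
    have hWsum : W = ∑ l ∈ range (K + 1), (w l : ℝ) * (2 : ℝ) ^ l := (hw 2).symm
    rw [hΛ, hWsum, hB, sum_mul, ← sum_sub_distrib, sum_mul]
    refine le_trans (abs_sum_le_sum_abs _ _) (sum_le_sum fun l hl => ?_)
    rw [mul_assoc, ← mul_sub, abs_mul, mul_assoc |(w l : ℝ)|]
    refine mul_le_mul_of_nonneg_left ?_ (abs_nonneg _)
    rw [hhat, show ((2 : ℝ) ^ l * rD) = ∑ _u ∈ range (2 ^ l), rD by simp, ← sum_sub_distrib,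
      show (2 : ℝ) ^ l * (ε * St) = ∑ _u ∈ range (2 ^ l), ε * St by simp]
    exact le_trans (abs_sum_le_sum_abs _ _) (sum_le_sum fun u hu =>
      hnear _ (hidx l hl u hu).1 (hidx l hl u hu).2)
  have hne : Λ ≠ 0 := by
    intro h0
    rw [h0, zero_sub, abs_neg, abs_mul, abs_of_nonneg (hnn D)] at hclose
    have h1 : ε ≤ |W| / (4 * D * (B + 1)) := min_le_right _ _
    rw [le_div_iff₀ (by positivity)] at h1
    have hWp := abs_pos.2 hW0
    have hrp : 0 < rD := by nlinarith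
    have h2 : B * (ε * St) ≤ B * (ε * (2 * D * rD)) := by gcongr
    nlinarith [mul_pos hWp hrp, mul_nonneg hB0 (mul_nonneg hε0.le hrp.le)]
  have hbound : |Λ| ≤ B * St := by
    rw [hΛ, hB, sum_mul]
    refine le_trans (abs_sum_le_sum_abs _ _) (sum_le_sum fun l hl => ?_)
    rw [abs_mul, mul_assoc]
    refine mul_le_mul_of_nonneg_left ?_ (abs_nonneg _)
    rw [hhat, abs_of_nonneg (sum_nonneg fun u _ => hnn _),
      show (2 : ℝ) ^ l * St = ∑ _u ∈ range (2 ^ l), St by simp]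
    refine sum_le_sum fun u hu => ?_
    obtain ⟨h1, h2⟩ := hidx l hl u hu
    rw [htot]
    obtain ⟨v, hv⟩ : ∃ v, (u + 1) * 2 ^ (K + 1 - l) = v + 1 := ⟨_, (Nat.sub_add_cancel h1).symm⟩
    rw [hv]
    exact single_le_sum (f := fun v => gridSum n D e (v + 1)) (fun v _ => hnn _)
      (mem_range.2 (by omega))
  obtain ⟨z, hz⟩ := hint
  have hz0 : z ≠ 0 := by
    intro h
    rw [h, Int.cast_zero] at hz
    exact hne ((mul_eq_zero.1 hz).resolve_left (by positivity))
  have h1 : (1 : ℝ) ≤ |(z : ℝ)| := by exact_mod_cast Int.one_le_abs hz0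
  rw [← hz, abs_mul, abs_of_nonneg (show (0 : ℝ) ≤ (Q : ℝ) * (d : ℝ) ^ S by positivity)] at h1
  have h2 : (Q : ℝ) * (d : ℝ) ^ S * |Λ| ≤ (Q : ℝ) * (d : ℝ) ^ S * (B * St) :=
    mul_le_mul_of_nonneg_left hbound (by positivity)
  nlinarith [hlt]

end FA.ZetaOdd
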