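import Mathlib

/-!
# A criterion for linear independence in the manner of Nesterenko

If integer linear forms `L_n` in `m` fixed numbers satisfy `2 ^ (-t₁ n) ≤ |L_n| ≤ 2 ^ (-t₂ n)`
and have coefficients at most `2 ^ (s n)`, then `t₂ ≤ (m - 1) (s + t₁ - t₂)`. For `q` a common
denominator of good simultaneous approximations of the ratios of the numbers the integer
combination at the least `n` with `q 2 ^ (-t₂ n)` small is otherwise nonzero of absolute value
less than one.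
-/

open Finset Filter

noncomputable section

namespace FA.ZetaOdd

/-- Dirichlet's theorem on simultaneous approximation, at all indices but one. -/
theorem exists_simultaneous_approx {ι : Type*} [Fintype ι] [DecidableEq ι] (α : ι → ℝ) (i₀ : ι)
    {N : ℕ} (hN : 1 ≤ N) :
    ∃ q : ℕ, 1 ≤ q ∧ q ≤ N ^ (Fintype.card ι - 1) ∧
      ∃ a : ι → ℤ, ∀ i, i ≠ i₀ → |(q : ℝ) * α i - a i| < 1 / N := by
  have hNr : (0 : ℝ) < N := by exact_mod_cast hN
  set box : ℕ → ({i // i ≠ i₀} → Fin N) := fun x i =>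
    ⟨⌊Int.fract ((x : ℝ) * α i.1) * N⌋₊, Nat.floor_lt (by positivity) |>.2
      (mul_lt_of_lt_one_left hNr (Int.fract_lt_one _))⟩ with hbox
  have hcard : (univ : Finset ({i // i ≠ i₀} → Fin N)).card <
      (range (N ^ (Fintype.card ι - 1) + 1)).card := by simp
  obtain ⟨x, hx, y, hy, hxy, he⟩ :=
    exists_ne_map_eq_of_card_lt_of_maps_to hcard (f := box) fun _ _ => mem_coe.2 (mem_univ _)
  rw [mem_range] at hx hy
  wlog hlt : x < y generalizing x y
  · exact this y hy x hx hxy.symm he.symm (lt_of_le_of_ne (not_lt.1 hlt) hxy.symm)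
  refine ⟨y - x, by omega, by omega, fun i => ⌊(y : ℝ) * α i⌋ - ⌊(x : ℝ) * α i⌋, fun i hi => ?_⟩
  have h := congrArg Fin.val (congrFun he ⟨i, hi⟩)
  simp only [hbox] at h
  set u := Int.fract ((x : ℝ) * α i) with hu
  set w := Int.fract ((y : ℝ) * α i) with hw
  have h1 := Nat.floor_le (mul_nonneg (Int.fract_nonneg ((x : ℝ) * α i)) hNr.le)
  have h2 := Nat.lt_floor_add_one (u * N)
  have h3 := Nat.floor_le (mul_nonneg (Int.fract_nonneg ((y : ℝ) * α i)) hNr.le)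
  have h4 := Nat.lt_floor_add_one (w * N)
  rw [← hu] at h1
  rw [← hw] at h3
  rw [h] at h1 h2
  have e : ((y - x : ℕ) : ℝ) * α i - ((⌊(y : ℝ) * α i⌋ - ⌊(x : ℝ) * α i⌋ : ℤ) : ℝ) = w - u := by
    rw [hu, hw, ← Int.self_sub_floor, ← Int.self_sub_floor, Nat.cast_sub hlt.le]
    push_cast
    ring
  rw [e, lt_div_iff₀ hNr]
  rcases abs_cases (w - u) with ⟨ha, -⟩ | ⟨ha, -⟩ <;> rw [ha] <;> linarith

/-- **The criterion.** -/
theorem forms_dimension_le {m : ℕ} (β : Fin m → ℝ) (p : ℕ → Fin m → ℤ) {t₁ t₂ s : ℕ}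
    (h : ∀ᶠ n : ℕ in atTop, (∀ i, |(p n i : ℝ)| ≤ (2 : ℝ) ^ (s * n)) ∧
      ((2 : ℝ) ^ (t₁ * n))⁻¹ ≤ |∑ i, (p n i : ℝ) * β i| ∧
      |∑ i, (p n i : ℝ) * β i| ≤ ((2 : ℝ) ^ (t₂ * n))⁻¹) :
    t₂ ≤ (m - 1) * (s + (t₁ - t₂)) := by
  by_contra hgap
  set E := s + (t₁ - t₂) with hE
  have ht₂ : 1 ≤ t₂ := by omega
  obtain ⟨n₀, hn₀⟩ := eventually_atTop.1 h
  obtain ⟨i₀, hi₀⟩ : ∃ i, β i ≠ 0 := by
    by_contra hall
    push Not at hall
    have := (hn₀ n₀ le_rfl).2.1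
    simp only [hall, mul_zero, sum_const_zero, abs_zero] at this
    exact absurd this (not_le.2 (by positivity))
  set b := |β i₀| with hb
  have hb0 : 0 < b := abs_pos.2 hi₀
  have hm0 : 1 ≤ m := i₀.pos
  have hm : (0 : ℝ) < m := by exact_mod_cast hm0
  set K : ℝ := 4 * (2 : ℝ) ^ t₂ / b * (4 * (2 : ℝ) ^ t₂ * m) ^ (m - 1) with hK
  obtain ⟨k, hk⟩ := pow_unbounded_of_one_lt K one_lt_two
  set n₁ := max n₀ k with hn₁
  obtain ⟨N, hN⟩ := exists_nat_gt ((m : ℝ) * b * 2 ^ ((s + t₁) * n₁))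
  have hNr : (0 : ℝ) < N := lt_of_le_of_lt (by positivity) hN
  obtain ⟨q, hq1, hqN, a, ha⟩ :=
    exists_simultaneous_approx (fun i => β i / β i₀) i₀ (N := N) (by exact_mod_cast hNr)
  rw [Fintype.card_fin] at hqN
  have hq : (1 : ℝ) ≤ q := by exact_mod_cast hq1
  have hex : ∃ n, n₁ ≤ n ∧ 4 * (q : ℝ) ≤ b * 2 ^ (t₂ * n) := by
    obtain ⟨j, hj⟩ := pow_unbounded_of_one_lt (4 * (q : ℝ) / b) one_lt_two
    refine ⟨max n₁ j, le_max_left _ _, ?_⟩
    rw [div_lt_iff₀ hb0] at hj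
    have : (2 : ℝ) ^ j ≤ 2 ^ (t₂ * max n₁ j) :=
      pow_le_pow_right₀ one_le_two (le_trans (le_max_right _ _) (Nat.le_mul_of_pos_left _ ht₂))
    nlinarith [mul_le_mul_of_nonneg_left this hb0.le]
  classical
  set n := Nat.find hex with hn
  obtain ⟨hn1, hnq⟩ := Nat.find_spec hex
  obtain ⟨hcoef, hlow, hupp⟩ := hn₀ n (le_trans (le_max_left _ _) hn1)
  set L := ∑ i, (p n i : ℝ) * β i with hL
  -- the choice of `n` makes the error smaller than the main term
  have hkey : (m : ℝ) * b * 2 ^ ((s + t₁) * n) < (N : ℝ) * q := by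
    rcases eq_or_lt_of_le hn1 with heq | hlt
    · rw [← hn] at heq
      rw [← heq]
      exact lt_of_lt_of_le hN (le_mul_of_one_le_right hNr.le hq)
    obtain ⟨n', hn'⟩ : ∃ n', n = n' + 1 := ⟨n - 1, by omega⟩
    have hmin : b * 2 ^ (t₂ * n') < 4 * (q : ℝ) := by
      have := Nat.find_min hex (show n' < n by omega)
      push Not at this
      exact this (by omega)
    have hq' : b * 2 ^ (t₂ * n) < 4 * 2 ^ t₂ * (q : ℝ) := by
      rw [hn', Nat.mul_succ, pow_add]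
      nlinarith [pow_pos (two_pos (α := ℝ)) t₂]
    rw [← hn] at hnq
    by_contra hle
    push Not at hle
    have hEn : (s + t₁) * n ≤ E * n + t₂ * n := by
      rw [← add_mul]
      exact Nat.mul_le_mul_right _ (by omega)
    have h1 : (N : ℝ) ≤ 4 * 2 ^ t₂ * m * 2 ^ (E * n) := by
      have h2 : (2 : ℝ) ^ ((s + t₁) * n) ≤ 2 ^ (E * n) * 2 ^ (t₂ * n) := by
        rw [← pow_add]; exact pow_le_pow_right₀ one_le_two hEn
      refine le_of_mul_le_mul_right ?_ (show (0 : ℝ) < q by linarith)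
      calc (N : ℝ) * q ≤ m * b * (2 ^ (E * n) * 2 ^ (t₂ * n)) :=
            le_trans hle (mul_le_mul_of_nonneg_left h2 (by positivity))
        _ = (m : ℝ) * 2 ^ (E * n) * (b * 2 ^ (t₂ * n)) := by ring
        _ ≤ m * 2 ^ (E * n) * (4 * 2 ^ t₂ * q) := by gcongr
        _ = _ := by ring
    have h3 : (2 : ℝ) ^ n ≤ K := by
      have h4 : ((m - 1) * E + 1) * n ≤ t₂ * n := Nat.mul_le_mul_right _ (by omega)
      have h5 : (q : ℝ) ≤ (N : ℝ) ^ (m - 1) := by exact_mod_cast hqN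
      refine le_of_mul_le_mul_left ?_ (show (0 : ℝ) < b * 2 ^ ((m - 1) * E * n) by positivity)
      calc b * 2 ^ ((m - 1) * E * n) * 2 ^ n ≤ b * 2 ^ (t₂ * n) := by
            rw [mul_assoc, ← pow_add]
            gcongr
            · exact one_le_two
            · linarith
        _ ≤ 4 * 2 ^ t₂ * q := hq'.le
        _ ≤ 4 * 2 ^ t₂ * (4 * 2 ^ t₂ * m * 2 ^ (E * n)) ^ (m - 1) := by
            gcongr
            exact le_trans h5 (by gcongr)
        _ = b * 2 ^ ((m - 1) * E * n) * K := by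
            rw [hK, mul_pow _ ((2 : ℝ) ^ (E * n)), ← pow_mul, mul_comm (E * n), ← mul_assoc (m - 1)]
            field_simp
    have h6 : (2 : ℝ) ^ k ≤ 2 ^ n :=
      pow_le_pow_right₀ one_le_two (le_trans (le_max_right _ _) hlt.le)
    linarith
  -- the integer combination
  set a' : Fin m → ℤ := Function.update a i₀ q with ha'
  set J : ℤ := ∑ i, p n i * a' i with hJ
  have herr : |(J : ℝ) - q * (L / β i₀)| ≤ m * (2 ^ (s * n) * (1 / N)) := by
    rw [hJ, hL, sum_div, mul_sum]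
    push_cast
    rw [← sum_sub_distrib]
    refine le_trans (abs_sum_le_sum_abs _ _) (le_trans (sum_le_card_nsmul _ _
      (2 ^ (s * n) * (1 / (N : ℝ))) fun i _ => ?_) ?_)
    swap
    · rw [card_univ, Fintype.card_fin, nsmul_eq_mul]
    rw [show (p n i : ℝ) * a' i - q * (p n i * β i / β i₀) =
      p n i * ((a' i : ℝ) - q * (β i / β i₀)) by ring, abs_mul]
    refine mul_le_mul (hcoef i) ?_ (abs_nonneg _) (by positivity)
    rcases eq_or_ne i i₀ with rfl | hi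
    · simp [ha', div_self hi₀]
    · rw [ha', Function.update_of_ne hi, abs_sub_comm]
      exact (ha i hi).le
  have hmain : (q : ℝ) / (2 ^ (t₁ * n) * b) ≤ |(q : ℝ) * (L / β i₀)| ∧
      |(q : ℝ) * (L / β i₀)| ≤ 1 / 4 := by
    rw [abs_mul, abs_div, ← hb, Nat.abs_cast]
    refine ⟨?_, ?_⟩
    · rw [← div_div]
      calc (q : ℝ) / 2 ^ (t₁ * n) / b = q * ((2 ^ (t₁ * n))⁻¹ / b) := by ring
        _ ≤ _ := by gcongr
    · calc (q : ℝ) * (|L| / b) ≤ q * ((2 ^ (t₂ * n))⁻¹ / b) := by gcongr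
        _ = q / (b * 2 ^ (t₂ * n)) := by field_simp
        _ ≤ 1 / 4 := by
            rw [div_le_iff₀ (by positivity)]
            linarith
  have hsmall : (m : ℝ) * (2 ^ (s * n) * (1 / N)) < q / (2 ^ (t₁ * n) * b) := by
    rw [lt_div_iff₀ (by positivity), ← sub_pos]
    rw [add_mul, pow_add] at hkey
    have : (m : ℝ) * (2 ^ (s * n) * (1 / N)) * (2 ^ (t₁ * n) * b) =
        m * b * (2 ^ (s * n) * 2 ^ (t₁ * n)) / N := by ring
    rw [this, sub_pos, div_lt_iff₀ hNr]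
    linarith
  have hJ0 : J ≠ 0 := by
    intro h0
    rw [h0, Int.cast_zero, zero_sub, abs_neg] at herr
    linarith [hmain.1]
  have h1 : (1 : ℝ) ≤ |(J : ℝ)| := by exact_mod_cast Int.one_le_abs hJ0
  have h2 : |(J : ℝ)| ≤ |(q : ℝ) * (L / β i₀)| + |(J : ℝ) - q * (L / β i₀)| := by
    have := abs_add_le ((q : ℝ) * (L / β i₀)) ((J : ℝ) - q * (L / β i₀))
    rwa [add_sub_cancel] at this
  linarith [hmain.1, hmain.2]

end FA.ZetaOdd
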