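import Fermat.Agent.ZetaOdd.CoefficientNorm

/-!
# The linear forms of Ball and Rivoal

The values at `t = 1, 2, …` of
`(2 t + n) n! ^ c ∏_{i ≤ r n} (t - i) (t + n + i) / (t (t + 1) ⋯ (t + n)) ^ (2 r + c)`, `c` even,
sum to an integer form, over `d ^ (2 r + c)`, in `1` and the odd zeta values up to `2 r + c`;
`brH` bounds the size of the coefficients, and the sum lies between two exponentials in `n`.
-/

open Finset Polynomial Filter Topology
open scoped Nat

noncomputable section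

namespace FA.ZetaOdd

variable {n r c d : ℕ}

/-- The numerator `∏_{i ≤ r n} (t - i) (t + n + i)`. -/
def brNum (n r : ℕ) (t : ℝ) : ℝ :=
  (∏ i ∈ range (r * n), (t - ((i : ℝ) + 1))) * ∏ i ∈ range (r * n), (t + n + ((i : ℝ) + 1))

/-- The rational function of Ball and Rivoal, well-poised. -/
def brRat (n r c : ℕ) (t : ℝ) : ℝ :=
  (2 * t + n) * (n ! : ℝ) ^ c * brNum n r t / den n t ^ (2 * r + c)

theorem brRat_neg (hc : Even c) (t : ℝ) : brRat n r c (-(n : ℝ) - t) = -brRat n r c t := by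
  have hS : Even (2 * r + c) := (even_two_mul r).add hc
  have h1 : ∏ i ∈ range (r * n), (-(n : ℝ) - t - ((i : ℝ) + 1)) =
      (-1) ^ (r * n) * ∏ i ∈ range (r * n), (t + n + ((i : ℝ) + 1)) := by
    rw [show ((-1 : ℝ) ^ (r * n)) = ∏ _i ∈ range (r * n), (-1 : ℝ) by simp, ← prod_mul_distrib]
    exact prod_congr rfl fun i _ => by ring
  have h2 : ∏ i ∈ range (r * n), (-(n : ℝ) - t + n + ((i : ℝ) + 1)) =
      (-1) ^ (r * n) * ∏ i ∈ range (r * n), (t - ((i : ℝ) + 1)) := by
    rw [show ((-1 : ℝ) ^ (r * n)) = ∏ _i ∈ range (r * n), (-1 : ℝ) by simp, ← prod_mul_distrib]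
    exact prod_congr rfl fun i _ => by ring
  have h3 : ((-1 : ℝ) ^ (r * n)) * ((-1 : ℝ) ^ (r * n)) = 1 := by
    rw [← mul_pow]; norm_num
  simp only [brRat, brNum, h1, h2, den_neg, mul_pow, ← pow_mul,
    (hS.mul_left (n + 1)).neg_one_pow, one_mul]
  rw [mul_mul_mul_comm ((-1 : ℝ) ^ (r * n)), h3]
  ring

/-- `∏_{l < n} (t - (q n + l + 1))`. -/
def downPoly (n q : ℕ) : ℝ[X] := ∏ l ∈ range n, (Polynomial.X - C (((q * n + l + 1 : ℕ) : ℝ)))

/-- `∏_{l < n} (t + n + q n + l + 1)`. -/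
def upPoly (n q : ℕ) : ℝ[X] := ∏ l ∈ range n, (Polynomial.X + C (((n + q * n + l + 1 : ℕ) : ℝ)))

theorem prod_shift_eq (a k : ℕ) :
    ∏ l ∈ range k, ((a + l + 1 : ℕ) : ℝ) = k ! * ((a + k).choose k : ℕ) := by
  rw [← Nat.cast_prod, ← Nat.cast_mul, ← Nat.ascFactorial_eq_factorial_mul_choose,
    Nat.ascFactorial_eq_prod_range]
  congr 1
  exact prod_congr rfl fun l _ => by omega

theorem natDegree_downPoly_le (q : ℕ) : (downPoly n q).natDegree ≤ n := by
  refine le_trans (natDegree_prod_le _ _) ?_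
  refine le_trans (sum_le_sum (g := fun _ => 1) fun l _ => natDegree_X_sub_C_le _) (by simp)

theorem natDegree_upPoly_le (q : ℕ) : (upPoly n q).natDegree ≤ n := by
  refine le_trans (natDegree_prod_le _ _) ?_
  refine le_trans (sum_le_sum (g := fun _ => 1) fun l _ => ?_) (by simp)
  exact (natDegree_X_add_C _).le

theorem eval_downPoly (q j : ℕ) : (downPoly n q).eval (-(j : ℝ)) =
    (-1) ^ n * (n ! * ((j + q * n + n).choose n : ℕ)) := by
  rw [← prod_shift_eq, downPoly, eval_prod,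
    show ((-1 : ℝ) ^ n) = ∏ _l ∈ range n, (-1 : ℝ) by simp, ← prod_mul_distrib]
  refine prod_congr rfl fun l _ => ?_
  simp only [eval_sub, eval_X, eval_C, Nat.cast_add, Nat.cast_mul, Nat.cast_one]
  ring

theorem eval_upPoly (q j : ℕ) (hj : j ≤ n) : (upPoly n q).eval (-(j : ℝ)) =
    n ! * ((n - j + q * n + n).choose n : ℕ) := by
  rw [← prod_shift_eq, upPoly, eval_prod]
  refine prod_congr rfl fun l _ => ?_
  simp only [eval_add, eval_X, eval_C, Nat.cast_add, Nat.cast_mul, Nat.cast_one, Nat.cast_sub hj]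
  ring

theorem choose_mul_self_le (k n : ℕ) : (((k * n).choose n : ℕ) : ℝ) ≤ (3 * (k : ℝ)) ^ n := by
  refine le_trans (Nat.choose_le_pow_div n (k * n)) ?_
  have h1 : (n : ℝ) ^ n / (n ! : ℝ) ≤ 3 ^ n := by
    refine le_trans (Real.pow_div_factorial_le_exp _ (Nat.cast_nonneg n) n) ?_
    rw [← mul_one (n : ℝ), Real.exp_nat_mul]
    gcongr
    exact Real.exp_one_lt_d9.le.trans (by norm_num)
  push_cast
  rw [mul_pow, mul_pow, mul_div_assoc, mul_comm ((3 : ℝ) ^ n)]
  gcongr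

/-- A factor `∏_{l < n} (t - (q n + l + 1)) / (t (t + 1) ⋯ (t + n))`. -/
def downFun (n q : ℕ) : PoleFree n → ℝ := fun t => (downPoly n q).eval t.1 / den n t.1

/-- A factor `∏_{l < n} (t + n + q n + l + 1) / (t (t + 1) ⋯ (t + n))`. -/
def upFun (n q : ℕ) : PoleFree n → ℝ := fun t => (upPoly n q).eval t.1 / den n t.1

/-- The bound for the coefficients. -/
def brH (n r c : ℕ) : ℝ :=
  ((2 * r + c : ℕ) : ℝ) ^ (2 * r + c) * (2 : ℝ) ^ (c * n) * (6 * ((r : ℝ) + 1)) ^ (2 * r * n)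

/-- The rational function without the factor `2 t + n`. -/
def brT (n r c : ℕ) : PoleFree n → ℝ :=
  pureFun n * (∏ q ∈ range r, downFun n q) * (∏ q ∈ range r, upFun n q) *
    ∏ _q ∈ range (c - 1), pureFun n

theorem downFun_mem (q : ℕ) : (fun t => (d : ℝ) * downFun n q t) ∈ poleGroup n d 1 := by
  have h := mem_poleGroup_one (n := n) (d := d) (downPoly n q) (natDegree_downPoly_le q) 1
    (fun j hj => by
      refine ⟨(-1) ^ n * ((j + q * n + n).choose n : ℕ) * n.choose j, ?_⟩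
      rw [eval_downPoly, ← Nat.choose_mul_factorial_mul_factorial hj]
      push_cast
      ring)
  simpa only [one_mul, downFun, den] using h

theorem upFun_mem (q : ℕ) : (fun t => (d : ℝ) * upFun n q t) ∈ poleGroup n d 1 := by
  have h := mem_poleGroup_one (n := n) (d := d) (upPoly n q) (natDegree_upPoly_le q) 1
    (fun j hj => by
      refine ⟨((n - j + q * n + n).choose n : ℕ) * n.choose j, ?_⟩
      rw [eval_upPoly q j hj, ← Nat.choose_mul_factorial_mul_factorial hj]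
      push_cast
      ring)
  simpa only [one_mul, upFun, den] using h

theorem pfBound_pureFun : PFBound n 1 ((2 : ℝ) ^ n) (pureFun n) := by
  have h := pfBound_poly (n := n) 1 (by simp) (n ! : ℝ) (M := 1) (fun j _ => by simp)
  simp only [eval_one, mul_one] at h
  exact h

theorem pfBound_downFun {q : ℕ} (hq : q < r) :
    PFBound n 1 ((6 * ((r : ℝ) + 1)) ^ n) (downFun n q) := by
  have h := pfBound_poly (n := n) (downPoly n q) (natDegree_downPoly_le q) 1
    (M := (3 * ((r : ℝ) + 1)) ^ n) (fun j hj => by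
      rw [one_mul, eval_downPoly, abs_mul, abs_pow, abs_neg, abs_one, one_pow, one_mul,
        abs_of_nonneg (by positivity), mul_comm]
      gcongr
      refine le_trans (Nat.cast_le.2 (Nat.choose_le_choose n ?_)) (le_trans
        (choose_mul_self_le (r + 1) n) (by push_cast; exact le_rfl))
      have : (q + 1) * n ≤ r * n := Nat.mul_le_mul_right _ hq
      nlinarith)
  simp only [one_mul] at h
  refine PFBound.mono (f := downFun n q) h le_rfl ?_
  rw [← mul_pow]
  exact le_of_eq (by ring)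

theorem pfBound_upFun {q : ℕ} (hq : q < r) :
    PFBound n 1 ((6 * ((r : ℝ) + 1)) ^ n) (upFun n q) := by
  have h := pfBound_poly (n := n) (upPoly n q) (natDegree_upPoly_le q) 1
    (M := (3 * ((r : ℝ) + 1)) ^ n) (fun j hj => by
      rw [one_mul, eval_upPoly q j hj, abs_of_nonneg (by positivity), mul_comm]
      gcongr
      refine le_trans (Nat.cast_le.2 (Nat.choose_le_choose n ?_)) (le_trans
        (choose_mul_self_le (r + 1) n) (by push_cast; exact le_rfl))
      have : (q + 1) * n ≤ r * n := Nat.mul_le_mul_right _ hq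
      have : n - j ≤ n := Nat.sub_le _ _
      nlinarith)
  simp only [one_mul] at h
  refine PFBound.mono (f := upFun n q) h le_rfl ?_
  rw [← mul_pow]
  exact le_of_eq (by ring)

theorem brT_bound (hc : 1 ≤ c) : PFBound n (2 * r + c) (brH n r c) (brT n r c) := by
  set S := 2 * r + c with hS
  have h := ((pfBound_pureFun (n := n)).mul_prod (m := r) (S := S)
    (fun q hq => pfBound_downFun hq) (by omega) (by positivity)).mul_prod (m := r) (S := S)
    (fun q hq => pfBound_upFun hq) (by omega) (by positivity)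
  have h' := h.mul_prod (m := c - 1) (S := S) (G := fun _ => pureFun n)
    (fun _ _ => pfBound_pureFun) (by omega) (by positivity)
  refine h'.mono (by omega) ?_
  have hS1 : (1 : ℝ) ≤ S := by exact_mod_cast (show 1 ≤ S by omega)
  obtain ⟨c', rfl⟩ : ∃ c', c = c' + 1 := ⟨c - 1, by omega⟩
  rw [brH, ← hS, add_tsub_cancel_right]
  calc (2 : ℝ) ^ n * ((S : ℝ) * (6 * ((r : ℝ) + 1)) ^ n) ^ r *
        ((S : ℝ) * (6 * ((r : ℝ) + 1)) ^ n) ^ r * ((S : ℝ) * 2 ^ n) ^ c'
      = (S : ℝ) ^ (2 * r + c') * 2 ^ ((c' + 1) * n) * (6 * ((r : ℝ) + 1)) ^ (2 * r * n) := by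
        simp only [mul_pow, ← pow_mul]; ring
    _ ≤ _ := by
        gcongr
        omega

theorem brT_mem (hd : ∀ δ : ℕ, 1 ≤ δ → δ ≤ n → δ ∣ d) (hc : 1 ≤ c) :
    (fun t => (d : ℝ) ^ (2 * r + c) * brT n r c t) ∈ poleGroup n d (2 * r + c) := by
  obtain ⟨c', rfl⟩ : ∃ c', c = c' + 1 := ⟨c - 1, by omega⟩
  have h := mul_prod_mem_poleGroup hd (mul_prod_mem_poleGroup hd (mul_prod_mem_poleGroup hd
    (pureFun_mem (n := n) (d := d)) (g := fun q t => (d : ℝ) * downFun n q t) r
      fun q _ => downFun_mem q) (g := fun q t => (d : ℝ) * upFun n q t)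
      r fun q _ => upFun_mem q) (g := fun _ t => (d : ℝ) * pureFun n t) c' fun _ _ => pureFun_mem
  rw [show 2 * r + (c' + 1) = 1 + r + r + c' by omega]
  refine Eq.subst (motive := (· ∈ poleGroup n d (1 + r + r + c'))) ?_ h
  funext t
  simp only [brT, Pi.mul_apply, Pi.pow_apply, Finset.prod_apply, prod_mul_distrib, prod_const,
    card_range, mul_pow, add_tsub_cancel_right, pow_add, pow_one]
  ring

theorem brRat_eq (hc : 1 ≤ c) (t : PoleFree n) :
    brRat n r c t.1 = (2 * t.1 + n) * brT n r c t := by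
  obtain ⟨c', rfl⟩ : ∃ c', c = c' + 1 := ⟨c - 1, by omega⟩
  simp only [brRat, brNum, brT, Pi.mul_apply, Pi.pow_apply, Finset.prod_apply, downFun, upFun,
    pureFun, downPoly, upPoly, eval_prod, eval_sub, eval_add, eval_X, eval_C, prod_div_distrib,
    prod_const, card_range, add_tsub_cancel_right, div_pow]
  have hden := den_ne_zero t
  rw [prod_range_mul_eq _ r n, prod_range_mul_eq _ r n]
  have e₁ : ∀ q l : ℕ, t.1 - (((q * n + l : ℕ) : ℝ) + 1) = t.1 - ((q * n + l + 1 : ℕ) : ℝ) :=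
    fun q l => by push_cast; ring
  have e₂ : ∀ q l : ℕ,
      t.1 + n + (((q * n + l : ℕ) : ℝ) + 1) = t.1 + ((n + q * n + l + 1 : ℕ) : ℝ) :=
    fun q l => by push_cast; ring
  simp only [e₁, e₂]
  rw [show 2 * r + (c' + 1) = r + r + 1 + c' by omega, pow_add, pow_add, pow_add, pow_one]
  field_simp
  ring

theorem brRat_le (hn : 1 ≤ n) (hr : 1 ≤ r) (hc : 3 ≤ c) {t : ℝ} (ht : ((r * n : ℕ) : ℝ) < t) :
    0 < brRat n r c t ∧ brRat n r c t ≤ 3 * 3 ^ (r * n) / (r : ℝ) ^ (n * c) / t ^ 2 := by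
  have hr1 : (1 : ℝ) ≤ r := by exact_mod_cast hr
  have hn1 : (1 : ℝ) ≤ n := by exact_mod_cast hn
  push_cast at ht
  have hrn : (n : ℝ) ≤ r * n := by nlinarith
  have ht0 : 0 < t := by linarith
  have hnt : (n : ℝ) ≤ t := by linarith
  have ht1 : 1 ≤ t := by linarith
  have hi : ∀ i ∈ range (r * n), 0 < t - ((i : ℝ) + 1) ∧ (i : ℝ) + 1 ≤ r * n := by
    intro i hi
    have h : ((i + 1 : ℕ) : ℝ) ≤ ((r * n : ℕ) : ℝ) := Nat.cast_le.2 (mem_range.1 hi)
    push_cast at h
    exact ⟨by linarith, h⟩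
  have hden := den_pos (n := n) ht0
  have hnum0 : 0 < brNum n r t :=
    mul_pos (prod_pos fun i hi' => (hi i hi').1) (prod_pos fun i _ => by positivity)
  refine ⟨by unfold brRat; positivity, ?_⟩
  have hnum : brNum n r t ≤ t ^ (r * n) * (3 * t) ^ (r * n) := by
    refine mul_le_mul ?_ ?_ (prod_nonneg fun i _ => by positivity) (by positivity)
    · calc _ ≤ ∏ _i ∈ range (r * n), t := prod_le_prod (fun i hi' => (hi i hi').1.le)
            fun i _ => by linarith [(Nat.cast_nonneg i : (0 : ℝ) ≤ i)]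
        _ = _ := by simp
    · calc _ ≤ ∏ _i ∈ range (r * n), (3 * t) := prod_le_prod (fun i _ => by positivity)
            fun i hi' => by linarith [(hi i hi').2]
        _ = _ := by simp
  have hfac : (n ! : ℝ) ≤ (n : ℝ) ^ n := by
    calc (n ! : ℝ) ≤ (n ^ n : ℕ) := by exact_mod_cast Nat.factorial_le_pow n
      _ = _ := by push_cast; ring
  obtain ⟨c', rfl⟩ : ∃ c', c = c' + 3 := ⟨c - 3, by omega⟩
  calc brRat n r (c' + 3) t
      ≤ 3 * t * ((n : ℝ) ^ n) ^ (c' + 3) * (t ^ (r * n) * (3 * t) ^ (r * n)) /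
          (t ^ (n + 1)) ^ (2 * r + (c' + 3)) := by
        rw [brRat]
        gcongr
        · linarith
        · exact den_ge_pow ht0.le
    _ = 3 * 3 ^ (r * n) * ((n : ℝ) / t) ^ (n * (c' + 3)) / t ^ (2 * r + c' + 2) := by
        rw [div_pow, mul_pow (3 : ℝ), ← pow_mul, ← pow_mul,
          show (n + 1) * (2 * r + (c' + 3)) =
            r * n + r * n + n * (c' + 3) + (2 * r + c' + 2) + 1 by ring]
        simp only [pow_add, pow_one]
        field_simp
    _ ≤ 3 * 3 ^ (r * n) * (1 / (r : ℝ)) ^ (n * (c' + 3)) / t ^ 2 := by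
        gcongr ?_ * (?_ : ℝ) ^ _ / ?_
        · rw [div_le_div_iff₀ ht0 (by linarith), one_mul]
          linarith
        · exact pow_le_pow_right₀ ht1 (by omega)
    _ = _ := by rw [one_div_pow, mul_one_div]

theorem brRat_eq_zero {l : ℕ} (hl : l < r * n) : brRat n r c ((l : ℝ) + 1) = 0 := by
  rw [brRat, brNum, prod_eq_zero (f := fun i : ℕ => ((l : ℝ) + 1) - ((i : ℝ) + 1)) (mem_range.2 hl)
    (sub_self _)]
  simp

theorem brRat_nonneg (hn : 1 ≤ n) (hr : 1 ≤ r) (hc : 3 ≤ c) (l : ℕ) :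
    0 ≤ brRat n r c ((l : ℝ) + 1) := by
  rcases lt_or_ge l (r * n) with hl | hl
  · rw [brRat_eq_zero hl]
  · refine (brRat_le hn hr hc ?_).1.le
    have : ((r * n : ℕ) : ℝ) ≤ l := Nat.cast_le.2 hl
    linarith

theorem brRat_le' (hn : 1 ≤ n) (hr : 1 ≤ r) (hc : 3 ≤ c) (l : ℕ) :
    brRat n r c ((l : ℝ) + 1) ≤ 3 * 3 ^ (r * n) / (r : ℝ) ^ (n * c) * (1 / ((l : ℝ) + 1) ^ 2) := by
  rcases lt_or_ge l (r * n) with hl | hl
  · rw [brRat_eq_zero hl]; positivity
  · rw [mul_one_div]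
    refine (brRat_le hn hr hc ?_).2
    have : ((r * n : ℕ) : ℝ) ≤ l := Nat.cast_le.2 hl
    linarith

/-- The linear form `∑_{t ≥ 1} R(t)`. -/
def brSum (n r c : ℕ) : ℝ := ∑' l : ℕ, brRat n r c ((l : ℝ) + 1)

theorem summable_brRat (hn : 1 ≤ n) (hr : 1 ≤ r) (hc : 3 ≤ c) :
    Summable fun l : ℕ => brRat n r c ((l : ℝ) + 1) :=
  Summable.of_nonneg_of_le (brRat_nonneg hn hr hc) (brRat_le' hn hr hc)
    ((summable_zetaSum le_rfl).mul_left _)

theorem brSum_le (hn : 1 ≤ n) (hr : 1 ≤ r) (hc : 3 ≤ c) :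
    brSum n r c ≤ 3 * 3 ^ (r * n) / (r : ℝ) ^ (n * c) * zetaSum 2 := by
  rw [zetaSum, ← tsum_mul_left]
  exact (summable_brRat hn hr hc).tsum_le_tsum (brRat_le' hn hr hc)
    ((summable_zetaSum le_rfl).mul_left _)

theorem brSum_ge (hn : 1 ≤ n) (hr : 2 ≤ r) (hc : 3 ≤ c) :
    ((n : ℝ) ^ n / 3 ^ n) ^ c * (((r * n : ℕ) : ℝ) ^ (r * n) / 3 ^ (r * n) *
        ((r * n : ℕ) : ℝ) ^ (r * n)) /
      ((2 * (r * n : ℕ) : ℝ) ^ (n + 1)) ^ (2 * r + c) ≤ brSum n r c := by
  refine le_trans ?_ ((summable_brRat hn (by omega) hc).le_tsum (r * n)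
    fun l _ => brRat_nonneg hn (by omega) hc l)
  set N := r * n with hN
  have hpow : ∀ k : ℕ, (k : ℝ) ^ k / 3 ^ k ≤ (k ! : ℝ) := by
    intro k
    have h := Real.pow_div_factorial_le_exp _ (Nat.cast_nonneg k) k
    rw [← mul_one (k : ℝ), Real.exp_nat_mul, mul_one] at h
    have h' : Real.exp 1 ^ k ≤ (3 : ℝ) ^ k := by
      gcongr
      exact Real.exp_one_lt_d9.le.trans (by norm_num)
    rw [div_le_iff₀ (by positivity)]
    have h'' := le_trans h h'
    rw [div_le_iff₀ (by positivity)] at h''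
    linarith
  have h1 : ∏ i ∈ range N, ((N : ℝ) + 1 - ((i : ℝ) + 1)) = (N ! : ℝ) := by
    rw [← prod_range_reflect, ← prod_range_add_one_eq_factorial, Nat.cast_prod]
    refine prod_congr rfl fun i hi => ?_
    have : i < N := mem_range.1 hi
    rw [show N - 1 - i = N - (i + 1) by omega, Nat.cast_sub (by omega)]
    push_cast
    ring
  have h2 : (N : ℝ) ^ N ≤ ∏ i ∈ range N, ((N : ℝ) + 1 + n + ((i : ℝ) + 1)) := by
    calc (N : ℝ) ^ N = ∏ _i ∈ range N, (N : ℝ) := by simp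
      _ ≤ _ := prod_le_prod (fun _ _ => Nat.cast_nonneg _) fun i _ => by
          have : (0 : ℝ) ≤ i := Nat.cast_nonneg i
          have : (0 : ℝ) ≤ n := Nat.cast_nonneg n
          linarith
  have hden : den n ((N : ℝ) + 1) ≤ (2 * (N : ℝ)) ^ (n + 1) := by
    calc den n ((N : ℝ) + 1) ≤ ∏ _j ∈ range (n + 1), (2 * (N : ℝ)) :=
          prod_le_prod (fun j _ => by positivity) fun j hj => by
            have h3 : ((j : ℕ) : ℝ) ≤ n := Nat.cast_le.2 (Nat.lt_succ_iff.1 (mem_range.1 hj))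
            have h4 : (2 : ℝ) * n ≤ N := by
              rw [hN]; push_cast; gcongr; exact_mod_cast hr
            have : (1 : ℝ) ≤ n := by exact_mod_cast hn
            linarith
      _ = _ := by simp
  have hden0 := den_pos (n := n) (t := (N : ℝ) + 1) (by positivity)
  calc ((n : ℝ) ^ n / 3 ^ n) ^ c * ((N : ℝ) ^ N / 3 ^ N * (N : ℝ) ^ N) /
        ((2 * (N : ℝ)) ^ (n + 1)) ^ (2 * r + c)
      ≤ (2 * ((N : ℝ) + 1) + n) * (n ! : ℝ) ^ c * brNum n r ((N : ℝ) + 1) /
          den n ((N : ℝ) + 1) ^ (2 * r + c) := by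
        have hbr : ((N : ℝ) ^ N / 3 ^ N * (N : ℝ) ^ N) ≤ brNum n r ((N : ℝ) + 1) := by
          rw [show brNum n r ((N : ℝ) + 1) = (N ! : ℝ) *
            ∏ i ∈ range N, ((N : ℝ) + 1 + n + ((i : ℝ) + 1)) by rw [← h1]; rfl]
          exact mul_le_mul (hpow N) h2 (by positivity) (by positivity)
        have hbr0 : (0 : ℝ) ≤ brNum n r ((N : ℝ) + 1) := le_trans (by positivity) hbr
        have hone : (1 : ℝ) ≤ 2 * ((N : ℝ) + 1) + n := by
          linarith [(Nat.cast_nonneg n : (0 : ℝ) ≤ n), (Nat.cast_nonneg N : (0 : ℝ) ≤ N)]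
        refine div_le_div₀ (by positivity) ?_ (by positivity)
          (pow_le_pow_left₀ hden0.le hden _)
        rw [mul_assoc (2 * ((N : ℝ) + 1) + n)]
        refine le_trans ?_ (le_mul_of_one_le_left (by positivity) hone)
        exact mul_le_mul (pow_le_pow_left₀ (by positivity) (hpow n) c) hbr (by positivity)
          (by positivity)
    _ = _ := rfl

/-- **The linear forms of Ball and Rivoal, with bounds for their coefficients.** -/
theorem exists_br_forms (hn : 1 ≤ n) (hr : 1 ≤ r) (hc : Even c) (hc3 : 3 ≤ c) (hd0 : 0 < d)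
    (hd : ∀ δ : ℕ, 1 ≤ δ → δ ≤ n → δ ∣ d) :
    ∃ (z : ℕ → ℤ) (zE : ℤ), (∀ k, z k ≠ 0 → Odd k ∧ 3 ≤ k ∧ k ≤ 2 * r + c) ∧
      (∀ k, |(z k : ℝ)| ≤ (d : ℝ) ^ (2 * r + c) *
        (2 * ((2 * r + c : ℕ) : ℝ) * ((n : ℝ) + 1) ^ 3 * brH n r c)) ∧
      |(zE : ℝ)| ≤ (d : ℝ) ^ (2 * r + c) *
        (2 * ((2 * r + c : ℕ) : ℝ) * ((n : ℝ) + 1) ^ 3 * brH n r c) ∧
      (d : ℝ) ^ (2 * r + c) * brSum n r c =
        (∑ k ∈ range (2 * r + c + 1), (z k : ℝ) * zetaSum k) - zE := by
  set S := 2 * r + c with hS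
  have hS1 : 1 ≤ S := by omega
  obtain ⟨B, hBsum, hB⟩ := brT_bound (n := n) (r := r) (c := c) (by omega)
  obtain ⟨Z, hZ⟩ := exists_coeff_of_mem (brT_mem (r := r) hd (show 1 ≤ c by omega))
  have hd' : (d : ℝ) ^ S ≠ 0 := by positivity
  have hBZ : ∀ i < S, ∀ j ≤ n, (d : ℝ) ^ S * B i j = (Z i j : ℝ) * (d : ℝ) ^ (i + 1) := by
    refine fracSum_unique fun t => ?_
    have h := hZ t
    rw [hB t] at h
    simp only [fracSum, mul_sum, poleFun, div_pow, mul_div_assoc] at h ⊢
    exact h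
  have hBle : ∀ i < S, ∀ j ≤ n, |B i j| ≤ brH n r c := fun i hi j hj => by
    refine le_trans ?_ hBsum
    refine le_trans ?_ (single_le_sum (f := fun i => ∑ j ∈ range (n + 1), |B i j|)
      (fun i _ => sum_nonneg fun j _ => abs_nonneg _) (mem_range.2 hi))
    exact single_le_sum (f := fun j => |B i j|) (fun j _ => abs_nonneg _)
      (mem_range.2 (by omega))
  have hH0 : 0 ≤ brH n r c := (brT_bound (n := n) (r := r) (c := c) (by omega)).nonneg
  set a : ℕ → ℕ → ℝ := fun i j => 2 * shiftCoeff S B (-(n : ℝ) / 2) i j with ha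
  set C₀ : ℝ := 2 * ((n : ℝ) + 1) * brH n r c with hC₀
  have haint : ∀ i < S, ∀ j ≤ n, ∃ y : ℤ, (d : ℝ) ^ S * a i j = y * (d : ℝ) ^ (i + 1) := by
    intro i hi j hj
    have h0 := hBZ i hi j hj
    simp only [ha, shiftCoeff]
    split_ifs with hi'
    · have h1 := hBZ (i + 1) hi' j hj
      refine ⟨2 * Z (i + 1) j * d - (2 * (j : ℤ) - n) * Z i j, ?_⟩
      push_cast
      linear_combination 2 * h1 - (2 * (j : ℝ) - n) * h0
    · refine ⟨-((2 * (j : ℤ) - n) * Z i j), ?_⟩
      push_cast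
      linear_combination -(2 * (j : ℝ) - n) * h0
  have hale : ∀ i < S, ∀ j ≤ n, |a i j| ≤ C₀ := by
    intro i hi j hj
    have h1 : |(-(n : ℝ) / 2 + j)| ≤ n := by
      have : (j : ℝ) ≤ n := Nat.cast_le.2 hj
      rw [abs_le]
      constructor <;> linarith [(Nat.cast_nonneg j : (0 : ℝ) ≤ j)]
    have h2 : |if i + 1 < S then B (i + 1) j else 0| ≤ brH n r c := by
      split_ifs with hi'
      · exact hBle _ hi' j hj
      · simpa using hH0
    simp only [ha, shiftCoeff, abs_mul, abs_two, hC₀, mul_assoc]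
    refine mul_le_mul_of_nonneg_left (le_trans (abs_sub _ _) ?_) two_pos.le
    rw [abs_mul, add_mul, one_mul, add_comm ((n : ℝ) * _)]
    gcongr
    exact hBle i hi j hj
  have hlim0 : Tendsto (fun t => t * brRat n r c t) atTop (𝓝 0) := by
    set K : ℝ := 3 * 3 ^ (r * n) / (r : ℝ) ^ (n * c)
    refine squeeze_zero' (g := fun t => K / t) ?_ ?_ (tendsto_id.const_div_atTop K)
    · filter_upwards [eventually_gt_atTop ((r * n : ℕ) : ℝ)] with t ht
      exact mul_nonneg (le_trans (Nat.cast_nonneg _) ht.le) (brRat_le hn hr hc3 ht).1.le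
    · filter_upwards [eventually_gt_atTop ((r * n : ℕ) : ℝ)] with t ht
      have ht0 : 0 < t := lt_of_le_of_lt (Nat.cast_nonneg _) ht
      calc t * brRat n r c t ≤ t * (K / t ^ 2) :=
            mul_le_mul_of_nonneg_left (brRat_le hn hr hc3 ht).2 ht0.le
        _ = K / t := by field_simp
  have hR : ∀ t : PoleFree n, brRat n r c t.1 = fracSum n S a t.1 := by
    have h : ∀ t : PoleFree n, brRat n r c t.1 =
        2 * (∑ j ∈ range (n + 1), B 0 j) + fracSum n S a t.1 := by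
      intro t
      rw [brRat_eq (by omega), hB t, show 2 * t.1 + n = 2 * (t.1 - -(n : ℝ) / 2) by ring,
        mul_assoc, sub_mul_fracSum hS1, mul_add]
      congr 1
      simp only [ha, fracSum, mul_sum, mul_div_assoc]
    have h0 : Tendsto (brRat n r c) atTop (𝓝 0) := by
      have h1 := hlim0.mul tendsto_inv_atTop_zero
      rw [mul_zero] at h1
      refine h1.congr' ?_
      filter_upwards [eventually_gt_atTop (0 : ℝ)] with t ht
      field_simp
    have h2 : Tendsto (brRat n r c) atTop (𝓝 (2 * (∑ j ∈ range (n + 1), B 0 j) + 0)) := by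
      refine ((tendsto_fracSum (n := n) S a).const_add _).congr' ?_
      filter_upwards [eventually_gt_atTop (0 : ℝ)] with t ht
      exact (h (posPoint n ht)).symm
    have h3 := tendsto_nhds_unique h2 h0
    rw [add_zero] at h3
    exact fun t => by rw [h t, h3, zero_add]
  set T : ℕ → ℝ := fun i => ∑ j ∈ range (n + 1), a i j with hT
  have hTodd : ∀ i < S, Odd i → T i = 0 := fun i hi hio =>
    sum_coeff_eq_zero_of_neg (f := brRat n r c) (brRat_neg hc) hR hi hio
  have hT0 : T 0 = 0 := sum_coeff_zero_eq_zero hS1 hR hlim0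
  set E : ℝ := ∑ j ∈ range (n + 1), ∑ l ∈ range j, ∑ i ∈ range S, a i j / ((l : ℝ) + 1) ^ (i + 1)
    with hE
  have hzT : ∀ i, ∃ z : ℤ, i < S → (d : ℝ) ^ S * T i = z := by
    intro i
    by_cases hi : i < S
    · have h := fun j (hj : j ∈ range (n + 1)) => haint i hi j (Nat.lt_succ_iff.1 (mem_range.1 hj))
      choose y hy using h
      refine ⟨(∑ j ∈ (range (n + 1)).attach, y j.1 j.2) * (d : ℤ) ^ (i + 1), fun _ => ?_⟩
      push_cast
      rw [hT, mul_sum, sum_mul, ← sum_attach]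
      exact sum_congr rfl fun j _ => hy j.1 j.2
    · exact ⟨0, fun h => absurd h hi⟩
  choose zT hzT using hzT
  have hzE : ∃ z : ℤ, (d : ℝ) ^ S * E = z := by
    have h : ∀ j ∈ range (n + 1), ∀ l ∈ range j, ∀ i ∈ range S, ∃ z : ℤ,
        (d : ℝ) ^ S * (a i j / ((l : ℝ) + 1) ^ (i + 1)) = z := by
      intro j hj l hl i hi
      have hj' : j ≤ n := Nat.lt_succ_iff.1 (mem_range.1 hj)
      obtain ⟨y, hy⟩ := haint i (mem_range.1 hi) j hj'
      obtain ⟨q, hq⟩ := hd (l + 1) (by omega) (by have := mem_range.1 hl; omega)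
      refine ⟨y * (q : ℤ) ^ (i + 1), ?_⟩
      rw [← mul_div_assoc, hy, hq]
      push_cast
      rw [mul_pow]
      field_simp
    choose z hz using h
    refine ⟨∑ j ∈ (range (n + 1)).attach, ∑ l ∈ (range j.1).attach, ∑ i ∈ (range S).attach,
      z j.1 j.2 l.1 l.2 i.1 i.2, ?_⟩
    push_cast
    rw [hE, mul_sum, ← sum_attach]
    refine sum_congr rfl fun j _ => ?_
    rw [mul_sum, ← sum_attach]
    refine sum_congr rfl fun l _ => ?_
    rw [mul_sum, ← sum_attach]
    exact sum_congr rfl fun i _ => hz j.1 j.2 l.1 l.2 i.1 i.2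
  obtain ⟨zE, hzE⟩ := hzE
  set U : ℝ := 2 * (S : ℝ) * ((n : ℝ) + 1) ^ 3 * brH n r c with hU
  have hn1 : (1 : ℝ) ≤ (n : ℝ) + 1 := by linarith [(Nat.cast_nonneg n : (0 : ℝ) ≤ n)]
  have hS1' : (1 : ℝ) ≤ (S : ℝ) := by exact_mod_cast hS1
  have hU0 : 0 ≤ U := by positivity
  have hC₀0 : 0 ≤ C₀ := by positivity
  set z : ℕ → ℤ := fun k => if 1 ≤ k ∧ k ≤ S then zT (k - 1) else 0 with hz
  refine ⟨z, zE, fun k hk => ?_, fun k => ?_, ?_, ?_⟩
  · simp only [hz] at hk
    split_ifs at hk with hk'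
    · have hk0 : T (k - 1) ≠ 0 := by
        intro h0
        have := hzT (k - 1) (by omega)
        rw [h0, mul_zero] at this
        exact hk (by exact_mod_cast this.symm)
      rcases Nat.even_or_odd k with hev | hodd
      · exact absurd (hTodd (k - 1) (by omega) (by
          obtain ⟨q, rfl⟩ := hev; exact ⟨q - 1, by omega⟩)) hk0
      · refine ⟨hodd, ?_, hk'.2⟩
        obtain ⟨q, rfl⟩ := hodd
        by_contra hlt
        obtain rfl : q = 0 := by omega
        exact hk0 (by simpa using hT0)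
    · exact absurd rfl hk
  · simp only [hz]
    split_ifs with hk'
    · rw [← hzT (k - 1) (by omega), abs_mul, abs_of_nonneg (by positivity : (0 : ℝ) ≤ (d : ℝ) ^ S)]
      refine mul_le_mul_of_nonneg_left ?_ (by positivity)
      refine le_trans (abs_sum_le_sum_abs _ _) (le_trans (sum_le_card_nsmul _ _ C₀ fun j hj =>
        hale _ (by omega) j (Nat.lt_succ_iff.1 (mem_range.1 hj))) ?_)
      rw [card_range, nsmul_eq_mul, hU, hC₀]
      push_cast
      have h1 : ((n : ℝ) + 1) ^ 2 ≤ (S : ℝ) * ((n : ℝ) + 1) ^ 3 := by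
        calc ((n : ℝ) + 1) ^ 2 ≤ ((n : ℝ) + 1) ^ 3 := pow_le_pow_right₀ hn1 (by norm_num)
          _ ≤ _ := le_mul_of_one_le_left (by positivity) hS1'
      nlinarith [mul_le_mul_of_nonneg_right h1 hH0]
    · simpa using mul_nonneg (by positivity : (0 : ℝ) ≤ (d : ℝ) ^ S) hU0
  · rw [← hzE, abs_mul, abs_of_nonneg (by positivity : (0 : ℝ) ≤ (d : ℝ) ^ S)]
    refine mul_le_mul_of_nonneg_left ?_ (by positivity)
    rw [hE]
    refine le_trans (abs_sum_le_sum_abs _ _) (le_trans (sum_le_card_nsmul _ _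
      ((n + 1 : ℕ) * ((S : ℕ) * C₀)) fun j hj => ?_) ?_)
    · have hj' : j ≤ n := Nat.lt_succ_iff.1 (mem_range.1 hj)
      refine le_trans (abs_sum_le_sum_abs _ _) (le_trans (sum_le_card_nsmul _ _ ((S : ℕ) * C₀)
        fun l _ => ?_) ?_)
      · refine le_trans (abs_sum_le_sum_abs _ _) (le_trans (sum_le_card_nsmul _ _ C₀
          fun i hi => ?_) (le_of_eq (by rw [card_range, nsmul_eq_mul])))
        rw [abs_div, abs_of_nonneg (by positivity : (0 : ℝ) ≤ ((l : ℝ) + 1) ^ (i + 1))]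
        exact le_trans (div_le_self (abs_nonneg _)
          (one_le_pow₀ (by linarith [(Nat.cast_nonneg l : (0 : ℝ) ≤ l)])))
          (hale i (mem_range.1 hi) j hj')
      · rw [card_range, nsmul_eq_mul]
        gcongr
        omega
    · rw [card_range, nsmul_eq_mul, hU, hC₀]
      push_cast
      exact le_of_eq (by ring)
  · refine tendsto_nhds_unique
      (((summable_brRat hn hr hc3).hasSum.tendsto_sum_nat).const_mul ((d : ℝ) ^ S)) ?_
    have hexp : ∀ M, ∑ l ∈ range M, brRat n r c ((l : ℝ) + 1) =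
        (∑ i ∈ range S, T i * ∑ l ∈ range M, 1 / ((l : ℝ) + 1) ^ (i + 1)) +
          ((∑ j ∈ range (n + 1), ∑ l ∈ range j, ∑ i ∈ range S,
            a i j / (((M + l : ℕ) : ℝ) + 1) ^ (i + 1)) - E) := by
      intro M
      have h1 : ∀ l : ℕ, brRat n r c ((l : ℝ) + 1) =
          ∑ j ∈ range (n + 1), ∑ i ∈ range S, a i j / (((l + j : ℕ) : ℝ) + 1) ^ (i + 1) := by
        intro l
        rw [show brRat n r c ((l : ℝ) + 1) = fracSum n S a ((l : ℝ) + 1) from
          hR (posPoint n (t := (l : ℝ) + 1) (by positivity)), fracSum, sum_comm]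
        refine sum_congr rfl fun j _ => sum_congr rfl fun i _ => ?_
        push_cast
        ring_nf
      simp only [h1, hE, hT, sum_mul]
      rw [sum_comm, sum_comm (s := range S) (t := range (n + 1)), ← sum_sub_distrib,
        ← sum_add_distrib]
      refine sum_congr rfl fun j _ => ?_
      rw [sum_shift_eq (fun l => ∑ i ∈ range S, a i j / ((l : ℝ) + 1) ^ (i + 1)) M j]
      congr 1
      rw [sum_comm]
      refine sum_congr rfl fun i _ => ?_
      rw [mul_sum]
      exact sum_congr rfl fun l _ => by ring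
    have hlim1 : Tendsto (fun M : ℕ => ∑ j ∈ range (n + 1), ∑ l ∈ range j, ∑ i ∈ range S,
        a i j / (((M + l : ℕ) : ℝ) + 1) ^ (i + 1)) atTop (𝓝 0) := by
      rw [show (0 : ℝ) = ∑ j ∈ range (n + 1), ∑ _l ∈ range j, ∑ _i ∈ range S, (0 : ℝ) by simp]
      refine tendsto_finsetSum _ fun j _ => tendsto_finsetSum _ fun l _ =>
        tendsto_finsetSum _ fun i _ => ?_
      exact ((tendsto_pow_atTop (by omega : i + 1 ≠ 0)).comp (tendsto_atTop_add_const_right _ _
        (tendsto_natCast_atTop_atTop.comp (tendsto_add_atTop_nat l)))).const_div_atTop _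
    have hmain : Tendsto (fun M => ∑ i ∈ range S, T i * ∑ l ∈ range M,
        1 / ((l : ℝ) + 1) ^ (i + 1)) atTop (𝓝 (∑ i ∈ range S, T i * zetaSum (i + 1))) := by
      refine tendsto_finsetSum _ fun i hi => ?_
      rcases eq_or_ne i 0 with rfl | hi0
      · simp [hT0]
      exact (summable_zetaSum (by omega : 2 ≤ i + 1)).hasSum.tendsto_sum_nat.const_mul _
    have h := (hmain.add (hlim1.sub_const E)).const_mul ((d : ℝ) ^ S)
    have hval : (d : ℝ) ^ S * ((∑ i ∈ range S, T i * zetaSum (i + 1)) + (0 - E)) =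
        (∑ k ∈ range (S + 1), (z k : ℝ) * zetaSum k) - zE := by
      rw [sum_range_succ' (fun k => (z k : ℝ) * zetaSum k),
        show z 0 = 0 by simp [hz], Int.cast_zero, zero_mul, add_zero, ← hzE, mul_add, mul_sum,
        zero_sub, mul_neg, ← sub_eq_add_neg]
      congr 1
      refine sum_congr rfl fun i hi => ?_
      have : z (i + 1) = zT i := by
        simp only [hz]; rw [if_pos ⟨by omega, mem_range.1 hi⟩]; simp
      rw [this, ← hzT i (mem_range.1 hi), mul_assoc]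
    rw [← hval]
    exact h.congr fun M => by rw [hexp M]

end FA.ZetaOdd
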