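import Fermat.Agent.ZetaOdd.LinearForms

/-!
# The size of the coefficients of partial fractions

`PFBound n ℓ H f` says that `f` is a combination of the `1 / (t + j) ^ i`, `i ≤ ℓ`, `j ≤ n`, with
coefficients of absolute sum at most `H`. The product with a combination of pole order one of size
`H'` has size at most `(ℓ + 1) H H'`, as the distinct poles differ by at least one.
-/

open Finset Polynomial
open scoped Nat

noncomputable section

namespace FA.ZetaOdd

variable {n ℓ : ℕ} {f g : PoleFree n → ℝ} {H H' : ℝ}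

/-- `f` has a partial fraction expansion of pole order `ℓ` and size `H`. -/
def PFBound (n ℓ : ℕ) (H : ℝ) (f : PoleFree n → ℝ) : Prop :=
  ∃ B : ℕ → ℕ → ℝ, (∑ i ∈ range ℓ, ∑ j ∈ range (n + 1), |B i j|) ≤ H ∧
    ∀ t : PoleFree n, f t = fracSum n ℓ B t.1

theorem PFBound.nonneg (hf : PFBound n ℓ H f) : 0 ≤ H := by
  obtain ⟨B, hB, -⟩ := hf
  exact le_trans (sum_nonneg fun i _ => sum_nonneg fun j _ => abs_nonneg _) hB

theorem PFBound.mono {ℓ' : ℕ} (hf : PFBound n ℓ H f) (h : ℓ ≤ ℓ') (hH : H ≤ H') :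
    PFBound n ℓ' H' f := by
  obtain ⟨B, hB, hB'⟩ := hf
  have hsub : range ℓ ⊆ range ℓ' := range_subset_range.2 h
  refine ⟨fun i j => if i < ℓ then B i j else 0, ?_, fun t => ?_⟩
  · refine le_trans (le_of_eq ?_) (le_trans hB hH)
    rw [← sum_subset hsub fun i _ hi => by simp [show ¬i < ℓ by simpa using hi]]
    exact sum_congr rfl fun i hi => by simp [mem_range.1 hi]
  · rw [hB' t, fracSum, fracSum,
      ← sum_subset hsub fun i _ hi => by simp [show ¬i < ℓ by simpa using hi]]
    exact sum_congr rfl fun i hi => by simp [mem_range.1 hi]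

theorem pfBound_zero : PFBound n ℓ 0 0 := ⟨0, by simp, fun t => by simp [fracSum]⟩

theorem PFBound.add (hf : PFBound n ℓ H f) (hg : PFBound n ℓ H' g) :
    PFBound n ℓ (H + H') (f + g) := by
  obtain ⟨B, hB, hB'⟩ := hf
  obtain ⟨C, hC, hC'⟩ := hg
  refine ⟨B + C, le_trans ?_ (add_le_add hB hC), fun t => ?_⟩
  · rw [← sum_add_distrib]
    refine sum_le_sum fun i _ => ?_
    rw [← sum_add_distrib]
    exact sum_le_sum fun j _ => abs_add_le _ _
  · simp only [Pi.add_apply, fracSum, add_div, sum_add_distrib, hB' t, hC' t]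

theorem PFBound.smul (hf : PFBound n ℓ H f) (c : ℝ) : PFBound n ℓ (|c| * H) (c • f) := by
  obtain ⟨B, hB, hB'⟩ := hf
  refine ⟨c • B, le_trans (le_of_eq ?_) (mul_le_mul_of_nonneg_left hB (abs_nonneg c)), fun t => ?_⟩
  · simp only [Pi.smul_apply, smul_eq_mul, abs_mul, mul_sum]
  · simp only [Pi.smul_apply, smul_eq_mul, hB' t, fracSum, mul_sum, mul_div_assoc]

theorem pfBound_sum {ι : Type*} (I : Finset ι) (F : ι → PoleFree n → ℝ) (G : ι → ℝ)
    (h : ∀ x ∈ I, PFBound n ℓ (G x) (F x)) : PFBound n ℓ (∑ x ∈ I, G x) (∑ x ∈ I, F x) := by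
  classical
  induction I using Finset.induction with
  | empty => simpa using pfBound_zero
  | insert a I ha ih =>
    rw [sum_insert ha, sum_insert ha]
    exact (h a (mem_insert_self _ _)).add (ih fun x hx => h x (mem_insert_of_mem hx))

/-- `1 / (t + j) ^ (i + 1)`. -/
def simpleFrac (n i j : ℕ) : PoleFree n → ℝ := fun t => (t.1 + j)⁻¹ ^ (i + 1)

theorem pfBound_simpleFrac {i j : ℕ} (hi : i < ℓ) (hj : j ≤ n) :
    PFBound n ℓ 1 (simpleFrac n i j) := by
  refine ⟨fun a b => if a = i ∧ b = j then 1 else 0, le_of_eq ?_, fun t => ?_⟩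
  · rw [sum_eq_single_of_mem i (mem_range.2 hi), sum_eq_single_of_mem j (mem_range.2 (by omega))]
    · simp
    · intro b _ hb; simp [hb]
    · intro a _ ha; simp [ha]
  · rw [fracSum, sum_eq_single_of_mem i (mem_range.2 hi),
      sum_eq_single_of_mem j (mem_range.2 (by omega))]
    · simp [simpleFrac, inv_pow]
    · intro b _ hb; simp [hb]
    · intro a _ ha; simp [ha]

theorem pfBound_simpleFrac_mul {j h : ℕ} (hj : j ≤ n) (hh : h ≤ n) (i : ℕ) :
    PFBound n (i + 2) (i + 2) (simpleFrac n i j * simpleFrac n 0 h) := by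
  by_cases hjh : j = h
  · subst hjh
    rw [show simpleFrac n i j * simpleFrac n 0 j = simpleFrac n (i + 1) j from funext fun t => by
      simp only [Pi.mul_apply, simpleFrac, pow_succ]; ring]
    exact (pfBound_simpleFrac (by omega) hj).mono le_rfl
      (by linarith [(Nat.cast_nonneg i : (0 : ℝ) ≤ i)])
  set δ : ℝ := (h : ℝ) - j with hδ
  have hδ0 : δ ≠ 0 := sub_ne_zero.2 fun e => hjh (Nat.cast_injective e).symm
  have hδ1 : |1 / δ| ≤ 1 := by
    rw [abs_div, abs_one, div_le_one (abs_pos.2 hδ0)]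
    have h1 : ((h : ℤ) - j) ≠ 0 := by omega
    have h2 := Int.one_le_abs h1
    calc (1 : ℝ) = ((1 : ℤ) : ℝ) := by simp
      _ ≤ ((|(h : ℤ) - j| : ℤ) : ℝ) := by exact_mod_cast h2
      _ = |δ| := by push_cast; rw [hδ]
  have base : simpleFrac n 0 j * simpleFrac n 0 h =
      (1 / δ) • (simpleFrac n 0 j + (-1 : ℝ) • simpleFrac n 0 h) := by
    funext t
    have h₁ := t.ne hj
    have h₂ := t.ne hh
    simp only [Pi.mul_apply, Pi.smul_apply, Pi.add_apply, smul_eq_mul, simpleFrac, zero_add,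
      pow_one]
    field_simp
    rw [hδ]; ring
  induction i with
  | zero =>
    rw [base]
    refine (((pfBound_simpleFrac (ℓ := 2) (by omega) hj).add
      ((pfBound_simpleFrac (ℓ := 2) (by omega) hh).smul (-1))).smul (1 / δ)).mono (by omega) ?_
    rw [abs_neg, abs_one, one_mul]
    push_cast
    linarith
  | succ i ih =>
    rw [show simpleFrac n (i + 1) j * simpleFrac n 0 h =
        (1 / δ) • (simpleFrac n (i + 1) j + (-1 : ℝ) • (simpleFrac n i j * simpleFrac n 0 h)) by
      have hb := fun t => congrFun base t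
      funext t
      have hb' := hb t
      simp only [Pi.mul_apply, Pi.smul_apply, Pi.add_apply, smul_eq_mul, simpleFrac, zero_add,
        pow_one] at hb' ⊢
      have h₁ := t.ne hj
      rw [pow_succ _ (i + 1)]
      linear_combination ((t.1 + (j : ℝ))⁻¹ ^ (i + 1)) * hb']
    refine (((pfBound_simpleFrac (ℓ := i + 1 + 2) (by omega) hj).add
      ((ih.mono (ℓ' := i + 1 + 2) (by omega) le_rfl).smul (-1))).smul (1 / δ)).mono le_rfl ?_
    rw [abs_neg, abs_one, one_mul]
    refine le_trans (mul_le_of_le_one_left (by positivity) hδ1) ?_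
    push_cast
    linarith

/-- The size of a product with a combination of pole order one. -/
theorem PFBound.mul_one' (hf : PFBound n ℓ H f) (hg : PFBound n 1 H' g) :
    PFBound n (ℓ + 1) ((ℓ + 1 : ℕ) * H * H') (f * g) := by
  have hH := hf.nonneg
  have hH' := hg.nonneg
  obtain ⟨B, hB, hB'⟩ := hf
  obtain ⟨C, hC, hC'⟩ := hg
  have e : f * g = ∑ x ∈ range ℓ ×ˢ range (n + 1), ∑ h ∈ range (n + 1),
      (B x.1 x.2 * C 0 h) • (simpleFrac n x.1 x.2 * simpleFrac n 0 h) := by
    funext t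
    simp only [Pi.mul_apply, Finset.sum_apply, Pi.smul_apply, smul_eq_mul, hB' t, hC' t, fracSum,
      sum_range_one, sum_product, simpleFrac, div_eq_mul_inv, inv_pow]
    rw [sum_mul]
    refine sum_congr rfl fun i _ => ?_
    rw [sum_mul]
    refine sum_congr rfl fun j _ => ?_
    rw [mul_sum]
    exact sum_congr rfl fun h _ => by ring
  rw [e]
  refine (pfBound_sum _ _ (fun x => ∑ h ∈ range (n + 1), |B x.1 x.2| * |C 0 h| * (ℓ + 1 : ℕ))
    fun x hx => pfBound_sum _ _ (fun h => |B x.1 x.2| * |C 0 h| * (ℓ + 1 : ℕ))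
      fun h hh => ?_).mono le_rfl ?_
  · obtain ⟨hi, hj⟩ := mem_product.1 hx
    have hi' := mem_range.1 hi
    refine ((pfBound_simpleFrac_mul (by simpa [Nat.lt_succ_iff] using hj)
      (by simpa [Nat.lt_succ_iff] using hh) x.1).smul _).mono (by omega) ?_
    rw [abs_mul]
    refine mul_le_mul_of_nonneg_left ?_ (by positivity)
    exact_mod_cast (show x.1 + 2 ≤ ℓ + 1 by omega)
  · simp only [← mul_sum, ← sum_mul, sum_product]
    simp only [sum_range_one] at hC
    rw [mul_comm ((ℓ + 1 : ℕ) : ℝ) H, mul_right_comm H]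
    gcongr

/-- The size of a product with many factors of pole order one. -/
theorem PFBound.mul_prod (hf : PFBound n ℓ H f) {m S : ℕ} {G : ℕ → PoleFree n → ℝ}
    (hG : ∀ r < m, PFBound n 1 H' (G r)) (hS : ℓ + m ≤ S) (hH' : 0 ≤ H') :
    PFBound n (ℓ + m) (H * ((S : ℝ) * H') ^ m) (f * ∏ r ∈ range m, G r) := by
  induction m with
  | zero => simpa using hf
  | succ m ih =>
    have hH := hf.nonneg
    rw [prod_range_succ, ← mul_assoc]
    refine ((ih (fun r hr => hG r (by omega)) (by omega)).mul_one' (hG m (by omega))).mono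
      (by omega) ?_
    rw [pow_succ]
    calc ((ℓ + m + 1 : ℕ) : ℝ) * (H * ((S : ℝ) * H') ^ m) * H'
        ≤ (S : ℝ) * (H * ((S : ℝ) * H') ^ m) * H' := by
          gcongr
          exact_mod_cast (show ℓ + m + 1 ≤ S by omega)
      _ = _ := by ring

/-- The size of `s P(t) / (t (t + 1) ⋯ (t + n))`. -/
theorem pfBound_poly (P : ℝ[X]) (hP : P.natDegree ≤ n) (s : ℝ) {M : ℝ}
    (h : ∀ j ≤ n, |s * P.eval (-(j : ℝ))| ≤ M * n !) :
    PFBound n 1 ((2 : ℝ) ^ n * M)
      (fun t => s * P.eval t.1 / ∏ j ∈ range (n + 1), (t.1 + j)) := by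
  refine ⟨fun _ j => s * P.eval (-(j : ℝ)) / ((-1) ^ j * j ! * (n - j)!), ?_, fun t => ?_⟩
  · rw [sum_range_one]
    have e : (2 : ℝ) ^ n * M = ∑ j ∈ range (n + 1), M * (n.choose j : ℝ) := by
      rw [← mul_sum, ← Nat.cast_sum, Nat.sum_range_choose, mul_comm]
      push_cast
      ring
    rw [e]
    refine sum_le_sum fun j hj => ?_
    have hjn : j ≤ n := Nat.lt_succ_iff.1 (mem_range.1 hj)
    rw [abs_div, show |((-1 : ℝ) ^ j * j ! * (n - j)!)| = (j ! * (n - j)! : ℝ) by simp [abs_mul],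
      div_le_iff₀ (by positivity)]
    refine le_trans (h j hjn) (le_of_eq ?_)
    rw [← Nat.choose_mul_factorial_mul_factorial hjn]
    push_cast
    ring
  · simp only [fracSum, sum_range_one, zero_add, pow_one]
    rw [mul_div_assoc, eval_div_prod_eq P hP t, mul_sum]
    exact sum_congr rfl fun j _ => by ring

end FA.ZetaOdd
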