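import Mathlib

/-!
# Partial fractions with denominators dividing a common multiple of `1, …, n`

`poleGroup n d ℓ` is the group of integer combinations of the functions `(d / (t + j)) ^ i` with
`1 ≤ i ≤ ℓ` and `j ≤ n`; it is stable under products when every `δ ≤ n` divides `d`. A quotient
of a polynomial of degree at most `n` by `t (t + 1) ⋯ (t + n)` lies in it under the obvious
integrality condition, and the coefficients of a partial fraction expansion are unique.
-/

open Finset Polynomial Filter Topology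
open scoped Nat

noncomputable section

namespace FA.ZetaOdd

variable {n d : ℕ}

/-- The real numbers other than the poles `0, -1, …, -n`. -/
def PoleFree (n : ℕ) : Type := {t : ℝ // ∀ j ∈ range (n + 1), t + j ≠ 0}

theorem PoleFree.ne (t : PoleFree n) {j : ℕ} (hj : j ≤ n) : t.1 + j ≠ 0 :=
  t.2 j (mem_range.2 (by omega))

/-- The function `(d / (t + j)) ^ (i + 1)`. -/
def poleFun (n d i j : ℕ) : PoleFree n → ℝ := fun t => ((d : ℝ) / (t.1 + j)) ^ (i + 1)

/-- The integer combinations of `poleFun n d i j` with `i < ℓ` and `j ≤ n`. -/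
def poleGroup (n d ℓ : ℕ) : AddSubgroup (PoleFree n → ℝ) :=
  AddSubgroup.closure {f | ∃ i j : ℕ, i < ℓ ∧ j ≤ n ∧ f = poleFun n d i j}

theorem poleFun_mem {ℓ i j : ℕ} (hi : i < ℓ) (hj : j ≤ n) : poleFun n d i j ∈ poleGroup n d ℓ :=
  AddSubgroup.subset_closure ⟨i, j, hi, hj, rfl⟩

theorem poleGroup_mono {ℓ ℓ' : ℕ} (h : ℓ ≤ ℓ') : poleGroup n d ℓ ≤ poleGroup n d ℓ' :=
  AddSubgroup.closure_mono fun _ ⟨i, j, hi, hj, e⟩ => ⟨i, j, lt_of_lt_of_le hi h, hj, e⟩

theorem poleFun_succ_mul (i j : ℕ) (g : PoleFree n → ℝ) :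
    poleFun n d (i + 1) j * g = poleFun n d i j * (poleFun n d 0 j * g) := by
  funext t
  simp only [Pi.mul_apply, poleFun]
  ring

theorem poleFun_zero_mul_zero {j h : ℕ} (hj : j ≤ n) (hh : h ≤ n) {z : ℤ}
    (hz : (z : ℝ) * ((h : ℝ) - j) = d) :
    poleFun n d 0 j * poleFun n d 0 h = z • (poleFun n d 0 j - poleFun n d 0 h) := by
  funext t
  have h₁ := t.ne hj
  have h₂ := t.ne hh
  simp only [Pi.mul_apply, Pi.smul_apply, Pi.sub_apply, poleFun, zsmul_eq_mul, zero_add, pow_one]
  field_simp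
  linear_combination -(d : ℝ) * hz

/-- The product of `(d / (t + j)) ^ (i + 1)` and `d / (t + h)` has pole order at most `i + 2`. -/
theorem poleFun_mul_mem (hd : ∀ δ : ℕ, 1 ≤ δ → δ ≤ n → δ ∣ d) {j h : ℕ} (hj : j ≤ n)
    (hh : h ≤ n) (i : ℕ) : poleFun n d i j * poleFun n d 0 h ∈ poleGroup n d (i + 2) := by
  by_cases hjh : j = h
  · subst hjh
    rw [show poleFun n d i j * poleFun n d 0 j = poleFun n d (i + 1) j from
      funext fun t => by simp only [Pi.mul_apply, poleFun]; ring]
    exact poleFun_mem (by omega) hj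
  obtain ⟨z, hz⟩ : ∃ z : ℤ, (z : ℝ) * ((h : ℝ) - j) = d := by
    rcases Nat.lt_or_ge j h with hlt | hge
    · obtain ⟨q, hq⟩ := hd (h - j) (by omega) (by omega)
      refine ⟨q, ?_⟩
      rw [hq, Nat.cast_mul, Nat.cast_sub hlt.le]
      push_cast
      ring
    · obtain ⟨q, hq⟩ := hd (j - h) (by omega) (by omega)
      refine ⟨-q, ?_⟩
      rw [hq, Nat.cast_mul, Nat.cast_sub hge]
      push_cast
      ring
  induction i with
  | zero =>
    rw [poleFun_zero_mul_zero hj hh hz]
    exact AddSubgroup.zsmul_mem _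
      (sub_mem (poleFun_mem (by omega) hj) (poleFun_mem (by omega) hh)) _
  | succ i ih =>
    rw [poleFun_succ_mul, poleFun_zero_mul_zero hj hh hz, mul_smul_comm, mul_sub,
      show poleFun n d i j * poleFun n d 0 j = poleFun n d (i + 1) j from
        funext fun t => by simp only [Pi.mul_apply, poleFun]; ring]
    exact AddSubgroup.zsmul_mem _
      (sub_mem (poleFun_mem (by omega) hj) (poleGroup_mono (by omega) ih)) _

/-- `G ℓ * G 1 ⊆ G (ℓ + 1)`. -/
theorem mul_mem_poleGroup (hd : ∀ δ : ℕ, 1 ≤ δ → δ ≤ n → δ ∣ d) {ℓ : ℕ}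
    {f g : PoleFree n → ℝ} (hf : f ∈ poleGroup n d ℓ) (hg : g ∈ poleGroup n d 1) :
    f * g ∈ poleGroup n d (ℓ + 1) := by
  induction hg using AddSubgroup.closure_induction with
  | mem g hg =>
    obtain ⟨i', h, hi', hh, rfl⟩ := hg
    obtain rfl : i' = 0 := by omega
    induction hf using AddSubgroup.closure_induction with
    | mem f hf =>
      obtain ⟨i, j, hi, hj, rfl⟩ := hf
      exact poleGroup_mono (by omega) (poleFun_mul_mem hd hj hh i)
    | zero => rw [zero_mul]; exact zero_mem _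
    | add a b _ _ ha hb => rw [add_mul]; exact add_mem ha hb
    | neg a _ ha => rw [neg_mul]; exact neg_mem ha
  | zero => rw [mul_zero]; exact zero_mem _
  | add a b _ _ ha hb => rw [mul_add]; exact add_mem ha hb
  | neg a _ ha => rw [mul_neg]; exact neg_mem ha

theorem mul_prod_mem_poleGroup (hd : ∀ δ : ℕ, 1 ≤ δ → δ ≤ n → δ ∣ d) {ℓ : ℕ}
    {f : PoleFree n → ℝ} (hf : f ∈ poleGroup n d ℓ) {g : ℕ → PoleFree n → ℝ} (m : ℕ)
    (hg : ∀ r < m, g r ∈ poleGroup n d 1) :
    f * ∏ r ∈ range m, g r ∈ poleGroup n d (ℓ + m) := by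
  induction m with
  | zero => simpa using hf
  | succ m ih =>
    rw [prod_range_succ, ← mul_assoc]
    exact mul_mem_poleGroup hd (ih fun r hr => hg r (by omega)) (hg m (by omega))

/-- The integer coefficients of an element of `poleGroup`. -/
theorem exists_coeff_of_mem {ℓ : ℕ} {f : PoleFree n → ℝ} (hf : f ∈ poleGroup n d ℓ) :
    ∃ Z : ℕ → ℕ → ℤ, ∀ t : PoleFree n,
      f t = ∑ i ∈ range ℓ, ∑ j ∈ range (n + 1), (Z i j : ℝ) * poleFun n d i j t := by
  induction hf using AddSubgroup.closure_induction with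
  | mem f hf =>
    obtain ⟨i, j, hi, hj, rfl⟩ := hf
    refine ⟨fun a b => if a = i ∧ b = j then 1 else 0, fun t => ?_⟩
    rw [sum_eq_single_of_mem i (mem_range.2 hi), sum_eq_single_of_mem j (mem_range.2 (by omega))]
    · simp
    · intro b _ hb
      simp [hb]
    · intro a _ ha
      simp [ha]
  | zero => exact ⟨0, fun t => by simp⟩
  | add a b _ _ ha hb =>
    obtain ⟨A, hA⟩ := ha
    obtain ⟨B, hB⟩ := hb
    refine ⟨A + B, fun t => ?_⟩
    simp only [Pi.add_apply, hA t, hB t, Int.cast_add, add_mul, sum_add_distrib]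
  | neg a _ ha =>
    obtain ⟨A, hA⟩ := ha
    refine ⟨-A, fun t => ?_⟩
    simp only [Pi.neg_apply, hA t, Int.cast_neg, neg_mul, sum_neg_distrib]

/-- **Uniqueness of partial fractions.** -/
theorem coeff_eq_zero : ∀ (ℓ : ℕ) (c : ℕ → ℕ → ℝ),
    (∀ t : PoleFree n, ∑ i ∈ range ℓ, ∑ j ∈ range (n + 1), c i j / (t.1 + j) ^ (i + 1) = 0) →
    ∀ i < ℓ, ∀ j ≤ n, c i j = 0 := by
  intro ℓ
  induction ℓ with
  | zero => intro c _ i hi; omega
  | succ ℓ ih =>
    intro c hc
    have htop : ∀ k ≤ n, c ℓ k = 0 := by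
      intro k hk
      set g : ℝ → ℝ := fun x => ∑ i ∈ range (ℓ + 1),
        ((∑ j ∈ (range (n + 1)).erase k, c i j * (x + k) ^ (ℓ + 1) / (x + j) ^ (i + 1)) +
          c i k * (x + k) ^ (ℓ - i)) with hg
      have hcont : ContinuousAt g (-(k : ℝ)) := by
        refine tendsto_finsetSum _ fun i _ => Tendsto.add (tendsto_finsetSum _ fun j hj => ?_) ?_
        · refine ContinuousAt.div (by fun_prop) (by fun_prop) (pow_ne_zero _ ?_)
          intro h0
          exact (mem_erase.1 hj).1 (Nat.cast_injective (R := ℝ) (by linarith))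
        · exact ContinuousAt.tendsto (by fun_prop)
      have hval : g (-(k : ℝ)) = c ℓ k := by
        simp only [hg, neg_add_cancel]
        rw [sum_range_succ, sum_eq_zero, zero_add, sum_eq_zero, zero_add]
        · simp
        · intro j _; simp
        · intro i hi
          have : i < ℓ := mem_range.1 hi
          rw [sum_eq_zero, zero_add, zero_pow (by omega), mul_zero]
          intro j _; simp
      have hzero : ∀ᶠ x in 𝓝[≠] (-(k : ℝ)), g x = 0 := by
        filter_upwards [self_mem_nhdsWithin,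
          nhdsWithin_le_nhds (Metric.ball_mem_nhds (-(k : ℝ)) one_pos)] with x hx hx1
        have hxk : x + k ≠ 0 := fun h => hx (by simp only [Set.mem_singleton_iff]; linarith)
        have hfree : ∀ j ∈ range (n + 1), x + (j : ℝ) ≠ 0 := by
          intro j _ h0
          rw [Metric.mem_ball, Real.dist_eq, abs_lt] at hx1
          have h1 : ((j : ℤ) : ℝ) < (k : ℤ) + (1 : ℤ) := by push_cast; linarith
          have h2 : ((k : ℤ) : ℝ) < (j : ℤ) + (1 : ℤ) := by push_cast; linarith
          have h1' : (j : ℤ) < k + 1 := by exact_mod_cast h1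
          have h2' : (k : ℤ) < j + 1 := by exact_mod_cast h2
          obtain rfl : j = k := by omega
          exact hxk h0
        have := hc ⟨x, hfree⟩
        calc g x = (x + k) ^ (ℓ + 1) *
              ∑ i ∈ range (ℓ + 1), ∑ j ∈ range (n + 1), c i j / (x + j) ^ (i + 1) := by
              rw [hg, mul_sum]
              refine sum_congr rfl fun i hi => ?_
              rw [← add_sum_erase (range (n + 1)) _ (mem_range.2 (by omega : k < n + 1)),
                mul_add, mul_sum, add_comm]
              congr 1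
              · have : i < ℓ + 1 := mem_range.1 hi
                rw [show ℓ + 1 = (ℓ - i) + (i + 1) by omega, pow_add]
                field_simp
              · exact sum_congr rfl fun j _ => by ring
          _ = 0 := by rw [this, mul_zero]
      have := tendsto_nhds_unique (hcont.tendsto.mono_left (nhdsWithin_le_nhds (s := {-(k : ℝ)}ᶜ)))
        (tendsto_const_nhds.congr' (hzero.mono fun x hx => hx.symm))
      rw [← hval, this]
    intro i hi j hj
    rcases Nat.lt_succ_iff_lt_or_eq.1 hi with hi' | rfl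
    · refine ih c (fun t => ?_) i hi' j hj
      have := hc t
      rwa [sum_range_succ, add_eq_left.2 ?_] at this
      exact sum_eq_zero fun j hj => by rw [htop j (by simpa [Nat.lt_succ_iff] using hj), zero_div]
    · exact htop j hj

theorem prod_range_sub_eq (j m : ℕ) :
    ∏ h ∈ (range (j + m + 1)).erase j, ((h : ℝ) - j) = (-1) ^ j * j ! * m ! := by
  have hset : (range (j + m + 1)).erase j = range j ∪ (Finset.Ico (j + 1) (j + m + 1)) := by
    ext h
    simp only [mem_erase, mem_range, mem_union, Finset.mem_Ico]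
    omega
  have hdisj : Disjoint (range j) (Finset.Ico (j + 1) (j + m + 1)) := by
    rw [disjoint_left]
    intro h h₁ h₂
    simp only [mem_range, Finset.mem_Ico] at h₁ h₂
    omega
  rw [hset, prod_union hdisj, prod_Ico_eq_prod_range]
  congr 1
  · rw [← prod_range_reflect, ← prod_range_add_one_eq_factorial, Nat.cast_prod,
      show ((-1 : ℝ) ^ j) = ∏ _i ∈ range j, (-1 : ℝ) by simp, ← prod_mul_distrib]
    refine prod_congr rfl fun i hi => ?_
    have : i < j := mem_range.1 hi
    rw [show j - 1 - i = j - (1 + i) by omega, Nat.cast_sub (by omega)]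
    push_cast
    ring
  · rw [show j + m + 1 - (j + 1) = m by omega, ← prod_range_add_one_eq_factorial, Nat.cast_prod]
    exact prod_congr rfl fun i _ => by push_cast; ring

/-- Lagrange's formula for `P(t) / (t (t + 1) ⋯ (t + n))`, `deg P ≤ n`. -/
theorem eval_div_prod_eq (P : ℝ[X]) (hP : P.natDegree ≤ n) (t : PoleFree n) :
    P.eval t.1 / ∏ j ∈ range (n + 1), (t.1 + j) =
      ∑ j ∈ range (n + 1),
        P.eval (-(j : ℝ)) / ((-1) ^ j * j ! * (n - j)!) / (t.1 + j) := by
  have hinj : Set.InjOn (fun j : ℕ => -(j : ℝ)) (range (n + 1) : Finset ℕ) :=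
    fun a _ b _ h => by simpa using h
  have hdeg : P.degree < #(range (n + 1)) := by
    rw [card_range]
    exact lt_of_le_of_lt (degree_le_natDegree) (by exact_mod_cast Nat.lt_succ_of_le hP)
  have hne : ∀ j ∈ range (n + 1), t.1 ≠ -(j : ℝ) := fun j hj h => t.2 j hj (by linarith)
  conv_lhs => rw [Lagrange.eq_interpolate hinj hdeg]
  rw [Lagrange.eval_interpolate_not_at_node _ hne, Lagrange.eval_nodal]
  simp only [sub_neg_eq_add]
  rw [mul_div_cancel_left₀ _ (prod_ne_zero_iff.2 t.2)]
  refine sum_congr rfl fun j hj => ?_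
  have hjn : j ≤ n := by simpa [Nat.lt_succ_iff] using hj
  have hw : Lagrange.nodalWeight (range (n + 1)) (fun j : ℕ => -(j : ℝ)) j =
      ((-1 : ℝ) ^ j * j ! * (n - j)!)⁻¹ := by
    rw [← prod_range_sub_eq j (n - j), show j + (n - j) + 1 = n + 1 by omega,
      Lagrange.nodalWeight, prod_inv_distrib]
    congr 1
    exact prod_congr rfl fun h _ => by ring
  rw [hw]
  field_simp

/-- A simple fraction with polynomial numerator lies in `poleGroup n d 1`. -/
theorem mem_poleGroup_one (P : ℝ[X]) (hP : P.natDegree ≤ n) (s : ℝ)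
    (h : ∀ j ≤ n, ∃ z : ℤ, s * P.eval (-(j : ℝ)) = z * (j ! * (n - j)! : ℝ)) :
    (fun t : PoleFree n => (d : ℝ) * (s * P.eval t.1 / ∏ j ∈ range (n + 1), (t.1 + j))) ∈
      poleGroup n d 1 := by
  choose z hz using h
  have e : (fun t : PoleFree n => (d : ℝ) * (s * P.eval t.1 / ∏ j ∈ range (n + 1), (t.1 + j))) =
      ∑ j ∈ (range (n + 1)).attach,
        ((-1) ^ j.1 * z j.1 (Nat.lt_succ_iff.1 (mem_range.1 j.2))) • poleFun n d 0 j.1 := by
    funext t
    rw [Finset.sum_apply, mul_div_assoc, eval_div_prod_eq P hP t, ← mul_assoc, mul_sum]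
    conv_lhs => rw [← sum_attach]
    refine sum_congr rfl fun j _ => ?_
    have hjn : j.1 ≤ n := Nat.lt_succ_iff.1 (mem_range.1 j.2)
    simp only [Pi.smul_apply, poleFun, zsmul_eq_mul, zero_add, pow_one, Int.cast_mul,
      Int.cast_pow, Int.cast_neg, Int.cast_one]
    have h₀ := hz j.1 hjn
    have h₁ : ((-1 : ℝ) ^ j.1) * ((-1 : ℝ) ^ j.1) = 1 := by
      rw [← mul_pow]; norm_num
    have h₂ := t.ne hjn
    field_simp
    linear_combination ((d : ℝ)) * h₀ - ((d : ℝ) * z j.1 hjn * j.1 ! * (n - j.1)!) * h₁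
  rw [e]
  exact AddSubgroup.sum_mem _ fun j _ => AddSubgroup.zsmul_mem _
    (poleFun_mem zero_lt_one (Nat.lt_succ_iff.1 (mem_range.1 j.2))) _

end FA.ZetaOdd
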