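import Fermat.Agent.ZetaOdd.RationalFunction

/-!
# The linear forms in odd zeta values

For `v ∣ D` the series `∑_{u ≤ v} ∑_l R_n (l + u / v)` is `∑_k A_k v ^ k ζ(k) - E` with
`A_k = 0` unless `k` is odd and `3 ≤ k ≤ 3 D + e`, the coefficients `A_k` and `E` having
`d ^ (3 D + e)` as a denominator for `d = lcm (1, …, n)`.
-/

open Finset Filter Topology

noncomputable section

namespace FA.ZetaOdd

variable {n D e d : ℕ}

/-- `∑ 1 / m ^ k`, the value `ζ(k)` for `k ≥ 2`. -/
def zetaSum (k : ℕ) : ℝ := ∑' m : ℕ, 1 / ((m : ℝ) + 1) ^ k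

theorem summable_zetaSum {k : ℕ} (hk : 2 ≤ k) :
    Summable fun m : ℕ => 1 / ((m : ℝ) + 1) ^ k := by
  have h := (summable_nat_add_iff 1).2 (Real.summable_one_div_nat_pow.2 (by omega : 1 < k))
  simpa using h

/-- The finite sum of simple fractions with coefficients `c`. -/
def fracSum (n S : ℕ) (c : ℕ → ℕ → ℝ) (t : ℝ) : ℝ :=
  ∑ i ∈ range S, ∑ j ∈ range (n + 1), c i j / (t + j) ^ (i + 1)

theorem fracSum_unique {S : ℕ} {c c' : ℕ → ℕ → ℝ}
    (h : ∀ t : PoleFree n, fracSum n S c t.1 = fracSum n S c' t.1) :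
    ∀ i < S, ∀ j ≤ n, c i j = c' i j := by
  intro i hi j hj
  refine sub_eq_zero.1 (coeff_eq_zero S (fun a b => c a b - c' a b) (fun t => ?_) i hi j hj)
  simpa [fracSum, sub_div, sum_sub_distrib, sub_eq_zero] using h t

theorem tendsto_fracSum (S : ℕ) (c : ℕ → ℕ → ℝ) :
    Tendsto (fracSum n S c) atTop (𝓝 0) := by
  rw [show (0 : ℝ) = ∑ _i ∈ range S, ∑ _j ∈ range (n + 1), (0 : ℝ) by simp]
  exact tendsto_finsetSum _ fun i _ => tendsto_finsetSum _ fun j _ =>
    (tendsto_pow_atTop (by omega : i + 1 ≠ 0)).comp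
      (tendsto_atTop_add_const_right _ (j : ℝ) tendsto_id) |>.const_div_atTop _

/-- The coefficients after multiplication by `t - t₀`. -/
def shiftCoeff (S : ℕ) (B : ℕ → ℕ → ℝ) (t₀ : ℝ) (i j : ℕ) : ℝ :=
  (if i + 1 < S then B (i + 1) j else 0) - (t₀ + j) * B i j

theorem sub_mul_fracSum {S : ℕ} (hS : 1 ≤ S) (B : ℕ → ℕ → ℝ) (t₀ : ℝ) (t : PoleFree n) :
    (t.1 - t₀) * fracSum n S B t.1 =
      (∑ j ∈ range (n + 1), B 0 j) + fracSum n S (shiftCoeff S B t₀) t.1 := by
  obtain ⟨S', rfl⟩ : ∃ S', S = S' + 1 := ⟨S - 1, by omega⟩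
  simp only [fracSum, mul_sum]
  rw [sum_comm (s := range (S' + 1)), sum_comm (s := range (S' + 1)), ← sum_add_distrib]
  refine sum_congr rfl fun j hj => ?_
  set y := t.1 + (j : ℝ) with hy
  have hne : y ≠ 0 := t.2 j hj
  have e₁ : ∀ i, (t.1 - t₀) * (B i j / y ^ (i + 1)) =
      B i j / y ^ i - (t₀ + j) * B i j / y ^ (i + 1) := by
    intro i
    rw [pow_succ, show t.1 - t₀ = y - (t₀ + j) by rw [hy]; ring]
    field_simp
  simp only [e₁, shiftCoeff, sub_div, sum_sub_distrib]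
  rw [sum_range_succ' (fun i => B i j / y ^ i), sum_range_succ
    (fun i => (if i + 1 < S' + 1 then B (i + 1) j else 0) / y ^ (i + 1))]
  simp only [lt_irrefl, if_false, zero_div, add_zero, pow_zero, div_one]
  rw [sum_congr rfl (g := fun i => (if i + 1 < S' + 1 then B (i + 1) j else 0) / y ^ (i + 1))
    fun i hi => by rw [if_pos (by simpa using hi)]]
  ring

/-- The sum `∑_i a_i / L ^ (i + 1)` of shifted coefficients telescopes. -/
theorem sum_shiftCoeff_div {S : ℕ} (B : ℕ → ℕ → ℝ) {t₀ : ℝ} {j : ℕ} (hS : 1 ≤ S)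
    (hL : t₀ + j ≠ 0) :
    ∑ i ∈ range S, shiftCoeff S B t₀ i j / (t₀ + j) ^ (i + 1) = -B 0 j := by
  set L := t₀ + (j : ℝ) with hL'
  set f : ℕ → ℝ := fun i => (if i < S then B i j else 0) / L ^ i with hf
  rw [sum_congr rfl (g := fun i => f (i + 1) - f i) fun i hi => ?_, sum_range_sub f]
  · simp [hf, show 0 < S by omega]
  · simp only [hf, if_pos (mem_range.1 hi), shiftCoeff, ← hL', sub_div, pow_succ]
    field_simp

theorem exists_rem_coeff (hd0 : 0 < d) (hd : ∀ δ : ℕ, 1 ≤ δ → δ ≤ n → δ ∣ d) {q c : ℕ}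
    (hq : q < 3 * D) (hc : c ≤ n) (hC : n.choose c ∣ d) :
    ∃ B : ℕ → ℕ → ℝ,
      (∀ i j, ∃ z : ℤ, (d : ℝ) ^ (3 * D + e + 1) * B i j = z * (d : ℝ) ^ (i + 1)) ∧
        ∀ t : PoleFree n, remFun n D e q c t = fracSum n (3 * D + e) B t.1 := by
  obtain ⟨Z, hZ⟩ := exists_coeff_of_mem (remFun_mem (e := e) hd hq hc hC)
  have hd' : (d : ℝ) ^ (3 * D + e + 1) ≠ 0 := by positivity
  refine ⟨fun i j => Z i j * (d : ℝ) ^ (i + 1) / (d : ℝ) ^ (3 * D + e + 1),
    fun i j => ⟨Z i j, by field_simp⟩, fun t => ?_⟩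
  refine mul_left_cancel₀ hd' ((hZ t).trans ?_)
  simp only [fracSum, mul_sum, poleFun, div_pow]
  exact sum_congr rfl fun i _ => sum_congr rfl fun j _ => by field_simp

/-- An antisymmetric function has vanishing coefficient sums at the even exponents. -/
theorem sum_coeff_eq_zero_of_neg {f : ℝ → ℝ} {S : ℕ} {a : ℕ → ℕ → ℝ}
    (hf : ∀ t, f (-(n : ℝ) - t) = -f t) (hR : ∀ t : PoleFree n, f t.1 = fracSum n S a t.1)
    {i : ℕ} (hi : i < S) (hio : Odd i) : ∑ j ∈ range (n + 1), a i j = 0 := by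
  have hsym : ∀ t : PoleFree n,
      fracSum n S (fun i j => (-1) ^ (i + 1) * a i (n - j)) t.1 =
        fracSum n S (fun i j => -a i j) t.1 := by
    intro t
    have hfree : ∀ j ∈ range (n + 1), -(n : ℝ) - t.1 + j ≠ 0 := by
      intro j hj h0
      have hj' : j ≤ n := Nat.lt_succ_iff.1 (mem_range.1 hj)
      exact t.2 (n - j) (mem_range.2 (by omega)) (by rw [Nat.cast_sub hj']; linarith)
    have h1 := (hR ⟨-(n : ℝ) - t.1, hfree⟩)
    rw [hf, hR t] at h1
    simp only [fracSum, neg_div, sum_neg_distrib] at h1 ⊢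
    rw [h1]
    refine sum_congr rfl fun i _ => ?_
    rw [← sum_range_reflect]
    refine sum_congr rfl fun j hj => ?_
    have hj' : j ≤ n := Nat.lt_succ_iff.1 (mem_range.1 hj)
    rw [show n + 1 - 1 - j = n - j by omega, Nat.cast_sub hj',
      show -(n : ℝ) - t.1 + j = -1 * (t.1 + ((n : ℝ) - j)) by ring, mul_pow,
      show n - (n - j) = j by omega]
    rcases neg_one_pow_eq_or ℝ (i + 1) with hs | hs <;>
      simp only [hs, one_mul, neg_mul, neg_div, div_neg]
  have h2 := fracSum_unique hsym i hi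
  have h3 : ∑ j ∈ range (n + 1), a i j = -∑ j ∈ range (n + 1), a i j := by
    calc ∑ j ∈ range (n + 1), a i j = ∑ j ∈ range (n + 1), a i (n - j) := by
          rw [← sum_range_reflect (fun j => a i j) (n + 1)]
          simp
      _ = _ := by
          rw [← sum_neg_distrib]
          refine sum_congr rfl fun j hj => ?_
          have := h2 j (Nat.lt_succ_iff.1 (mem_range.1 hj))
          simpa [hio.add_one.neg_one_pow] using this
  linarith

/-- A function that is `o (1 / t)` has total residue zero. -/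
theorem sum_coeff_zero_eq_zero {f : ℝ → ℝ} {S : ℕ} {a : ℕ → ℕ → ℝ} (hS : 1 ≤ S)
    (hR : ∀ t : PoleFree n, f t.1 = fracSum n S a t.1)
    (hf : Tendsto (fun t => t * f t) atTop (𝓝 0)) : ∑ j ∈ range (n + 1), a 0 j = 0 := by
  have hlim : Tendsto (fun t : ℝ => t * fracSum n S a t) atTop
      (𝓝 (∑ j ∈ range (n + 1), a 0 j)) := by
    have e₁ : (∑ j ∈ range (n + 1), a 0 j) =
        ∑ i ∈ range S, ∑ j ∈ range (n + 1), if i = 0 then a i j else 0 :=
      ((sum_eq_single_of_mem 0 (mem_range.2 (by omega)) fun i _ hi => by simp [hi]).trans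
        (by simp)).symm
    simp only [fracSum, mul_sum, e₁]
    refine tendsto_finsetSum _ fun i _ => tendsto_finsetSum _ fun j _ => ?_
    have h1 : Tendsto (fun t : ℝ => a i j * (t / (t + j))) atTop (𝓝 (a i j * 1)) := by
      refine Tendsto.const_mul _ ?_
      have h0 := ((tendsto_atTop_add_const_right _ (j : ℝ) tendsto_id).const_div_atTop
        (j : ℝ)).const_sub (1 : ℝ)
      rw [sub_zero] at h0
      refine h0.congr' ?_
      filter_upwards [eventually_gt_atTop (0 : ℝ)] with t ht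
      simp only [id_eq]
      field_simp
      ring
    rcases eq_or_ne i 0 with rfl | hi
    · simpa [mul_comm, mul_assoc, mul_left_comm, div_eq_mul_inv] using h1
    · rw [if_neg hi]
      have h2 := h1.mul ((tendsto_pow_atTop hi).comp
        (tendsto_atTop_add_const_right _ (j : ℝ) tendsto_id)).inv_tendsto_atTop
      rw [mul_zero] at h2
      refine h2.congr' ?_
      filter_upwards [eventually_gt_atTop (0 : ℝ)] with t ht
      simp only [Pi.inv_apply, Function.comp_apply, id_eq, pow_succ]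
      field_simp
  refine tendsto_nhds_unique (hlim.congr' ?_) hf
  filter_upwards [eventually_gt_atTop (0 : ℝ)] with t ht
  exact congrArg (t * ·) (hR (posPoint n ht)).symm

theorem tendsto_sq_mul_rat (hn : 1 ≤ n) (hD : 1 ≤ D) (he : 2 ≤ e) :
    Tendsto (fun t => t * rat n D e t) atTop (𝓝 0) := by
  obtain ⟨e', rfl⟩ : ∃ e', e = 2 + e' := ⟨e - 2, by omega⟩
  set K : ℝ := 3 * (3 * D) ^ (3 * D * n) / (n.centralBinom : ℝ) ^ e'
  refine squeeze_zero' (g := fun t => K / t) ?_ ?_ (tendsto_id.const_div_atTop K)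
  · filter_upwards [eventually_ge_atTop (n : ℝ)] with t ht
    exact mul_nonneg (le_trans (Nat.cast_nonneg n) ht) (rat_nonneg ht)
  · filter_upwards [eventually_ge_atTop (n : ℝ)] with t ht
    have ht0 : 0 < t := lt_of_lt_of_le (by exact_mod_cast hn) ht
    calc t * rat n D (2 + e') t ≤ t * (K / t ^ 2) :=
          mul_le_mul_of_nonneg_left (rat_le hn hD e' ht) ht0.le
      _ = K / t := by field_simp

/-- One coefficient array serves every choice of the zero taken out. -/
theorem exists_coeff (hn : 1 ≤ n) (hD : 1 ≤ D) (he : 2 ≤ e) (hd0 : 0 < d)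
    (hd : ∀ δ : ℕ, 1 ≤ δ → δ ≤ n → δ ∣ d) (hC : ∀ c ≤ n, n.choose c ∣ d) :
    ∃ a : ℕ → ℕ → ℝ, (∀ t : PoleFree n, rat n D e t.1 = fracSum n (3 * D + e) a t.1) ∧
      (∀ i j, ∃ z : ℤ, (d : ℝ) ^ (3 * D + e) * a i j = z) ∧
      ∀ q c, q < 3 * D → c ≤ n → ∀ j ≤ n, (n : ℝ) - (q * n + c : ℕ) / D + j ≠ 0 →
        ∃ z : ℤ, (d : ℝ) ^ (3 * D + e) *
          ∑ i ∈ range (3 * D + e),
            a i j / ((n : ℝ) - (q * n + c : ℕ) / D + j) ^ (i + 1) = z := by
  have hS : 1 ≤ 3 * D + e := by omega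
  have hrat0 : Tendsto (rat n D e) atTop (𝓝 0) := by
    have h := (tendsto_sq_mul_rat hn hD he).mul tendsto_inv_atTop_zero
    rw [mul_zero] at h
    refine h.congr' ?_
    filter_upwards [eventually_gt_atTop (0 : ℝ)] with t ht
    field_simp
  have key : ∀ q c, q < 3 * D → c ≤ n → ∃ B : ℕ → ℕ → ℝ,
      (∀ i j, ∃ z : ℤ, (d : ℝ) ^ (3 * D + e + 1) * B i j = z * (d : ℝ) ^ (i + 1)) ∧
      ∀ t : PoleFree n, rat n D e t.1 =
        fracSum n (3 * D + e) (shiftCoeff (3 * D + e) B ((n : ℝ) - (q * n + c : ℕ) / D)) t.1 := by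
    intro q c hq hc
    obtain ⟨B, hB, hB'⟩ := exists_rem_coeff (e := e) hd0 hd hq hc (hC c hc)
    set t₀ : ℝ := (n : ℝ) - (q * n + c : ℕ) / D
    set A := shiftCoeff (3 * D + e) B t₀
    have hDne : (D : ℝ) ≠ 0 := by positivity
    have h : ∀ t : PoleFree n, rat n D e t.1 =
        (∑ j ∈ range (n + 1), B 0 j) + fracSum n (3 * D + e) A t.1 := by
      intro t
      rw [rat_eq_remFun hq hc, hB' t, ← sub_mul_fracSum hS]
      congr 1
      simp only [t₀]
      field_simp
      ring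
    have h0 : (∑ j ∈ range (n + 1), B 0 j) = 0 := by
      have hlim : Tendsto (rat n D e) atTop
          (𝓝 ((∑ j ∈ range (n + 1), B 0 j) + 0)) := by
        refine ((tendsto_fracSum (n := n) (3 * D + e) A).const_add _).congr' ?_
        filter_upwards [eventually_gt_atTop (0 : ℝ)] with t ht
        exact (h (posPoint n ht)).symm
      simpa using tendsto_nhds_unique hlim hrat0
    exact ⟨B, hB, fun t => by rw [h t, h0, zero_add]⟩
  obtain ⟨B₀, hB₀, hR₀⟩ := key 0 0 (by omega) (Nat.zero_le n)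
  refine ⟨_, hR₀, ?_, ?_⟩
  · have hint : ∀ i j, ∃ z : ℤ, (d : ℝ) ^ (3 * D + e) * B₀ i j = z := by
      intro i j
      obtain ⟨z, hz⟩ := hB₀ i j
      refine ⟨z * (d : ℤ) ^ i, ?_⟩
      refine mul_left_cancel₀ (Nat.cast_ne_zero.2 hd0.ne' : (d : ℝ) ≠ 0) ?_
      rw [← mul_assoc, ← pow_succ', hz]
      push_cast
      ring
    intro i j
    obtain ⟨z, hz⟩ := hint i j
    obtain ⟨z', hz'⟩ := hint (i + 1) j
    simp only [shiftCoeff, zero_mul, add_zero, Nat.cast_zero, zero_div, sub_zero]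
    split_ifs with hi
    · refine ⟨z' - ((n : ℤ) + j) * z, ?_⟩
      push_cast
      linear_combination hz' - ((n : ℝ) + j) * hz
    · refine ⟨-(((n : ℤ) + j) * z), ?_⟩
      push_cast
      linear_combination -((n : ℝ) + j) * hz
  · intro q c hq hc j hj hne
    obtain ⟨B, hB, hR⟩ := key q c hq hc
    have hu := fracSum_unique (fun t => (hR₀ t).symm.trans (hR t))
    obtain ⟨z, hz⟩ := hB 0 j
    refine ⟨-z, mul_left_cancel₀ (Nat.cast_ne_zero.2 hd0.ne' : (d : ℝ) ≠ 0) ?_⟩
    rw [sum_congr rfl (fun i hi => by rw [hu i (mem_range.1 hi) j hj]),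
      sum_shiftCoeff_div B hS hne, ← mul_assoc, ← pow_succ', mul_neg, hz]
    push_cast
    ring

theorem sum_shift_eq (g : ℕ → ℝ) (M j : ℕ) :
    ∑ l ∈ range M, g (l + j) =
      (∑ l ∈ range M, g l) + ((∑ l ∈ range j, g (M + l)) - ∑ l ∈ range j, g l) := by
  have h1 := sum_range_add g j M
  have h2 := sum_range_add g M j
  simp only [add_comm j] at h1
  linarith [h1, h2]

/-- **The linear forms.** -/
theorem exists_linear_forms (hn : 1 ≤ n) (hD : 1 ≤ D) (hDe : Even D) (he : Even e) (he2 : 2 ≤ e)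
    (hd0 : 0 < d) (hd : ∀ δ : ℕ, 1 ≤ δ → δ ≤ n → δ ∣ d) (hC : ∀ c ≤ n, n.choose c ∣ d) :
    ∃ A : ℕ → ℝ, (∀ k, ∃ z : ℤ, (d : ℝ) ^ (3 * D + e) * A k = z) ∧
      (∀ k, A k ≠ 0 → Odd k ∧ 3 ≤ k ∧ k ≤ 3 * D + e) ∧
      ∀ v, v ∣ D → ∃ E : ℝ, (∃ z : ℤ, (d : ℝ) ^ (3 * D + e) * E = z) ∧
        Tendsto (fun M => ∑ u ∈ range v, ∑ l ∈ range M, rat n D e ((l : ℝ) + ((u : ℝ) + 1) / v))
          atTop (𝓝 ((∑ k ∈ range (3 * D + e + 1), A k * (v : ℝ) ^ k * zetaSum k) - E)) := by
  obtain ⟨a, hR, ha, haL⟩ := exists_coeff hn hD he2 hd0 hd hC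
  set S := 3 * D + e with hS
  set T : ℕ → ℝ := fun i => ∑ j ∈ range (n + 1), a i j with hT
  set A : ℕ → ℝ := fun k => if 1 ≤ k ∧ k ≤ S then T (k - 1) else 0 with hA
  have hTint : ∀ i, ∃ z : ℤ, (d : ℝ) ^ S * T i = z := by
    intro i
    choose z hz using ha i
    refine ⟨∑ j ∈ range (n + 1), z j, ?_⟩
    rw [hT, mul_sum]
    push_cast
    exact sum_congr rfl fun j _ => hz j
  have hTodd : ∀ i < S, Odd i → T i = 0 := fun i hi hio =>
    sum_coeff_eq_zero_of_neg (f := rat n D e) (rat_neg hDe he) hR hi hio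
  have hT0 : T 0 = 0 :=
    sum_coeff_zero_eq_zero (by omega) hR (tendsto_sq_mul_rat hn hD he2)
  refine ⟨A, fun k => ?_, fun k hk => ?_, fun v hv => ?_⟩
  · simp only [hA]
    split_ifs
    · exact hTint _
    · exact ⟨0, by simp⟩
  · simp only [hA] at hk
    split_ifs at hk with hk'
    · rcases Nat.even_or_odd k with hev | hodd
      · exact absurd (hTodd (k - 1) (by omega) (by
          obtain ⟨r, rfl⟩ := hev; exact ⟨r - 1, by omega⟩)) hk
      · refine ⟨hodd, ?_, hk'.2⟩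
        obtain ⟨r, rfl⟩ := hodd
        by_contra hlt
        obtain rfl : r = 0 := by omega
        exact hk (by simpa using hT0)
    · exact absurd rfl hk
  obtain ⟨m, hm⟩ := hv
  have hv0 : 0 < v := Nat.pos_of_ne_zero fun h => by simp [h] at hm; omega
  have hm0 : 0 < m := Nat.pos_of_ne_zero fun h => by simp [h] at hm; omega
  set L : ℕ → ℕ → ℝ := fun u l => (l : ℝ) + ((u : ℝ) + 1) / v with hL
  have hLpos : ∀ u l, 0 < L u l := fun u l => by
    have : (0 : ℝ) < v := by exact_mod_cast hv0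
    simp only [hL]; positivity
  refine ⟨∑ u ∈ range v, ∑ j ∈ range (n + 1), ∑ l ∈ range j, ∑ i ∈ range S,
    a i j / L u l ^ (i + 1), ?_, ?_⟩
  · have hterm : ∀ u ∈ range v, ∀ j ∈ range (n + 1), ∀ l ∈ range j, ∃ z : ℤ,
        (d : ℝ) ^ S * ∑ i ∈ range S, a i j / L u l ^ (i + 1) = z := by
      intro u hu j hj l hl
      have hu' : u < v := mem_range.1 hu
      have hj' : j ≤ n := Nat.lt_succ_iff.1 (mem_range.1 hj)
      have hl' : l < j := mem_range.1 hl
      have hU : (u + 1) * m ≤ D := hm ▸ Nat.mul_le_mul_right m hu'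
      have hU' : (u + 1) * m ≤ D * (n + j - l) :=
        le_trans hU (Nat.le_mul_of_pos_right _ (by omega))
      have hU1 : 1 ≤ (u + 1) * m := Nat.mul_pos (by omega) hm0
      set i₀ := D * (n + j - l) - (u + 1) * m with hi₀
      have hlt : i₀ < 3 * D * n := by
        have : D * (n + j - l) ≤ D * (3 * n) := Nat.mul_le_mul_left _ (by omega)
        rw [show D * (3 * n) = 3 * D * n by ring] at this
        omega
      have hq : i₀ / n < 3 * D := (Nat.div_lt_iff_lt_mul (by omega)).2 hlt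
      have hdm : i₀ / n * n + i₀ % n = i₀ := Nat.div_add_mod' i₀ n
      have hval : (n : ℝ) - (i₀ / n * n + i₀ % n : ℕ) / D + j = L u l := by
        rw [hdm, hi₀, Nat.cast_sub hU', hm]
        have : (v : ℝ) ≠ 0 := by positivity
        have : (m : ℝ) ≠ 0 := by positivity
        simp only [hL, Nat.cast_mul, Nat.cast_add, Nat.cast_one,
          Nat.cast_sub (by omega : l ≤ n + j)]
        field_simp
        ring
      obtain ⟨z, hz⟩ := haL _ (i₀ % n) hq (Nat.mod_lt _ (by omega)).le j hj'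
        (by rw [hval]; exact (hLpos u l).ne')
      exact ⟨z, by rw [← hval]; exact hz⟩
    choose z hz using hterm
    refine ⟨∑ u ∈ (range v).attach, ∑ j ∈ (range (n + 1)).attach, ∑ l ∈ (range j.1).attach,
      z u.1 u.2 j.1 j.2 l.1 l.2, ?_⟩
    push_cast
    rw [mul_sum, ← sum_attach]
    refine sum_congr rfl fun u _ => ?_
    rw [mul_sum, ← sum_attach]
    refine sum_congr rfl fun j _ => ?_
    rw [mul_sum, ← sum_attach]
    exact sum_congr rfl fun l _ => hz u.1 u.2 j.1 j.2 l.1 l.2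
  have hexp : ∀ M, ∑ u ∈ range v, ∑ l ∈ range M, rat n D e (L u l) =
      (∑ i ∈ range S, T i * ((v : ℝ) ^ (i + 1) * ∑ x ∈ range (M * v), 1 / ((x : ℝ) + 1) ^ (i + 1)))
        + ((∑ u ∈ range v, ∑ j ∈ range (n + 1), ∑ l ∈ range j, ∑ i ∈ range S,
              a i j / L u (M + l) ^ (i + 1)) -
           ∑ u ∈ range v, ∑ j ∈ range (n + 1), ∑ l ∈ range j, ∑ i ∈ range S,
              a i j / L u l ^ (i + 1)) := by
    intro M
    have hblock : ∀ i, (v : ℝ) ^ (i + 1) * ∑ x ∈ range (M * v), 1 / ((x : ℝ) + 1) ^ (i + 1) =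
        ∑ u ∈ range v, ∑ l ∈ range M, 1 / L u l ^ (i + 1) := by
      intro i
      rw [sum_range_mul_eq, sum_comm, mul_sum]
      refine sum_congr rfl fun u _ => ?_
      rw [mul_sum]
      refine sum_congr rfl fun l _ => ?_
      have : (v : ℝ) ≠ 0 := by positivity
      rw [show L u l = (((l * v + u : ℕ) : ℝ) + 1) / v by
        simp only [hL]; push_cast; field_simp; ring, div_pow]
      field_simp
    simp only [hblock]
    have h1 : ∀ u l, rat n D e (L u l) =
        ∑ j ∈ range (n + 1), ∑ i ∈ range S, a i j / L u (l + j) ^ (i + 1) := by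
      intro u l
      rw [show rat n D e (L u l) = fracSum n S a (L u l) from hR (posPoint n (hLpos u l)),
        fracSum, sum_comm]
      refine sum_congr rfl fun j _ => sum_congr rfl fun i _ => ?_
      simp only [hL]; push_cast; ring_nf
    simp only [h1]
    rw [← sum_sub_distrib]
    simp only [mul_sum]
    rw [sum_comm (s := range S), ← sum_add_distrib]
    refine sum_congr rfl fun u _ => ?_
    rw [sum_comm, ← sum_sub_distrib, sum_comm (s := range S)]
    simp only [hT, sum_mul]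
    rw [show (∑ l ∈ range M, ∑ i ∈ range S, ∑ j ∈ range (n + 1), a i j * (1 / L u l ^ (i + 1))) =
      ∑ j ∈ range (n + 1), ∑ l ∈ range M, ∑ i ∈ range S, a i j / L u l ^ (i + 1) by
      rw [sum_comm (s := range (n + 1))]
      refine sum_congr rfl fun l _ => ?_
      rw [sum_comm]
      exact sum_congr rfl fun j _ => sum_congr rfl fun i _ => by ring]
    rw [← sum_add_distrib]
    exact sum_congr rfl fun j _ =>
      sum_shift_eq (fun l => ∑ i ∈ range S, a i j / L u l ^ (i + 1)) M j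
  have hlim0 : Tendsto (fun M => ∑ u ∈ range v, ∑ j ∈ range (n + 1), ∑ l ∈ range j,
      ∑ i ∈ range S, a i j / L u (M + l) ^ (i + 1)) atTop (𝓝 0) := by
    rw [show (0 : ℝ) = ∑ _u ∈ range v, ∑ j ∈ range (n + 1), ∑ _l ∈ range j, ∑ _i ∈ range S, (0 : ℝ)
      by simp]
    refine tendsto_finsetSum _ fun u _ => tendsto_finsetSum _ fun j _ =>
      tendsto_finsetSum _ fun l _ => tendsto_finsetSum _ fun i _ => ?_
    refine ((tendsto_pow_atTop (by omega : i + 1 ≠ 0)).comp ?_).const_div_atTop _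
    simp only [hL]
    exact tendsto_atTop_add_const_right _ _
      (tendsto_natCast_atTop_atTop.comp (tendsto_add_atTop_nat l))
  have hmain : Tendsto (fun M => ∑ i ∈ range S, T i *
      ((v : ℝ) ^ (i + 1) * ∑ x ∈ range (M * v), 1 / ((x : ℝ) + 1) ^ (i + 1))) atTop
      (𝓝 (∑ k ∈ range (S + 1), A k * (v : ℝ) ^ k * zetaSum k)) := by
    rw [sum_range_succ' (fun k => A k * (v : ℝ) ^ k * zetaSum k),
      show A 0 = 0 by simp [hA], zero_mul, zero_mul, add_zero]
    refine tendsto_finsetSum _ fun i hi => ?_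
    have hAi : A (i + 1) = T i := by
      simp only [hA]; rw [if_pos ⟨by omega, mem_range.1 hi⟩]; simp
    rw [hAi, mul_assoc]
    rcases eq_or_ne i 0 with rfl | hi0
    · simp [hT0]
    refine (((summable_zetaSum (by omega : 2 ≤ i + 1)).hasSum.tendsto_sum_nat.comp
      (tendsto_id.atTop_mul_const' hv0)).const_mul _).const_mul _
  have := hmain.add (hlim0.sub_const (∑ u ∈ range v, ∑ j ∈ range (n + 1), ∑ l ∈ range j,
    ∑ i ∈ range S, a i j / L u l ^ (i + 1)))
  rw [zero_sub, ← sub_eq_add_neg] at this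
  exact this.congr fun M => (hexp M).symm

end FA.ZetaOdd
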