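import Fermat.Agent.ZetaOdd.Fractions

/-!
# The rational function of Sprang and of Fischler, Sprang and Zudilin

`rat n D e t = n! ^ e D ^ (3 D n) ∏_{i ≤ 3 D n} (t - n + i / D) / ∏_{j ≤ n} (t + j) ^ (3 D + e)`,
its antisymmetry `t ↦ -n - t`, its zeros `m + u / D` with `0 ≤ m < n` and its size on `t ≥ n`.
-/

open Finset Polynomial Filter Topology
open scoped Nat

noncomputable section

namespace FA.ZetaOdd

variable {n D e : ℕ}

/-- `t (t + 1) ⋯ (t + n)`. -/
def den (n : ℕ) (t : ℝ) : ℝ := ∏ j ∈ range (n + 1), (t + j)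

/-- The rational function `R_n`, with `3 D + e` as the order of its poles. -/
def rat (n D e : ℕ) (t : ℝ) : ℝ :=
  (n ! : ℝ) ^ e * (∏ i ∈ range (3 * D * n + 1), ((D : ℝ) * (t - n) + i)) / D /
    den n t ^ (3 * D + e)

theorem den_ne_zero (t : PoleFree n) : den n t.1 ≠ 0 := prod_ne_zero_iff.2 t.2

theorem den_pos {t : ℝ} (ht : 0 < t) : 0 < den n t := prod_pos fun j _ => by positivity

/-- A positive number as a point away from the poles. -/
def posPoint (n : ℕ) {t : ℝ} (ht : 0 < t) : PoleFree n :=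
  ⟨t, fun j _ => by positivity⟩

theorem den_neg (t : ℝ) : den n (-(n : ℝ) - t) = (-1) ^ (n + 1) * den n t := by
  rw [den, den, ← prod_range_reflect,
    show ((-1 : ℝ) ^ (n + 1)) = ∏ _j ∈ range (n + 1), (-1 : ℝ) by simp, ← prod_mul_distrib]
  refine prod_congr rfl fun j hj => ?_
  have : j < n + 1 := mem_range.1 hj
  rw [show n + 1 - 1 - j = n - j by omega, Nat.cast_sub (by omega)]
  ring

/-- `R_n(-n - t) = -R_n(t)` when `D` and the order of the poles are even. -/
theorem rat_neg (hD : Even D) (he : Even e) (t : ℝ) :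
    rat n D e (-(n : ℝ) - t) = -rat n D e t := by
  have hS : Even (3 * D + e) := (hD.mul_left 3).add he
  have hnum : ∏ i ∈ range (3 * D * n + 1), ((D : ℝ) * (-(n : ℝ) - t - n) + i) =
      -∏ i ∈ range (3 * D * n + 1), ((D : ℝ) * (t - n) + i) := by
    rw [← prod_range_reflect, ← neg_one_mul (∏ i ∈ range (3 * D * n + 1), ((D : ℝ) * (t - n) + i)),
      ← (show Odd (3 * D * n + 1) from ((hD.mul_left 3).mul_right n).add_one).neg_one_pow (α := ℝ),
      show ((-1 : ℝ) ^ (3 * D * n + 1)) = ∏ _j ∈ range (3 * D * n + 1), (-1 : ℝ) by simp,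
      ← prod_mul_distrib]
    refine prod_congr rfl fun i hi => ?_
    have : i < 3 * D * n + 1 := mem_range.1 hi
    rw [show 3 * D * n + 1 - 1 - i = 3 * D * n - i by omega, Nat.cast_sub (by omega)]
    push_cast
    ring
  rw [rat, rat, hnum, den_neg, mul_pow, ← pow_mul, (hS.mul_left (n + 1)).neg_one_pow]
  ring

theorem sum_range_mul_eq {M : Type*} [AddCommMonoid M] (g : ℕ → M) (m k : ℕ) :
    ∑ i ∈ range (m * k), g i = ∑ r ∈ range m, ∑ l ∈ range k, g (r * k + l) := by
  induction m with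
  | zero => simp
  | succ m ih => rw [Nat.succ_mul, sum_range_add, ih, sum_range_succ]

theorem prod_range_mul_eq {M : Type*} [CommMonoid M] (g : ℕ → M) (m k : ℕ) :
    ∏ i ∈ range (m * k), g i = ∏ r ∈ range m, ∏ l ∈ range k, g (r * k + l) := by
  induction m with
  | zero => simp
  | succ m ih => rw [Nat.succ_mul, prod_range_add, ih, prod_range_succ]

/-- The product of the linear forms `D (t - n) + a + l`, `l < k`, as a polynomial. -/
def blockPoly (n D a k : ℕ) : ℝ[X] :=
  ∏ l ∈ range k, (C (D : ℝ) * (X - C (n : ℝ)) + C ((a + l : ℕ) : ℝ))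

theorem eval_blockPoly (a k : ℕ) (t : ℝ) :
    (blockPoly n D a k).eval t = ∏ l ∈ range k, ((D : ℝ) * (t - n) + (a + l : ℕ)) := by
  simp [blockPoly, eval_prod]

theorem natDegree_blockPoly_le (a k : ℕ) : (blockPoly n D a k).natDegree ≤ k := by
  refine le_trans (natDegree_prod_le _ _) ?_
  refine le_trans (sum_le_sum (g := fun _ => 1) fun l _ => ?_) (by simp)
  compute_degree

theorem exists_int_eval_blockPoly (a k j : ℕ) :
    ∃ z : ℤ, (blockPoly n D a k).eval (-(j : ℝ)) = z * k ! := by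
  obtain ⟨z, hz⟩ := Nat.factorial_coe_dvd_prod k ((D : ℤ) * (-(j : ℤ) - n) + a)
  refine ⟨z, ?_⟩
  rw [eval_blockPoly]
  have h := congrArg (fun x : ℤ => (x : ℝ)) hz
  push_cast at h
  rw [mul_comm (z : ℝ), ← h]
  exact prod_congr rfl fun l _ => by push_cast; ring

/-- A block of `n` consecutive linear forms over the poles. -/
def blockFun (n D a : ℕ) : PoleFree n → ℝ := fun t => (blockPoly n D a n).eval t.1 / den n t.1

/-- A block of `n + 1` consecutive linear forms without the one of index `c`, over the poles. -/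
def gapFun (n D a c : ℕ) : PoleFree n → ℝ :=
  fun t => (blockPoly n D a c * blockPoly n D (a + c + 1) (n - c)).eval t.1 / den n t.1

/-- `n! / (t (t + 1) ⋯ (t + n))`. -/
def pureFun (n : ℕ) : PoleFree n → ℝ := fun t => (n ! : ℝ) / den n t.1

variable {d : ℕ}

theorem blockFun_mem (a : ℕ) :
    (fun t => (d : ℝ) * blockFun n D a t) ∈ poleGroup n d 1 := by
  have h := mem_poleGroup_one (d := d) (blockPoly n D a n) (natDegree_blockPoly_le a n) 1
    (fun j hj => by
      obtain ⟨z, hz⟩ := exists_int_eval_blockPoly (n := n) (D := D) a n j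
      refine ⟨z * n.choose j, ?_⟩
      rw [hz, ← Nat.choose_mul_factorial_mul_factorial hj]
      push_cast
      ring)
  simpa only [one_mul, blockFun, den] using h

theorem gapFun_mem (a : ℕ) {c : ℕ} (hc : c ≤ n) (hd : n.choose c ∣ d) :
    (fun t => (d : ℝ) * ((d : ℝ) * gapFun n D a c t)) ∈ poleGroup n d 1 := by
  obtain ⟨q, hq⟩ := hd
  have h := mem_poleGroup_one (n := n) (d := d)
    (blockPoly n D a c * blockPoly n D (a + c + 1) (n - c))
    (le_trans natDegree_mul_le ((Nat.add_le_add (natDegree_blockPoly_le _ _)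
      (natDegree_blockPoly_le _ _)).trans (by omega))) (d : ℝ)
    (fun j hj => by
      obtain ⟨z, hz⟩ := exists_int_eval_blockPoly (n := n) (D := D) a c j
      obtain ⟨z', hz'⟩ := exists_int_eval_blockPoly (n := n) (D := D) (a + c + 1) (n - c) j
      refine ⟨z * z' * q * n.choose j, ?_⟩
      have e₁ : (n.choose c : ℝ) * c ! * (n - c)! = (n ! : ℝ) := by
        exact_mod_cast Nat.choose_mul_factorial_mul_factorial hc
      have e₂ : (n.choose j : ℝ) * j ! * (n - j)! = (n ! : ℝ) := by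
        exact_mod_cast Nat.choose_mul_factorial_mul_factorial hj
      rw [eval_mul, hz, hz', hq]
      push_cast
      linear_combination (z : ℝ) * z' * q * e₁ - (z : ℝ) * z' * q * e₂)
  simpa only [gapFun, den, mul_div_assoc] using h

theorem pureFun_mem : (fun t => (d : ℝ) * pureFun n t) ∈ poleGroup n d 1 := by
  have h := mem_poleGroup_one (n := n) (d := d) 1 (by simp) (n ! : ℝ)
    (fun j hj => by
      refine ⟨n.choose j, ?_⟩
      rw [← Nat.choose_mul_factorial_mul_factorial hj]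
      push_cast
      rw [eval_one]
      ring)
  simpa only [eval_one, mul_one, pureFun, den] using h

/-- `R_n` with the zero of index `q n + c` taken out, as a product of simple fractions. -/
def remFun (n D e q c : ℕ) : PoleFree n → ℝ := fun t =>
  gapFun n D (q * n) c t * (∏ r ∈ range q, blockFun n D (r * n) t) *
    (∏ r ∈ range (3 * D - q - 1), blockFun n D (q * n + n + 1 + r * n) t) * pureFun n t ^ e

theorem rat_eq_remFun {q c : ℕ} (hq : q < 3 * D) (hc : c ≤ n) (t : PoleFree n) :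
    rat n D e t.1 = ((D : ℝ) * (t.1 - n) + (q * n + c : ℕ)) / D * remFun n D e q c t := by
  obtain ⟨p, hp⟩ : ∃ p, 3 * D = q + 1 + p := ⟨3 * D - q - 1, by omega⟩
  have hlen : 3 * D * n + 1 = q * n + c + 1 + (n - c) + p * n := by
    rw [hp, add_mul, add_mul, one_mul]; omega
  set x : ℝ := (D : ℝ) * (t.1 - n)
  have hden := den_ne_zero t
  simp only [rat, remFun, gapFun, blockFun, pureFun, eval_mul, eval_blockPoly]
  rw [hlen, prod_range_add, prod_range_add, prod_range_succ, prod_range_add,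
    prod_range_mul_eq _ q n, prod_range_mul_eq _ p n, hp,
    show q + 1 + p - q - 1 = p by omega]
  simp only [prod_div_distrib, prod_const, card_range, div_pow]
  have e₁ : ∀ l, q * n + c + 1 + (n - c) + l = q * n + n + 1 + l := fun l => by omega
  simp only [e₁, ← add_assoc, Nat.cast_add, Nat.cast_mul, Nat.cast_one]
  rw [pow_add, pow_add, pow_add, pow_one]
  field_simp
  ring

theorem remFun_mem (hd : ∀ δ : ℕ, 1 ≤ δ → δ ≤ n → δ ∣ d) {q c : ℕ} (hq : q < 3 * D) (hc : c ≤ n)
    (hC : n.choose c ∣ d) :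
    (fun t => (d : ℝ) ^ (3 * D + e + 1) * remFun n D e q c t) ∈ poleGroup n d (3 * D + e) := by
  obtain ⟨p, hp⟩ : ∃ p, 3 * D = q + 1 + p := ⟨3 * D - q - 1, by omega⟩
  have h := mul_prod_mem_poleGroup hd (mul_prod_mem_poleGroup hd (mul_prod_mem_poleGroup hd
    (gapFun_mem (D := D) (q * n) hc hC) (g := fun r t => (d : ℝ) * blockFun n D (r * n) t) q
      fun r _ => blockFun_mem _) (g := fun r t => (d : ℝ) * blockFun n D (q * n + n + 1 + r * n) t)
      p fun r _ => blockFun_mem _) (g := fun _ t => (d : ℝ) * pureFun n t) e fun _ _ => pureFun_mem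
  rw [show 3 * D + e = 1 + q + p + e by omega]
  refine Eq.subst (motive := (· ∈ poleGroup n d (1 + q + p + e))) ?_ h
  funext t
  simp only [remFun, Pi.mul_apply, Pi.pow_apply, Finset.prod_apply, prod_mul_distrib, prod_const,
    card_range, mul_pow,
    show 3 * D - q - 1 = p by omega, pow_add, pow_one]
  ring

/-- The zeros of `R_n` at the points `m + u / D`, `m < n`, `1 ≤ u ≤ D`. -/
theorem rat_eq_zero (hD : 1 ≤ D) {m u : ℕ} (hm : m < n) (hu : 1 ≤ u) (huD : u ≤ D) :
    rat n D e ((m : ℝ) + u / D) = 0 := by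
  obtain ⟨k, rfl⟩ : ∃ k, n = m + 1 + k := ⟨n - m - 1, by omega⟩
  have hk : D * (1 + k) - u < 3 * D * (m + 1 + k) + 1 := by
    have : D * (1 + k) ≤ 3 * D * (m + 1 + k) := Nat.mul_le_mul (by omega) (by omega)
    omega
  have hle : u ≤ D * (1 + k) := le_trans huD (Nat.le_mul_of_pos_right _ (by omega))
  rw [rat, prod_eq_zero (mem_range.2 hk), mul_zero, zero_div, zero_div]
  have : (D : ℝ) ≠ 0 := by positivity
  rw [Nat.cast_sub hle]
  push_cast
  field_simp
  ring

theorem rat_nonneg {t : ℝ} (ht : (n : ℝ) ≤ t) : 0 ≤ rat n D e t := by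
  have h0 : 0 ≤ t := le_trans (Nat.cast_nonneg n) ht
  have h1 : 0 ≤ t - n := sub_nonneg.2 ht
  have h2 : 0 ≤ den n t := prod_nonneg fun j _ => by positivity
  unfold rat
  positivity

theorem den_ge_pow {t : ℝ} (ht : 0 ≤ t) : t ^ (n + 1) ≤ den n t := by
  calc t ^ (n + 1) = ∏ _j ∈ range (n + 1), t := by simp
    _ ≤ den n t := prod_le_prod (fun _ _ => ht) fun j _ => le_add_of_nonneg_right j.cast_nonneg

theorem choose_mul_factorial_le_den (hn : 1 ≤ n) {t : ℝ} (ht : (n : ℝ) ≤ t) :
    (n.centralBinom : ℝ) * n ! ≤ den n t := by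
  have h1 : (1 : ℝ) ≤ n := by exact_mod_cast hn
  have e₁ : (n.centralBinom : ℝ) * n ! = ∏ j ∈ range n, ((n + 1 + j : ℕ) : ℝ) := by
    rw [Nat.centralBinom, ← Nat.cast_prod, ← Nat.ascFactorial_eq_prod_range,
      show 2 * n = n + n by omega, Nat.ascFactorial_eq_factorial_mul_choose]
    push_cast
    ring
  rw [e₁, den, prod_range_succ']
  calc (∏ j ∈ range n, ((n + 1 + j : ℕ) : ℝ))
      ≤ ∏ j ∈ range n, (t + ((j + 1 : ℕ) : ℝ)) :=
        prod_le_prod (fun _ _ => Nat.cast_nonneg _) fun j _ => by push_cast; linarith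
    _ ≤ _ := le_mul_of_one_le_right (prod_nonneg fun j _ => by
        have : (0 : ℝ) ≤ t := by linarith
        positivity) (by push_cast; linarith)

/-- The size of `R_n` on `t ≥ n`. -/
theorem rat_le (hn : 1 ≤ n) (hD : 1 ≤ D) (e' : ℕ) {t : ℝ} (ht : (n : ℝ) ≤ t) :
    rat n D (2 + e') t ≤ 3 * (3 * D) ^ (3 * D * n) / (n.centralBinom : ℝ) ^ e' / t ^ 2 := by
  have hn1 : (1 : ℝ) ≤ n := by exact_mod_cast hn
  have ht1 : 1 ≤ t := le_trans hn1 ht
  have ht0 : 0 < t := by linarith
  have hD1 : (1 : ℝ) ≤ D := by exact_mod_cast hD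
  have hCB : (0 : ℝ) < n.centralBinom := by exact_mod_cast Nat.centralBinom_pos n
  have hfac : (0 : ℝ) < (n ! : ℝ) := by exact_mod_cast Nat.factorial_pos n
  set N := 3 * D * n with hN
  have hnum : ∏ i ∈ range (N + 1), ((D : ℝ) * (t - n) + i) ≤ (3 * D * t) ^ (N + 1) := by
    calc ∏ i ∈ range (N + 1), ((D : ℝ) * (t - n) + i) ≤ ∏ _i ∈ range (N + 1), (3 * D * t) := by
          refine prod_le_prod (fun i _ => ?_) fun i hi => ?_
          · have : 0 ≤ t - n := sub_nonneg.2 ht
            positivity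
          · have : (i : ℝ) ≤ (N : ℕ) := by exact_mod_cast Nat.lt_succ_iff.1 (mem_range.1 hi)
            rw [hN] at this
            push_cast at this
            nlinarith
      _ = _ := by simp
  have hden : t ^ ((n + 1) * (3 * D + 2)) * ((n.centralBinom : ℝ) * n !) ^ e' ≤
      den n t ^ (3 * D + (2 + e')) := by
    rw [show 3 * D + (2 + e') = 3 * D + 2 + e' by ring, pow_add, pow_mul]
    gcongr
    · exact pow_nonneg (den_pos ht0).le _
    · exact den_ge_pow ht0.le
    · exact choose_mul_factorial_le_den hn ht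
  have hexp : (n + 1) * (3 * D + 2) = N + 1 + (2 * n + (3 * D + 1)) := by rw [hN]; ring
  have hfac2 : (n ! : ℝ) ^ 2 * t ^ 2 ≤ t ^ (2 * n + (3 * D + 1)) := by
    rw [pow_add t (2 * n) (3 * D + 1)]
    refine mul_le_mul ?_ (pow_le_pow_right₀ ht1 (by omega)) (by positivity) (by positivity)
    rw [mul_comm 2 n, pow_mul]
    gcongr
    calc (n ! : ℝ) ≤ (n ^ n : ℕ) := by exact_mod_cast Nat.factorial_le_pow n
      _ = (n : ℝ) ^ n := by push_cast; ring
      _ ≤ t ^ n := by gcongr
  have hP : 0 ≤ ∏ i ∈ range (N + 1), ((D : ℝ) * (t - n) + i) := prod_nonneg fun i _ => by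
    have : 0 ≤ t - n := sub_nonneg.2 ht
    positivity
  calc rat n D (2 + e') t
      ≤ (n ! : ℝ) ^ (2 + e') * (3 * D * t) ^ (N + 1) / D /
          (t ^ ((n + 1) * (3 * D + 2)) * ((n.centralBinom : ℝ) * n !) ^ e') := by
        rw [rat]; gcongr
    _ = 3 * (3 * D) ^ N / (n.centralBinom : ℝ) ^ e' *
          ((n ! : ℝ) ^ 2 / t ^ (2 * n + (3 * D + 1))) := by
        rw [hexp, pow_add, pow_add t (N + 1), mul_pow _ t, pow_succ (3 * (D : ℝ)) N,
          mul_pow _ (n ! : ℝ)]
        field_simp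
    _ ≤ 3 * (3 * D) ^ N / (n.centralBinom : ℝ) ^ e' * (1 / t ^ 2) := by
        refine mul_le_mul_of_nonneg_left ?_ (by positivity)
        rw [div_le_div_iff₀ (by positivity) (by positivity), one_mul]
        exact hfac2
    _ = _ := by ring

end FA.ZetaOdd
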