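import Fermat.Agent.Apery.Chebyshev
import Fermat.Agent.ZetaOdd.BallRivoal
import Fermat.Agent.ZetaOdd.Criterion

/-!
# Rivoal's theorem

With `r = 2 ^ u` and `c = 2 r (u + 4) + 4` the forms of Ball and Rivoal have coefficients at most
`2 ^ (6 c n)` and lie between `2 ^ (-c (u + 5) n)` and `2 ^ (-c (u - 4) n)`, so by the criterion
the space of `1, ζ(3), ζ(5), …, ζ(2 r + c)` has dimension at least `(u - 4) / 15 + 1`, while
`2 r + c = 2 ^ (u + 1) (u + 5) + 4`.
-/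

open Finset Filter Topology

noncomputable section

namespace FA.ZetaOdd

theorem eventually_mul_pow_le (K : ℝ) (k : ℕ) :
    ∀ᶠ n : ℕ in atTop, K * ((n : ℝ) + 1) ^ k ≤ (2 : ℝ) ^ n := by
  have h := (tendsto_pow_const_mul_const_pow_of_lt_one k (r := (1 : ℝ) / 2) (by norm_num)
    (by norm_num)).const_mul (|K| * 2 ^ k)
  rw [mul_zero] at h
  filter_upwards [h.eventually_lt_const one_pos, eventually_ge_atTop 1] with n hn hn1
  have hn' : (1 : ℝ) ≤ n := by exact_mod_cast hn1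
  calc K * ((n : ℝ) + 1) ^ k ≤ |K| * (2 * (n : ℝ)) ^ k := by
        gcongr
        · exact le_abs_self K
        · linarith
    _ = |K| * 2 ^ k * ((n : ℝ) ^ k * (1 / 2 : ℝ) ^ n) * 2 ^ n := by
        rw [mul_pow, div_pow, one_pow]
        field_simp
    _ ≤ 1 * 2 ^ n := by gcongr
    _ = _ := one_mul _

theorem three_pow_le_two_pow (a : ℕ) : (3 : ℝ) ^ a ≤ 2 ^ (2 * a) := by
  rw [pow_mul]; gcongr; norm_num

theorem lcm_pow_le {C : ℝ} (S n : ℕ) (h : (Nat.lcmUpto n : ℝ) ≤ C * (31 / 10) ^ n) (hC : 0 ≤ C) :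
    (Nat.lcmUpto n : ℝ) ^ S ≤ C ^ S * 2 ^ (2 * S * n) := by
  calc (Nat.lcmUpto n : ℝ) ^ S ≤ (C * 4 ^ n) ^ S := by
        gcongr
        exact le_trans h (by gcongr; norm_num)
    _ = C ^ S * 2 ^ (2 * S * n) := by
        rw [mul_pow, ← pow_mul, mul_assoc 2 S n, pow_mul (2 : ℝ) 2, mul_comm S n]
        norm_num

/-- The exponential lower bound of the linear form. -/
theorem eventually_le_brSum {r u c : ℕ} (hu : r = 2 ^ u) (hr : 2 ≤ r) (hc : 8 * r ≤ c) :
    ∀ᶠ n : ℕ in atTop, ((2 : ℝ) ^ (c * (u + 5) * n))⁻¹ ≤ brSum n r c := by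
  obtain ⟨S, hS⟩ : ∃ S, S = 2 * r + c := ⟨_, rfl⟩
  filter_upwards [eventually_mul_pow_le ((2 * (r : ℝ)) ^ S) S, eventually_ge_atTop 1]
    with n hP hn
  refine le_trans ?_ (brSum_ge hn hr (by omega))
  have hn' : (0 : ℝ) < n := by exact_mod_cast hn
  have hr' : (0 : ℝ) < r := by exact_mod_cast (show 0 < r by omega)
  push_cast
  rw [← hS, le_div_iff₀ (by positivity), inv_mul_le_iff₀ (by positivity)]
  have hP' : (2 * (r : ℝ) * n) ^ S ≤ (2 : ℝ) ^ n := by
    refine le_trans ?_ hP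
    rw [mul_pow]
    gcongr
    linarith
  have hexp : n + (S * n + u * (c * n) + 2 * (c * n + r * n)) ≤ c * (u + 5) * n := by
    have h1 : 8 * r * n ≤ c * n := Nat.mul_le_mul_right _ hc
    have h2 : n ≤ r * n := Nat.le_mul_of_pos_left _ (by omega)
    rw [hS]
    nlinarith
  have hru : (r : ℝ) ^ (c * n) = (2 : ℝ) ^ (u * (c * n)) := by
    rw [hu, Nat.cast_pow, ← pow_mul]; norm_num
  have h3 := three_pow_le_two_pow (c * n + r * n)
  have key : (2 * (r : ℝ) * n) ^ S * ((2 : ℝ) ^ (S * n) * (r : ℝ) ^ (c * n) *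
      (3 : ℝ) ^ (c * n + r * n)) ≤ (2 : ℝ) ^ (c * (u + 5) * n) := by
    rw [hru, ← pow_add]
    calc (2 * (r : ℝ) * n) ^ S * ((2 : ℝ) ^ (S * n + u * (c * n)) * 3 ^ (c * n + r * n))
        ≤ 2 ^ n * ((2 : ℝ) ^ (S * n + u * (c * n)) * 2 ^ (2 * (c * n + r * n))) := by gcongr
      _ ≤ _ := by
          rw [← pow_add, ← pow_add]
          exact pow_le_pow_right₀ one_le_two hexp
  rw [div_pow ((n : ℝ) ^ n) ((3 : ℝ) ^ n) c]
  calc ((2 * ((r : ℝ) * n)) ^ (n + 1)) ^ S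
      = ((2 * (r : ℝ) * n) ^ S * ((2 : ℝ) ^ (S * n) * (r : ℝ) ^ (c * n) *
          (3 : ℝ) ^ (c * n + r * n))) *
        (((n : ℝ) ^ n) ^ c / ((3 : ℝ) ^ n) ^ c * (((r : ℝ) * n) ^ (r * n) / 3 ^ (r * n) *
          ((r : ℝ) * n) ^ (r * n))) := by
        rw [hS]
        simp only [mul_pow, pow_add, ← pow_mul]
        field_simp
        ring
    _ ≤ _ := mul_le_mul_of_nonneg_right key (by positivity)

/-- The level `2 r + c` of the forms for `r = 2 ^ (v + 4)`. -/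
def brLevel (v : ℕ) : ℕ := 2 ^ (v + 5) * (v + 9) + 4

/-- **The dimension of a space containing `1, ζ(3), ζ(5), …` up to `brLevel v`.** -/
theorem add_le_of_mem_span {m v : ℕ} (β : Fin m → ℝ)
    (hone : (1 : ℝ) ∈ Submodule.span ℚ (Set.range β))
    (hzeta : ∀ k, Odd k → 3 ≤ k → k ≤ brLevel v →
      zetaSum k ∈ Submodule.span ℚ (Set.range β)) : v + 15 ≤ 15 * m := by
  rcases Nat.eq_zero_or_pos m with rfl | hm
  · simp [Set.range_eq_empty] at hone
  obtain ⟨u, hu⟩ : ∃ u, u = v + 4 := ⟨_, rfl⟩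
  obtain ⟨r, hr⟩ : ∃ r, r = 2 ^ u := ⟨_, rfl⟩
  obtain ⟨c, hc⟩ : ∃ c, c = 2 * r * (u + 4) + 4 := ⟨_, rfl⟩
  obtain ⟨S, hS⟩ : ∃ S, S = 2 * r + c := ⟨_, rfl⟩
  have hr2 : 2 ≤ r := by
    rw [hr]; calc 2 = 2 ^ 1 := rfl
      _ ≤ _ := Nat.pow_le_pow_right two_pos (by omega)
  have hc8 : 8 * r ≤ c := by
    have : 8 * r ≤ 2 * r * (u + 4) := by nlinarith
    omega
  have hceven : Even c := by rw [hc]; exact ⟨r * (u + 4) + 2, by ring⟩
  have hlevel : brLevel v = S := by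
    rw [brLevel, hS, hc, hr, hu, show v + 5 = v + 4 + 1 by ring, pow_succ]; ring
  rw [hlevel] at hzeta
  -- rational coordinates and a common denominator
  have hcoord : ∀ k : ℕ, ∃ q : Fin m → ℚ, (k = 1 → ∑ i, q i • β i = (1 : ℝ)) ∧
      (Odd k ∧ 3 ≤ k ∧ k ≤ S → ∑ i, q i • β i = zetaSum k) := by
    intro k
    by_cases hk1 : k = 1
    · obtain ⟨q, hq⟩ := (Submodule.mem_span_range_iff_exists_fun ℚ).1 hone
      exact ⟨q, fun _ => hq, fun h => absurd h.2.1 (by omega)⟩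
    by_cases hk : Odd k ∧ 3 ≤ k ∧ k ≤ S
    · obtain ⟨q, hq⟩ :=
        (Submodule.mem_span_range_iff_exists_fun ℚ).1 (hzeta k hk.1 hk.2.1 hk.2.2)
      exact ⟨q, fun h => absurd h hk1, fun _ => hq⟩
    · exact ⟨0, fun h => absurd h hk1, fun h => absurd h hk⟩
  choose q hq1 hqz using hcoord
  set Q : ℕ := ∏ k ∈ range (S + 1), ∏ i : Fin m, (q k i).den with hQ
  have hQ0 : 0 < Q := prod_pos fun k _ => prod_pos fun i _ => (q k i).den_pos
  have hQint : ∀ k i, ∃ z : ℤ, k ≤ S → (Q : ℝ) * (q k i : ℝ) = z := by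
    intro k i
    by_cases hk : k ≤ S
    · obtain ⟨w, hw⟩ : (q k i).den ∣ Q :=
        (dvd_prod_of_mem (fun i => (q k i).den) (mem_univ i)).trans
          (dvd_prod_of_mem (fun k => ∏ i : Fin m, (q k i).den) (mem_range.2 (Nat.lt_succ_of_le hk)))
      refine ⟨(w : ℤ) * (q k i).num, fun _ => ?_⟩
      rw [hw, Rat.cast_def]
      have : ((q k i).den : ℝ) ≠ 0 := by exact_mod_cast (q k i).den_nz
      push_cast
      field_simp
    · exact ⟨0, fun h => absurd h hk⟩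
  choose P hP using hQint
  -- the forms
  have hforms : ∀ n : ℕ, ∃ (z : ℕ → ℤ) (zE : ℤ), 1 ≤ n →
      (∀ k, z k ≠ 0 → Odd k ∧ 3 ≤ k ∧ k ≤ S) ∧
      (∀ k, |(z k : ℝ)| ≤ (Nat.lcmUpto n : ℝ) ^ S *
        (2 * (S : ℝ) * ((n : ℝ) + 1) ^ 3 * brH n r c)) ∧
      |(zE : ℝ)| ≤ (Nat.lcmUpto n : ℝ) ^ S * (2 * (S : ℝ) * ((n : ℝ) + 1) ^ 3 * brH n r c) ∧
      (Nat.lcmUpto n : ℝ) ^ S * brSum n r c =
        (∑ k ∈ range (S + 1), (z k : ℝ) * zetaSum k) - zE := by
    intro n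
    by_cases hn : 1 ≤ n
    · obtain ⟨z, zE, h1, h2, h3, h4⟩ := exists_br_forms (n := n) hn (by omega : 1 ≤ r) hceven
        (by omega) (Nat.lcmUpto_pos n)
        fun δ h h' => Finset.dvd_lcm (f := id) (mem_Icc.2 ⟨h, h'⟩)
      rw [← hS] at h1 h2 h3 h4
      exact ⟨z, zE, fun _ => ⟨h1, h2, h3, h4⟩⟩
    · exact ⟨0, 0, fun h => absurd h hn⟩
  choose z zE hzE using hforms
  set p : ℕ → Fin m → ℤ := fun n i =>
    (∑ k ∈ range (S + 1), z n k * P k i) - zE n * P 1 i with hp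
  have h1S : 1 ≤ S := by omega
  have hval : ∀ n, 1 ≤ n →
      ∑ i, (p n i : ℝ) * β i = (Q : ℝ) * ((Nat.lcmUpto n : ℝ) ^ S * brSum n r c) := by
    intro n hn
    obtain ⟨h1, -, -, h4⟩ := hzE n hn
    have hPi : ∀ k ≤ S, ∑ i, (P k i : ℝ) * β i = (Q : ℝ) * ∑ i, q k i • β i := by
      intro k hk
      rw [mul_sum]
      exact sum_congr rfl fun i _ => by rw [← hP k i hk, Rat.smul_def, mul_assoc]
    rw [h4, mul_sub, mul_sum]
    simp only [hp, Int.cast_sub, Int.cast_sum, Int.cast_mul, sub_mul, sum_mul, sum_sub_distrib]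
    congr 1
    · rw [sum_comm]
      refine sum_congr rfl fun k hk => ?_
      have hkS : k ≤ S := Nat.lt_succ_iff.1 (mem_range.1 hk)
      rcases eq_or_ne (z n k) 0 with h0 | h0
      · simp [h0]
      rw [← hqz k (h1 k h0), sum_congr rfl fun i _ => mul_assoc _ _ _, ← mul_sum, hPi k hkS]
      ring
    · rw [sum_congr rfl fun i _ => mul_assoc _ _ _, ← mul_sum, hPi 1 h1S, hq1 1 rfl]
      ring
  obtain ⟨C, hC0, hC⟩ := FA.Apery.exists_lcmUpto_le
  set M : ℝ := ∑ k ∈ range (S + 1), ∑ i : Fin m, |(P k i : ℝ)| with hM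
  have hPM : ∀ k ≤ S, ∀ i, |(P k i : ℝ)| ≤ M := by
    intro k hk i
    refine le_trans ?_ (single_le_sum (f := fun k => ∑ i : Fin m, |(P k i : ℝ)|)
      (fun k _ => sum_nonneg fun i _ => abs_nonneg _) (mem_range.2 (Nat.lt_succ_of_le hk)))
    exact single_le_sum (f := fun i => |(P k i : ℝ)|) (fun i _ => abs_nonneg _) (mem_univ i)
  have hM0 : 0 ≤ M := sum_nonneg fun k _ => sum_nonneg fun i _ => abs_nonneg _
  have hdim : c * v ≤ c * (15 * (m - 1)) → v + 15 ≤ 15 * m := fun h => by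
    have := Nat.le_of_mul_le_mul_left h (by omega)
    omega
  refine hdim ((forms_dimension_le β p (t₁ := c * (v + 9)) (t₂ := c * v) (s := 6 * c) ?_).trans
    (le_of_eq (by rw [Nat.mul_add c v 9, Nat.add_sub_cancel_left]; ring)))
  filter_upwards [eventually_ge_atTop 1,
    eventually_mul_pow_le (((S : ℝ) + 2) * M * (C ^ S * (2 * (S : ℝ) * (S : ℝ) ^ S))) 3,
    eventually_mul_pow_le ((Q : ℝ) * (C ^ S * (3 * zetaSum 2))) 0,
    eventually_le_brSum hr hr2 hc8] with n hn hcoef hup hlow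
  obtain ⟨-, hzb, hzEb, -⟩ := hzE n hn
  have hd := lcm_pow_le S n (hC n) hC0.le
  have hsum0 : 0 ≤ brSum n r c := tsum_nonneg fun l => brRat_nonneg hn (by omega) (by omega) l
  refine ⟨fun i => ?_, ?_, ?_⟩
  · set W : ℝ := C ^ S * (2 * (S : ℝ) * (S : ℝ) ^ S) * ((n : ℝ) + 1) ^ 3 *
      2 ^ (2 * S * n + 2 * (c * n)) with hW
    have hH : (Nat.lcmUpto n : ℝ) ^ S * (2 * (S : ℝ) * ((n : ℝ) + 1) ^ 3 * brH n r c) ≤ W := by
      have h6 : (6 * ((r : ℝ) + 1)) ^ (2 * r * n) ≤ (2 : ℝ) ^ (c * n) := by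
        have h1 : 6 * ((r : ℝ) + 1) ≤ (2 : ℝ) ^ (u + 4) := by
          have h2 : (2 : ℝ) ≤ r := by exact_mod_cast hr2
          rw [pow_add, show (2 : ℝ) ^ u = r by rw [hr]; push_cast; rfl]
          linarith
        calc (6 * ((r : ℝ) + 1)) ^ (2 * r * n) ≤ ((2 : ℝ) ^ (u + 4)) ^ (2 * r * n) := by gcongr
          _ ≤ _ := by
              rw [← pow_mul]
              refine pow_le_pow_right₀ one_le_two ?_
              rw [hc]
              nlinarith
      calc (Nat.lcmUpto n : ℝ) ^ S * (2 * (S : ℝ) * ((n : ℝ) + 1) ^ 3 * brH n r c)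
          ≤ C ^ S * 2 ^ (2 * S * n) * (2 * (S : ℝ) * ((n : ℝ) + 1) ^ 3 *
              ((S : ℝ) ^ S * 2 ^ (c * n) * 2 ^ (c * n))) := by
            rw [brH, ← hS]
            gcongr
        _ = W := by rw [hW, pow_add, two_mul (c * n), pow_add]; ring
    calc |((p n i : ℤ) : ℝ)| ≤ ((S : ℝ) + 2) * (W * M) := by
          simp only [hp]
          push_cast
          refine le_trans (abs_sub _ _) ?_
          rw [show ((S : ℝ) + 2) * (W * M) = ((S + 1 : ℕ) : ℝ) * (W * M) + W * M by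
            push_cast; ring]
          refine add_le_add (le_trans (abs_sum_le_sum_abs _ _) (le_trans (sum_le_card_nsmul _ _
            (W * M) fun k hk => ?_) (le_of_eq (by rw [card_range, nsmul_eq_mul])))) ?_
          · rw [abs_mul]
            exact mul_le_mul (le_trans (hzb k) hH) (hPM k (Nat.lt_succ_iff.1 (mem_range.1 hk)) i)
              (abs_nonneg _) (le_trans (abs_nonneg _) (le_trans (hzb k) hH))
          · rw [abs_mul]
            exact mul_le_mul (le_trans hzEb hH) (hPM 1 h1S i)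
              (abs_nonneg _) (le_trans (abs_nonneg _) (le_trans hzEb hH))
      _ = ((S : ℝ) + 2) * M * (C ^ S * (2 * (S : ℝ) * (S : ℝ) ^ S)) * ((n : ℝ) + 1) ^ 3 *
            2 ^ (2 * S * n + 2 * (c * n)) := by rw [hW]; ring
      _ ≤ 2 ^ n * 2 ^ (2 * S * n + 2 * (c * n)) := by gcongr
      _ ≤ _ := by
          rw [← pow_add]
          refine pow_le_pow_right₀ one_le_two ?_
          have h1 : 8 * r * n ≤ c * n := Nat.mul_le_mul_right _ hc8
          have h2 : n ≤ r * n := Nat.le_mul_of_pos_left _ (by omega)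
          rw [hS]
          nlinarith
  · rw [hval n hn, abs_of_nonneg (by positivity), show v + 9 = u + 5 by omega]
    refine le_trans hlow (le_trans ?_ (le_mul_of_one_le_left (by positivity)
      (by exact_mod_cast hQ0)))
    exact le_mul_of_one_le_left hsum0 (one_le_pow₀ (by exact_mod_cast Nat.lcmUpto_pos n))
  · rw [hval n hn, abs_of_nonneg (by positivity)]
    rw [pow_zero, mul_one] at hup
    have hz2 : 0 ≤ zetaSum 2 := tsum_nonneg fun _ => by positivity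
    calc (Q : ℝ) * ((Nat.lcmUpto n : ℝ) ^ S * brSum n r c)
        ≤ (Q : ℝ) * (C ^ S * 2 ^ (2 * S * n) *
            (3 * 2 ^ (2 * (r * n)) / (r : ℝ) ^ (n * c) * zetaSum 2)) := by
          refine mul_le_mul_of_nonneg_left (mul_le_mul hd ?_ hsum0 (by positivity)) (by positivity)
          refine le_trans (brSum_le hn (by omega) (by omega)) ?_
          gcongr
          exact three_pow_le_two_pow _
      _ = (Q : ℝ) * (C ^ S * (3 * zetaSum 2)) *
            (2 ^ (2 * S * n + 2 * (r * n)) / (2 : ℝ) ^ (u * (n * c))) := by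
          rw [show ((r : ℝ) ^ (n * c)) = (2 : ℝ) ^ (u * (n * c)) by
            rw [hr]; push_cast; rw [← pow_mul], pow_add]
          ring
      _ ≤ 2 ^ n * (2 ^ (2 * S * n + 2 * (r * n)) / (2 : ℝ) ^ (u * (n * c))) := by gcongr
      _ ≤ _ := by
          rw [mul_div_assoc', div_le_iff₀ (by positivity), le_inv_mul_iff₀ (by positivity),
            ← pow_add, ← pow_add]
          refine pow_le_pow_right₀ one_le_two ?_
          have h1 : 8 * r * n ≤ c * n := Nat.mul_le_mul_right _ hc8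
          have h2 : n ≤ r * n := Nat.le_mul_of_pos_left _ (by omega)
          rw [hS, hu]
          nlinarith

end FA.ZetaOdd
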